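import Fermat.Agent.PlaceRed.Defs
import Fermat.Agent.Curves.RRMult
import Fermat.Prelude.Def_AlgebraicCurve_BaseChangeGalois

/-!
# Linear algebra Jacobian: setting

`Ctx A π F F' g`: a constant reduction of a curve of genus `g` to a curve of the same genus, a
place map, a base place `inf`, and for every `N` a fixed integral basis of `L(N • inf)` with
independent reductions.
-/

set_option autoImplicit false

noncomputable section

open AlgebraicCurve

namespace FLTA.Grass

variable {K : Type*} [Field K] (A : ValuationSubring K) {k : Type*} [Field k] (π : A →+* k)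

/-- The data on which the linear algebra Jacobian is built. -/
structure Ctx (F : Type*) [Field F] [Algebra K F] (F' : Type*) [Field F'] [Algebra k F']
    (g : ℕ) where
  R : FLTA.PlaceRed.ConstRed A π F F'
  rrK : FLTA.PlaceRed.RRCurve K F g
  rrk : FLTA.PlaceRed.RRCurve k F' g
  r : Place K F → Place k F'
  isPlaceMap : R.IsPlaceMap r
  infinite_k : Infinite k
  infinite_places : Infinite (Place k F')
  inf : Place K F
  dimInf : ℕ → ℕ
  bas : (N : ℕ) → Fin (dimInf N) → R.O
  bas_span : ∀ N : ℕ, Submodule.span K (Set.range fun i => (bas N i : F)) =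
    riemannRochSpace (Finsupp.single inf (N : ℤ))
  bas_indep : ∀ N : ℕ, LinearIndependent k fun i => R.red (bas N i)

variable {A π} {F : Type*} [Field F] [Algebra K F] {F' : Type*} [Field F'] [Algebra k F'] {g : ℕ}

namespace Ctx

variable (C : Ctx A π F F' g)

/-- The divisor `n • inf`. -/
def infDiv (_C : Ctx A π F F' g) (n : ℤ) : Divisor K F := Finsupp.single _C.inf n

/-- Reduction of divisors. -/
def rDiv : Divisor K F →+ Divisor k F' := Finsupp.mapDomain.addMonoidHom C.r

/-- A scalar of `A` as an element of `O`. -/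
def scal : A →+* C.R.O where
  toFun a := ⟨algebraMap K F (a : K), C.R.algebraMap_mem a⟩
  map_one' := Subtype.ext (by simp)
  map_mul' a b := Subtype.ext (by simp)
  map_zero' := Subtype.ext (by simp)
  map_add' a b := Subtype.ext (by simp)

@[simp] theorem coe_scal (a : A) : (C.scal a : F) = algebraMap K F (a : K) := rfl

theorem red_scal (a : A) : C.R.red (C.scal a) = algebraMap k F' (π a) := C.R.red_algebraMap a

/-- The element of `O` with given coordinates in the basis of `L(N • inf)`. -/
def vec (N : ℕ) (x : Fin (C.dimInf N) → A) : C.R.O := ∑ i, C.scal (x i) * C.bas N i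

/-- The element of `F` with given coordinates over `K`. -/
def vecK (N : ℕ) : (Fin (C.dimInf N) → K) →ₗ[K] F :=
  Fintype.linearCombination K fun i => (C.bas N i : F)

/-- The element of the reduced field with given coordinates. -/
def vecBar (N : ℕ) : (Fin (C.dimInf N) → k) →ₗ[k] F' :=
  Fintype.linearCombination k fun i => C.R.red (C.bas N i)

theorem coe_vec (N : ℕ) (x : Fin (C.dimInf N) → A) :
    (C.vec N x : F) = C.vecK N fun i => (x i : K) := by
  simp [vec, vecK, Fintype.linearCombination_apply, Algebra.smul_def]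

theorem red_vec (N : ℕ) (x : Fin (C.dimInf N) → A) :
    C.R.red (C.vec N x) = C.vecBar N fun i => π (x i) := by
  simp [vec, vecBar, Fintype.linearCombination_apply, Algebra.smul_def, C.red_scal]

/-- Scaling: every nonzero function has a multiple in `O` with nonzero reduction. -/
theorem exists_smul_mem {f : F} (hf : f ≠ 0) :
    ∃ (c : K) (u : C.R.O), c ≠ 0 ∧ (u : F) = c • f ∧ C.R.red u ≠ 0 := by
  obtain ⟨n, b, hspan, hind⟩ := C.R.lattice (Submodule.span K {f}) inferInstance
  rcases Nat.eq_zero_or_pos n with rfl | hn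
  · exfalso
    have h := Submodule.mem_span_singleton_self (R := K) f
    rw [← hspan] at h
    simp [Set.range_eq_empty] at h
    exact hf h
  · let i : Fin n := ⟨0, hn⟩
    have hred : C.R.red (b i) ≠ 0 := hind.ne_zero i
    have hmem : (b i : F) ∈ Submodule.span K {f} := hspan ▸ Submodule.subset_span ⟨i, rfl⟩
    obtain ⟨c, hc⟩ := Submodule.mem_span_singleton.1 hmem
    refine ⟨c, b i, ?_, hc.symm, hred⟩
    rintro rfl
    apply hred
    have : b i = 0 := Subtype.ext (by simpa using hc.symm)
    rw [this, map_zero]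

/-- A combination of residually independent integral elements is integral only with integral
coefficients. -/
theorem coeff_mem {ι : Type*} [Fintype ι] (b : ι → C.R.O)
    (hb : LinearIndependent k fun i => C.R.red (b i)) (c : ι → K) (u : C.R.O)
    (hu : (u : F) = ∑ i, c i • (b i : F)) (i : ι) : c i ∈ A := by
  classical
  by_contra hi
  obtain ⟨i₀, -, hmax⟩ := Finset.exists_max_image (Finset.univ : Finset ι)
    (fun j => A.valuation (c j)) ⟨i, Finset.mem_univ i⟩
  have h0 : 1 < A.valuation (c i₀) :=
    lt_of_lt_of_le (not_le.1 fun h => hi ((A.valuation_le_one_iff _).1 h))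
      (hmax i (Finset.mem_univ i))
  have hne : c i₀ ≠ 0 := fun h => by simp [h] at h0
  have hmem : ∀ j, c j / c i₀ ∈ A := fun j => (A.valuation_le_one_iff _).1 <| by
    rw [map_div₀]
    exact div_le_one_of_le₀ (hmax j (Finset.mem_univ j)) zero_le
  have hinv : (c i₀)⁻¹ ∈ A := (A.valuation_le_one_iff _).1 <| by
    rw [map_inv₀]; exact (inv_le_one₀ (zero_lt_one.trans h0)).2 h0.le
  have hπ : π ⟨(c i₀)⁻¹, hinv⟩ = 0 := by
    by_contra hne'
    have hu' : IsUnit (⟨(c i₀)⁻¹, hinv⟩ : A) := by
      by_contra hnu
      obtain ⟨M, hM, hmemM⟩ := exists_max_ideal_of_mem_nonunits hnu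
      have hker : RingHom.ker π = M :=
        (IsLocalRing.eq_maximalIdeal
          (RingHom.ker_isMaximal_of_surjective π C.R.π_surjective)).trans
          (IsLocalRing.eq_maximalIdeal hM).symm
      exact hne' (RingHom.mem_ker.1 (hker ▸ hmemM))
    have := (A.valuation_eq_one_iff _).1 hu'
    simp only [map_inv₀, inv_eq_one] at this
    exact absurd this h0.ne'
  have key : C.scal ⟨(c i₀)⁻¹, hinv⟩ * u = ∑ j, C.scal ⟨c j / c i₀, hmem j⟩ * b j := by
    apply Subtype.ext
    simp [hu, Finset.mul_sum, Algebra.smul_def, div_eq_mul_inv, mul_comm, mul_assoc, mul_left_comm]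
  have := congrArg C.R.red key
  simp only [map_mul, map_sum, C.red_scal, hπ, map_zero, zero_mul] at this
  have h1 := Fintype.linearIndependent_iff.1 hb (fun j => π ⟨c j / c i₀, hmem j⟩)
    (by simpa [Algebra.smul_def] using this.symm) i₀
  have h2 : (⟨c i₀ / c i₀, hmem i₀⟩ : A) = 1 := Subtype.ext (div_self hne)
  rw [h2, map_one] at h1
  exact one_ne_zero h1

theorem exists_vec_eq (N : ℕ) (u : C.R.O) (hu : (u : F) ∈ riemannRochSpace (C.infDiv N)) :
    ∃ x, C.vec N x = u := by
  rw [infDiv, ← C.bas_span, Submodule.mem_span_range_iff_exists_fun] at hu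
  obtain ⟨c, hc⟩ := hu
  refine ⟨fun i => ⟨c i, C.coeff_mem _ (C.bas_indep N) c u hc.symm i⟩, Subtype.ext ?_⟩
  rw [C.coe_vec]
  refine Eq.trans ?_ hc
  simp [vecK, Fintype.linearCombination_apply]

theorem coe_vec_mem (N : ℕ) (x : Fin (C.dimInf N) → A) :
    (C.vec N x : F) ∈ riemannRochSpace (C.infDiv N) := by
  rw [C.coe_vec, infDiv, ← C.bas_span, vecK, Fintype.linearCombination_apply]
  exact Submodule.sum_mem _ fun i _ => Submodule.smul_mem _ _ (Submodule.subset_span ⟨i, rfl⟩)

theorem linearIndependent_bas (N : ℕ) : LinearIndependent K fun i => (C.bas N i : F) := by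
  rw [Fintype.linearIndependent_iff]
  intro c hc i
  by_contra hi
  have h : c i / c i = 1 := div_self hi
  have hc0 : ∑ j, (c j / c i) • (C.bas N j : F) = ∑ j, (0 : K) • (C.bas N j : F) := by
    simp only [div_eq_inv_mul, mul_smul, ← Finset.smul_sum, hc, smul_zero, zero_smul,
      Finset.sum_const_zero]
  have hmem := C.coeff_mem _ (C.bas_indep N) (fun j => c j / c i) 0
    (by simp [hc0])
  have key : ∑ j, C.scal ⟨c j / c i, hmem j⟩ * C.bas N j = 0 := by
    apply Subtype.ext
    simpa [Algebra.smul_def] using hc0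
  have := congrArg C.R.red key
  simp only [map_mul, map_sum, C.red_scal, map_zero] at this
  have h1 := Fintype.linearIndependent_iff.1 (C.bas_indep N) (fun j => π ⟨c j / c i, hmem j⟩)
    (by simpa [Algebra.smul_def] using this) i
  have h2 : (⟨c i / c i, hmem i⟩ : A) = 1 := Subtype.ext h
  rw [h2, map_one] at h1
  exact one_ne_zero h1

theorem vecK_injective (N : ℕ) : Function.Injective (C.vecK N) :=
  (C.linearIndependent_bas N).fintypeLinearCombination_injective

theorem vecBar_injective (N : ℕ) : Function.Injective (C.vecBar N) :=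
  (C.bas_indep N).fintypeLinearCombination_injective

end Ctx

end FLTA.Grass
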