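import Fermat.Prelude.Def_ModularCurve_ArithmeticGalois
import Fermat.Agent.Curves.BasicModular
import Fermat.Agent.PicTorsion.Descent.Main

/-!
# Torsion of `J₀(N)` is finite
-/

set_option autoImplicit false

noncomputable section

open AlgebraicCurve ModularCurve

namespace FLTA.Grass

local notation "Qbar" => AlgebraicClosure ℚ

theorem finite_torsionBy_of_charZero (N : ℕ) [NeZero N] {n : ℕ} (hn : 0 < n) :
    Finite (Submodule.torsionBy ℤ (JZero N) (n : ℤ)) := by
  have : Algebra.EssFiniteType Qbar (modularFunctionFieldBar N) := by
    refine IntermediateField.essFiniteType_iff.2 ?_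
    rw [show modularFunctionFieldBar N = modularFunctionFieldFullC Qbar N from
      FLTA.Curves.laurentBaseChange_full_eq N Qbar]
    exact IntermediateField.fg_adjoin_of_finite (FLTA.Curves.finite_divisorExpansionsC Qbar N)
  have h := FLTA.PicTorsion.natCard_torsion_charZero Qbar (modularFunctionFieldBar N) n hn.ne'
  have hpos : Nat.card (Pic0.torsion Qbar (modularFunctionFieldBar N) n) ≠ 0 := by
    rw [h]; exact pow_ne_zero _ hn.ne'
  exact Nat.finite_of_card_ne_zero hpos

end FLTA.Grass
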