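import Fermat.Agent.Grass.ModularBasis
import Fermat.Agent.Grass.Setup
import Fermat.Agent.PlaceRed.Interface
import Fermat.Agent.GaloisReps.TateConstructStab
import Fermat.Agent.Grass.TorsionFinite
import Fermat.Prelude.Def_ModularCurve_ReductionModL

/-!
# The linear algebra Jacobian context of `X₀(N)` at a place over `ℓ ∤ N`
-/

set_option autoImplicit false
set_option synthInstance.maxHeartbeats 400000

noncomputable section

open AlgebraicCurve ModularCurve
open scoped Pointwise

namespace FLTA.Grass

local notation "Qbar" => AlgebraicClosure ℚ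
local notation "g[" σ "]" => arithmeticGalois (modularFunctionFieldFull _) σ

variable (N : ℕ) [NeZero N] {ℓ : ℕ} [Fact ℓ.Prime]

omit [Fact ℓ.Prime] in
/-- Galois carries Riemann–Roch spaces onto Riemann–Roch spaces. -/
theorem smul_mem_riemannRochSpace_iff (σ : Qbar ≃ₐ[ℚ] Qbar)
    (D : Divisor Qbar (modularFunctionFieldBar N)) (f : modularFunctionFieldBar N) :
    arithmeticGalois (modularFunctionFieldFull N) σ • f ∈
        riemannRochSpace (arithmeticGalois (modularFunctionFieldFull N) σ • D) ↔
      f ∈ riemannRochSpace D := by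
  simp only [mem_riemannRochSpace_iff]
  set G := arithmeticGalois (modularFunctionFieldFull N) σ
  constructor
  · intro h v
    rcases h (G • v) with h0 | h0
    · left
      have := congrArg (fun x : modularFunctionFieldBar N => G⁻¹ • x) h0
      simpa [inv_smul_smul] using this
    · right
      rwa [SemilinearAut.ord_smul, SemilinearAut.divisor_smul_apply_smul] at h0
  · intro h v
    rcases h (G⁻¹ • v) with h0 | h0
    · exact Or.inl (by rw [h0]; exact smul_zero G)
    · right
      rw [← SemilinearAut.ord_smul G, ← SemilinearAut.divisor_smul_apply_smul G D,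
        smul_inv_smul] at h0
      exact h0

/-- The context. -/
theorem exists_modularCtx (hℓN : ¬ ℓ ∣ N) (A : ValuationSubring Qbar) (hA : A.LiesOverPrime ℓ)
    (h : ReductionInputsModL A N) :
    ∃ (g : ℕ) (C : Ctx A (IsLocalRing.residue A) (modularFunctionFieldBar N)
        (modularFunctionFieldFullC (IsLocalRing.ResidueField A) N) g),
      C.r = placeReductionModL h ∧
      (∀ σ : Qbar ≃ₐ[ℚ] Qbar, arithmeticGalois (modularFunctionFieldFull N) σ • C.inf = C.inf) ∧
      ∀ (σ : Qbar ≃ₐ[ℚ] Qbar) (M : ℕ) i, arithmeticGalois (modularFunctionFieldFull N) σ •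
        (C.bas M i : modularFunctionFieldBar N) = C.bas M i := by
  classical
  have : IsAlgClosed (IsLocalRing.ResidueField A) := FLTA.Galois.isAlgClosed_residueField A
  have hNk := FLTA.PlaceRed.natCast_residue_ne_zero N hℓN A hA
  let g := FLTA.PlaceRed.genusX0 N
  have rrK := FLTA.PlaceRed.rrCurve_bar N
  have rrk := FLTA.PlaceRed.rrCurve_fullC N hℓN A hA
  let R := FLTA.PlaceRed.gaussRed N IsLocalRing.residue_surjective hNk
  have hr : R.IsPlaceMap (placeReductionModL h) :=
    (FLTA.PlaceRed.isGauss_gaussRed N IsLocalRing.residue_surjective hNk).isPlaceMap_of_isPlaceReductionAlong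
      rrK (isPlaceReductionModL_placeReductionModL h)
  have hstab : ∀ (M : ℕ) (σ : Qbar ≃ₐ[ℚ] Qbar),
      ∀ f ∈ riemannRochSpace (Finsupp.single (infPlace N) (M : ℤ)),
        arithmeticGalois (modularFunctionFieldFull N) σ • f ∈
          riemannRochSpace (Finsupp.single (infPlace N) (M : ℤ)) := by
    intro M σ f hf
    have h1 := (smul_mem_riemannRochSpace_iff N σ _ f).mpr hf
    rwa [SemilinearAut.smul_single, smul_infPlace] at h1
  have hb := fun M : ℕ =>
    haveI := rrK.finiteDimensional (Finsupp.single (infPlace N) (M : ℤ))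
    exists_fixed_basis (N := N) IsLocalRing.residue_surjective hNk
      (riemannRochSpace (Finsupp.single (infPlace N) (M : ℤ))) (hstab M)
  choose n b hspan hind hfix using hb
  have hinf : Infinite (Place (IsLocalRing.ResidueField A)
      (modularFunctionFieldFullC (IsLocalRing.ResidueField A) N)) := by
    let j := FLTA.Curves.jFullC (IsLocalRing.ResidueField A) N
    have htr : ∀ c : IsLocalRing.ResidueField A, Transcendental (IsLocalRing.ResidueField A)
        (j - algebraMap _ _ c) := fun c halg =>
      FLTA.Curves.transcendental_jFullC (IsLocalRing.ResidueField A) N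
        (by simpa using halg.add (isAlgebraic_algebraMap c))
    choose P hP using fun c => FLTA.Curves.exists_ord_pos_of_transcendental (htr c)
    refine Infinite.of_injective P fun c d hcd => ?_
    by_contra hne
    have hc : j - algebraMap _ _ c ≠ 0 := fun e => htr c (e ▸ isAlgebraic_zero)
    have hd : j - algebraMap _ _ d ≠ 0 := fun e => htr d (e ▸ isAlgebraic_zero)
    have hsub : (j - algebraMap _ _ c) + -(j - algebraMap _ _ d) =
        algebraMap _ _ (d - c) := by rw [map_sub]; ring
    have h1 := FLTA.Curves.min_ord_le_ord_add (P d) (f := j - algebraMap _ _ c)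
      (g := -(j - algebraMap _ _ d)) (by
        rw [hsub, _root_.map_ne_zero, sub_ne_zero]; exact Ne.symm hne)
    rw [hsub, FLTA.Curves.ord_algebraMap, FLTA.Curves.ord_neg] at h1
    have h2 := hP c
    rw [hcd] at h2
    have h3 := hP d
    omega
  exact ⟨g, { R := R, rrK := rrK, rrk := rrk, r := placeReductionModL h, isPlaceMap := hr,
              infinite_k := IsAlgClosed.instInfinite, infinite_places := hinf, inf := infPlace N,
              dimInf := n, bas := b, bas_span := hspan, bas_indep := hind },
    rfl, smul_infPlace N, fun σ M i => hfix M σ i⟩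

omit [Fact ℓ.Prime] in
/-- Every divisor is fixed by the fixer of a number field. -/
theorem exists_fixer_divisor (D : Divisor Qbar (modularFunctionFieldBar N)) :
    ∃ L : IntermediateField ℚ Qbar, FiniteDimensional ℚ L ∧
      ∀ σ : Qbar ≃ₐ[ℚ] Qbar, (∀ x ∈ L, σ x = x) →
        arithmeticGalois (modularFunctionFieldFull N) σ • D = D :=
  FLTA.GaloisReps.hasOpenStab_divisor N D

/-- Reduction data exist at every place over `ℓ ∤ N`, and there are such places. -/
theorem exists_reductionInputsModL (hℓN : ¬ ℓ ∣ N) :
    ∃ A : ValuationSubring Qbar, A.LiesOverPrime ℓ ∧ ReductionInputsModL A N := by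
  obtain ⟨A, hA⟩ := FLTA.Galois.exists_liesOverPrime (Fact.out : ℓ.Prime)
  exact ⟨A, hA, FLTA.PlaceRed.reductionInputsModL N hℓN A hA⟩

omit [Fact ℓ.Prime] in
/-- Torsion of `J₀(N)` is finite. -/
theorem finite_torsionBy_jZero {n : ℕ} (hn : 0 < n) :
    Finite (Submodule.torsionBy ℤ (JZero N) (n : ℤ)) := by
  exact finite_torsionBy_of_charZero N hn

end FLTA.Grass
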