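import Mathlib

/-!
# Torsion of order prime to the residue characteristic is separated by reduction

If finitely many integral functions separate the points of `T` and their pullbacks by addition are
polynomial in the pullbacks by the two projections, then a point `z` killed by a unit `m`, whose
multiples are all congruent to `0`, is `0`.
-/

set_option autoImplicit false

namespace FLTA.Grass

open IsLocalRing

theorem eq_zero_of_augment {R : Type*} [CommRing R] [IsLocalRing R] {T : Type*} [AddCommGroup T]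
    (Φ : Set (T → R)) (hΦ : Φ.Finite) (hsep : ∀ x y : T, (∀ φ ∈ Φ, φ x = φ y) → x = y)
    (hadd : ∀ φ ∈ Φ, (fun p : T × T => φ (p.1 + p.2)) ∈ Algebra.adjoin R
      ((fun f : T → R => fun p : T × T => f p.1) '' Φ ∪ (fun f : T → R => fun p => f p.2) '' Φ))
    (m : ℕ) (hm : IsUnit (m : R)) (z : T) (hz : m • z = 0)
    (hred : ∀ φ ∈ Φ, ∀ a : ℕ, φ (a • z) - φ 0 ∈ maximalIdeal R) : z = 0 := by
  classical
  have hm0 : 0 < m := Nat.pos_of_ne_zero fun h => by simp [h] at hm
  let Z : Set T := (fun a : ℕ => a • z) '' Set.Iio m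
  have hZ : ∀ a : ℕ, a • z ∈ Z := fun a =>
    ⟨a % m, Nat.mod_lt _ hm0, by
      conv_rhs => rw [← Nat.div_add_mod a m, add_nsmul, mul_comm, mul_nsmul', hz, nsmul_zero,
        zero_add]⟩
  let G : Set R := (fun q : (T → R) × T => q.1 q.2 - q.1 0) '' (Φ ×ˢ Z)
  have hGfin : G.Finite := (hΦ.prod ((Set.finite_Iio m).image _)).image _
  let I : Ideal R := Ideal.span G
  have hI : ∀ φ ∈ Φ, ∀ x ∈ Z, φ x - φ 0 ∈ I := fun φ hφ x hx =>
    Ideal.subset_span ⟨(φ, x), ⟨hφ, hx⟩, rfl⟩
  have key : ∀ F ∈ Algebra.adjoin R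
      ((fun f : T → R => fun p : T × T => f p.1) '' Φ ∪ (fun f : T → R => fun p => f p.2) '' Φ),
      ∀ x ∈ Z, ∀ y ∈ Z, F (x, 0) - F (0, 0) ∈ I ∧ F (0, y) - F (0, 0) ∈ I ∧
        F (x, y) - F (x, 0) - F (0, y) + F (0, 0) ∈ I * I := by
    intro F hF
    induction hF using Algebra.adjoin_induction with
    | mem g hg =>
      intro x hx y hy
      rcases hg with ⟨φ, hφ, rfl⟩ | ⟨φ, hφ, rfl⟩
      · exact ⟨hI φ hφ x hx, by simp, by simp⟩
      · exact ⟨by simp, hI φ hφ y hy, by simp⟩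
    | algebraMap r => intro x _ y _; simp [Pi.algebraMap_apply]
    | add g h _ _ ihg ihh =>
      intro x hx y hy
      obtain ⟨a1, a2, a3⟩ := ihg x hx y hy
      obtain ⟨b1, b2, b3⟩ := ihh x hx y hy
      refine ⟨?_, ?_, ?_⟩
      · convert add_mem a1 b1 using 1; simp only [Pi.add_apply]; ring
      · convert add_mem a2 b2 using 1; simp only [Pi.add_apply]; ring
      · convert add_mem a3 b3 using 1; simp only [Pi.add_apply]; ring
    | mul g h _ _ ihg ihh =>
      intro x hx y hy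
      obtain ⟨a1, a2, a3⟩ := ihg x hx y hy
      obtain ⟨b1, b2, b3⟩ := ihh x hx y hy
      refine ⟨?_, ?_, ?_⟩
      · convert add_mem (I.mul_mem_right (h (x, 0)) a1) (I.mul_mem_left (g (0, 0)) b1) using 1
        simp only [Pi.mul_apply]; ring
      · convert add_mem (I.mul_mem_right (h (0, y)) a2) (I.mul_mem_left (g (0, 0)) b2) using 1
        simp only [Pi.mul_apply]; ring
      · convert add_mem (add_mem ((I * I).mul_mem_right (h (x, y)) a3)
          ((I * I).mul_mem_left (g (x, 0) + g (0, y) - g (0, 0)) b3))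
          (add_mem (Ideal.mul_mem_mul a1 b2) (Ideal.mul_mem_mul a2 b1)) using 1
        simp only [Pi.mul_apply]; ring
  have hlin : ∀ φ ∈ Φ, ∀ a : ℕ, (φ (a • z) - φ 0) - (a : R) * (φ z - φ 0) ∈ I * I := by
    intro φ hφ a
    induction a with
    | zero => simp
    | succ a ih =>
      have h1 := (key _ (hadd φ hφ) (a • z) (hZ a) z (by simpa using hZ 1)).2.2
      convert add_mem h1 ih using 1
      simp only [add_zero, zero_add, succ_nsmul, Nat.cast_succ]; ring
  have hz1 : ∀ φ ∈ Φ, φ z - φ 0 ∈ I * I := fun φ hφ => by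
    have h1 := hlin φ hφ m
    rw [hz, sub_self, zero_sub, neg_mem_iff] at h1
    exact (Ideal.unit_mul_mem_iff_mem _ hm).mp h1
  have hle : I ≤ I * I := Ideal.span_le.mpr (by
    rintro _ ⟨⟨φ, x⟩, ⟨hφ, a, _, rfl⟩, rfl⟩
    have := add_mem (hlin φ hφ a) ((I * I).mul_mem_left (a : R) (hz1 φ hφ))
    simpa using this)
  have hmax : I ≤ maximalIdeal R := Ideal.span_le.mpr (by
    rintro _ ⟨⟨φ, x⟩, ⟨hφ, a, _, rfl⟩, rfl⟩
    exact hred φ hφ a)
  have hbot : I = ⊥ := Submodule.eq_bot_of_le_smul_of_le_jacobson_bot I I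
    (Submodule.fg_def.mpr ⟨G, hGfin, rfl⟩) hle (hmax.trans (maximalIdeal_le_jacobson ⊥))
  refine hsep z 0 fun φ hφ => sub_eq_zero.mp ?_
  have := hI φ hφ z (by simpa using hZ 1)
  rwa [hbot, Ideal.mem_bot] at this

end FLTA.Grass
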