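import Fermat.Agent.Grass.Chart
import Fermat.Agent.Grass.Augment

/-!
# Torsion prime to the residue characteristic is detected by reduction
-/

set_option autoImplicit false

noncomputable section

open AlgebraicCurve

namespace FLTA.Grass

variable {K : Type*} [Field K] {A : ValuationSubring K} {k : Type*} [Field k] {π : A →+* k}
  {F : Type*} [Field F] [Algebra K F] {F' : Type*} [Field F'] [Algebra k F'] {g : ℕ}

namespace Ctx

variable (C : Ctx A π F F' g)

theorem eq_of_pic0_mk_eq {D E : Divisor.degZero (K := K) (F := F)} (h : Pic0.mk D = Pic0.mk E) :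
    (D : Divisor K F) - E ∈ Divisor.principal (K := K) (F := F) := by
  have h2 := (QuotientAddGroup.eq_iff_sub_mem).1 h
  rw [AddSubgroup.mem_addSubgroupOf] at h2
  simpa using h2

/-- A class killed by a unit integer whose reduction is principal vanishes. -/
theorem eq_zero_of_rDiv_principal (m : ℕ) (hm : IsUnit (m : A))
    (D : Divisor.degZero (K := K) (F := F)) (hmD : m • Pic0.mk D = 0)
    (hred : C.rDiv (D : Divisor K F) ∈ Divisor.principal (K := k) (F := F')) :
    Pic0.mk D = 0 := by
  classical
  set z := Pic0.mk D with hz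
  let T := AddSubgroup.zmultiples z
  have hm0 : 0 < m := Nat.pos_of_ne_zero fun h => by simp [h] at hm
  have hfo : IsOfFinAddOrder z := isOfFinAddOrder_iff_nsmul_eq_zero.2 ⟨m, hm0, hmD⟩
  have : Finite T := hfo.finite_zmultiples.to_subtype
  choose c hc using fun t : T => Pic0.mk_surjective (t : Pic0 K F)
  obtain ⟨Φ, hfin, hsep, hres, hcar, huniv⟩ :=
    C.exists_chart_functions (fun t => (c t : Divisor K F)) fun t => Divisor.mem_degZero.1 (c t).2
  let zT : T := ⟨z, AddSubgroup.mem_zmultiples z⟩
  suffices h : zT = 0 from congrArg Subtype.val h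
  have hsep' : ∀ x y : T, (∀ φ ∈ Φ, φ x = φ y) → x = y := fun x y h => by
    apply Subtype.ext
    rw [← hc x, ← hc y]
    refine (QuotientAddGroup.eq_iff_sub_mem).2 ?_
    rw [AddSubgroup.mem_addSubgroupOf]
    simpa using hsep x y h
  have hadd : ∀ φ ∈ Φ, (fun p : T × T => φ (p.1 + p.2)) ∈ Algebra.adjoin A
      ((fun f : T → A => fun p : T × T => f p.1) '' Φ ∪
        (fun f : T → A => fun p => f p.2) '' Φ) := by
    set Rg := Algebra.adjoin A ((fun f : T → A => fun p : T × T => f p.1) '' Φ ∪
      (fun f : T → A => fun p => f p.2) '' Φ) with hRg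
    have hpull : ∀ (f : T × T → T), (∀ φ ∈ Φ, φ ∘ f ∈ Rg) →
        ∀ φ ∈ Algebra.adjoin A Φ, φ ∘ f ∈ Rg := by
      intro f hf φ hφ
      induction hφ using Algebra.adjoin_induction with
      | mem x hx => exact hf x hx
      | algebraMap r => exact Rg.algebraMap_mem r
      | add x y _ _ hx hy => exact Rg.add_mem hx hy
      | mul x y _ _ hx hy => exact Rg.mul_mem hx hy
    have h1 := C.carries_comp Prod.fst
      (hpull Prod.fst fun φ hφ => Algebra.subset_adjoin (Or.inl ⟨φ, hφ, rfl⟩)) hcar
    have h2 := C.carries_comp Prod.snd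
      (hpull Prod.snd fun φ hφ => Algebra.subset_adjoin (Or.inr ⟨φ, hφ, rfl⟩)) hcar
    intro φ hφ
    refine huniv Rg (fun p => p.1 + p.2) (C.carries_congr (C.carries_add h1 h2) fun p => ?_) φ hφ
    have h := eq_of_pic0_mk_eq (D := c p.1 + c p.2) (E := c (p.1 + p.2))
      (by rw [Pic0.mk_add, hc, hc, hc]; rfl)
    simpa using h
  refine eq_zero_of_augment Φ hfin hsep' hadd m hm zT (Subtype.ext (by simpa [zT] using hmD))
    fun φ hφ a => ?_
  have hac : C.rDiv ((c (a • zT) : Divisor K F) - c 0) ∈
      Divisor.principal (K := k) (F := F') := by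
    have h := eq_of_pic0_mk_eq (D := c (a • zT)) (E := a • D + c 0) (by
      rw [Pic0.mk_add, hc, hc, show Pic0.mk (a • D) = a • z from
        map_nsmul (QuotientAddGroup.mk' _) a D]
      simp [zT])
    have h3 : C.rDiv (a • (D : Divisor K F)) ∈ Divisor.principal (K := k) (F := F') := by
      rw [map_nsmul]; exact nsmul_mem hred a
    convert add_mem (C.rDiv_mem_principal h) h3 using 1
    rw [← map_add]
    congr 1
    simp only [AddSubgroup.coe_add, AddSubgroupClass.coe_nsmul]
    abel
  have h := hres (a • zT) 0 hac φ hφ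
  rw [IsLocalRing.mem_maximalIdeal, mem_nonunits_iff]
  intro hu
  have := hu.map π
  rw [map_sub, h, sub_self] at this
  exact not_isUnit_zero this

end Ctx

end FLTA.Grass
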