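import Mathlib
import Fermat.Prelude.Def_FLTPrelim_Ramification
import Fermat.Agent.HeckeDatum.FlatModelBase

/-!
Integral equivariant functions on a finite Galois set, and the subalgebras they generate on powers.
-/

set_option autoImplicit false
set_option linter.style.haveILetI false
set_option linter.unusedVariables false

noncomputable section

namespace FLTA.Grass

open FLTA.HeckeDatum FLTA.HeckeDatum.Flat

local notation "Qbar" => AlgebraicClosure ℚ

/-- A Galois set is *smooth* if every stabiliser contains the fixer of a number field. -/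
def IsSmoothAct {X : Type} (act : GalQ →* Equiv.Perm X) : Prop :=
  ∀ x : X, ∃ L : IntermediateField ℚ Qbar, FiniteDimensional ℚ L ∧
    ∀ σ : GalQ, (∀ a ∈ L, σ a = a) → act σ x = x

/-- Equivariant functions whose values are integral over `ℤ₍ℓ₎`. -/
def intFun (ℓ : ℕ) {X : Type} (act : GalQ →* Equiv.Perm X) : Subalgebra (Rp ℓ) (X → Qbar) where
  carrier := {f | (∀ (σ : GalQ) x, f (act σ x) = σ (f x)) ∧ ∀ x, IsIntegral (Rp ℓ) (f x)}
  mul_mem' {a b} ha hb := ⟨fun σ x => by simp [ha.1, hb.1], fun x => (ha.2 x).mul (hb.2 x)⟩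
  add_mem' {a b} ha hb := ⟨fun σ x => by simp [ha.1, hb.1], fun x => (ha.2 x).add (hb.2 x)⟩
  algebraMap_mem' r := by
    refine ⟨fun σ x => ?_, fun x => isIntegral_algebraMap⟩
    rw [Pi.algebraMap_apply, Pi.algebraMap_apply]
    exact ((galHom ℓ σ).commutes r).symm

/-- The `A`-algebra of functions on `X^m` generated by the projections of integral equivariant
functions, as `A`-valued functions. -/
def powAdjoin (ℓ : ℕ) {X : Type} (act : GalQ →* Equiv.Perm X) (A : ValuationSubring Qbar) (m : ℕ) :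
    Subalgebra A ((Fin m → X) → A) :=
  Algebra.adjoin A
    {F | ∃ (i : Fin m) (ψ : X → Qbar), ψ ∈ intFun ℓ act ∧ ∀ w, (F w : Qbar) = ψ (w i)}

theorem mem_intFun {ℓ : ℕ} {X : Type} {act : GalQ →* Equiv.Perm X} {f : X → Qbar} :
    f ∈ intFun ℓ act ↔
      (∀ (σ : GalQ) x, f (act σ x) = σ (f x)) ∧ ∀ x, IsIntegral (Rp ℓ) (f x) :=
  Iff.rfl

section Base

variable {ℓ : ℕ}

attribute [local instance] isFractionRing isPrincipalIdealRing

theorem isGalois_qbar : IsGalois ℚ Qbar :=
  haveI : Algebra.IsAlgebraic ℚ Qbar := AlgebraicClosure.isAlgebraic ℚ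
  haveI : IsAlgClosure ℚ Qbar := ⟨inferInstance, inferInstance⟩
  haveI : Normal ℚ Qbar := IsAlgClosure.normal _ _
  ⟨⟩

theorem algebraMap_rp_apply (r : Rp ℓ) :
    algebraMap (Rp ℓ) Qbar r = algebraMap ℚ Qbar (r : ℚ) := rfl

/-- A natural number prime to `ℓ` is a unit at every place over `ℓ`. -/
theorem inv_natCast_mem (hℓ : ℓ.Prime) {A : ValuationSubring Qbar} (hA : A.LiesOverPrime ℓ)
    {n : ℕ} (hn : n.Coprime ℓ) : ((n : Qbar))⁻¹ ∈ A := by
  by_contra h
  have h1 : (n : Qbar) ∈ A.nonunits := by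
    rcases A.mem_or_inv_mem (n : Qbar) with h' | h'
    · rw [ValuationSubring.mem_nonunits_iff]
      rcases lt_or_ge (A.valuation (n : Qbar)) 1 with hv | hv
      · exact hv
      · exfalso
        apply h
        rw [← A.valuation_le_one_iff, map_inv₀]
        exact inv_le_one_of_one_le₀ hv
    · exact absurd h' h
  obtain ⟨a, b, hab⟩ : ∃ a b : ℤ, a * n + b * ℓ = 1 :=
    (Int.isCoprime_iff_gcd_eq_one (m := (n : ℤ)) (n := (ℓ : ℤ))).2 (by simpa using hn)
  have hone : (1 : Qbar) ∈ A.nonunits := by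
    have : ((a : Qbar)) * n + (b : Qbar) * ℓ = 1 := by exact_mod_cast congrArg (fun z : ℤ => (z : Qbar)) hab
    rw [← this, ValuationSubring.mem_nonunits_iff]
    refine lt_of_le_of_lt (Valuation.map_add _ _ _) (max_lt ?_ ?_) <;> rw [map_mul] <;>
      refine lt_of_le_of_lt (mul_le_of_le_one_left' ?_) ?_
    · exact (A.valuation_le_one_iff _).2 (intCast_mem A a)
    · exact h1
    · exact (A.valuation_le_one_iff _).2 (intCast_mem A b)
    · exact hA
  simp [ValuationSubring.mem_nonunits_iff] at hone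

theorem rp_mem (hℓ : ℓ.Prime) {A : ValuationSubring Qbar} (hA : A.LiesOverPrime ℓ) (r : Rp ℓ) :
    algebraMap (Rp ℓ) Qbar r ∈ A := by
  rw [algebraMap_rp_apply, ← Rat.num_div_den (r : ℚ), map_div₀, map_intCast, map_natCast,
    div_eq_mul_inv]
  exact mul_mem (intCast_mem A _) (inv_natCast_mem hℓ hA r.2)

theorem mem_of_isIntegral_rp (hℓ : ℓ.Prime) {A : ValuationSubring Qbar} (hA : A.LiesOverPrime ℓ)
    {x : Qbar} (hx : IsIntegral (Rp ℓ) x) : x ∈ A := by
  let f : Rp ℓ →+* A := (algebraMap (Rp ℓ) Qbar).codRestrict A.toSubring (rp_mem hℓ hA)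
  letI := f.toAlgebra
  haveI : IsScalarTower (Rp ℓ) A Qbar := IsScalarTower.of_algebraMap_eq fun _ => rfl
  obtain ⟨y, hy⟩ := IsIntegrallyClosed.isIntegral_iff.1 (hx.tower_top (A := A))
  exact hy ▸ y.2

/-- A rational number lying in a place over `ℓ` lies in `ℤ₍ℓ₎`. -/
theorem rat_mem_rp_of_mem (hℓ : ℓ.Prime) {A : ValuationSubring Qbar} (hA : A.LiesOverPrime ℓ)
    {q : ℚ} (hq : algebraMap ℚ Qbar q ∈ A) : q ∈ GaloisRep.ratLocalizedAt ℓ := by
  by_contra h
  have hdvd : ℓ ∣ q.den := by
    by_contra h'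
    exact h ((hℓ.coprime_iff_not_dvd.2 h').symm)
  have hden : (q.den : Qbar) ∈ A.nonunits := by
    obtain ⟨k, hk⟩ := hdvd
    rw [hk, Nat.cast_mul, ValuationSubring.mem_nonunits_iff, map_mul]
    exact lt_of_le_of_lt (mul_le_of_le_one_right' ((A.valuation_le_one_iff _).2 (natCast_mem A k))) hA
  have hnum : (q.num : Qbar) ∈ A.nonunits := by
    have : (q.num : Qbar) = (q.den : Qbar) * algebraMap ℚ Qbar q := by
      rw [← map_intCast (algebraMap ℚ Qbar), ← map_natCast (algebraMap ℚ Qbar), ← map_mul,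
        Rat.den_mul_eq_num]
    rw [this, ValuationSubring.mem_nonunits_iff, map_mul]
    exact lt_of_le_of_lt (mul_le_of_le_one_right' ((A.valuation_le_one_iff _).2 hq)) hden
  obtain ⟨a, b, hab⟩ : ∃ a b : ℤ, a * q.num + b * q.den = 1 :=
    Int.isCoprime_iff_gcd_eq_one.2 (by simpa [Int.gcd] using q.reduced)
  have hone : (1 : Qbar) ∈ A.nonunits := by
    have : ((a : Qbar)) * q.num + (b : Qbar) * q.den = 1 := by
      exact_mod_cast congrArg (fun z : ℤ => (z : Qbar)) hab
    rw [← this, ValuationSubring.mem_nonunits_iff]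
    refine lt_of_le_of_lt (Valuation.map_add _ _ _) (max_lt ?_ ?_) <;> rw [map_mul] <;>
      refine lt_of_le_of_lt (mul_le_of_le_one_left' ?_) ?_
    · exact (A.valuation_le_one_iff _).2 (intCast_mem A a)
    · exact hnum
    · exact (A.valuation_le_one_iff _).2 (intCast_mem A b)
    · exact hden
  simp [ValuationSubring.mem_nonunits_iff] at hone

/-- Every algebraic number has a nonzero `ℤ₍ℓ₎`-multiple that is integral. -/
theorem exists_smul_isIntegral (ℓ : ℕ) (a : Qbar) :
    ∃ s : Rp ℓ, s ≠ 0 ∧ IsIntegral (Rp ℓ) (s • a) := by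
  haveI : Algebra.IsAlgebraic ℚ Qbar := AlgebraicClosure.isAlgebraic ℚ
  have h : IsAlgebraic (Rp ℓ) a :=
    (IsFractionRing.isAlgebraic_iff (Rp ℓ) ℚ Qbar).2 (Algebra.IsAlgebraic.isAlgebraic a)
  obtain ⟨s, hs, hint⟩ := h.exists_integral_multiple
  exact ⟨s, hs, hint⟩

end Base

section Smooth

variable {X : Type} {act : GalQ →* Equiv.Perm X}

theorem act_apply_act (σ τ : GalQ) (x : X) : act σ (act τ x) = act (σ * τ) x := by
  rw [map_mul]; rfl

theorem act_one_apply (x : X) : act 1 x = x := by rw [map_one]; rfl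

/-- Values at `x` of equivariant functions lie in any field fixing `x`. -/
theorem apply_mem_of_equivariant {x : X} {L : IntermediateField ℚ Qbar}
    (hL : ∀ σ : GalQ, (∀ a ∈ L, σ a = a) → act σ x = x) {f : X → Qbar}
    (hf : ∀ (σ : GalQ) x, f (act σ x) = σ (f x)) : f x ∈ L := by
  haveI := isGalois_qbar
  rw [← InfiniteGalois.fixedField_fixingSubgroup L, IntermediateField.mem_fixedField_iff]
  intro σ hσ
  rw [← hf, hL σ fun a ha => (IntermediateField.mem_fixingSubgroup_iff _ _).1 hσ a ha]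

/-- An equivariant function with prescribed value at one point, supported on its orbit. -/
theorem exists_equivariant_extension (x : X) (a : Qbar)
    (ha : ∀ σ : GalQ, act σ x = x → σ a = a) :
    ∃ f : X → Qbar, (∀ (σ : GalQ) y, f (act σ y) = σ (f y)) ∧ (∀ σ : GalQ, f (act σ x) = σ a) ∧
      ∀ y, (∀ σ : GalQ, act σ x ≠ y) → f y = 0 := by
  classical
  let f : X → Qbar := fun y => if h : ∃ σ : GalQ, act σ x = y then h.choose a else 0
  have hf : ∀ σ : GalQ, f (act σ x) = σ a := by
    intro σ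
    have h : ∃ τ : GalQ, act τ x = act σ x := ⟨σ, rfl⟩
    have hfix : act (σ⁻¹ * h.choose) x = x := by
      rw [← act_apply_act, h.choose_spec, act_apply_act, inv_mul_cancel, act_one_apply]
    have := congrArg σ (ha _ hfix)
    rw [← AlgEquiv.mul_apply, mul_inv_cancel_left] at this
    simp only [f, dif_pos h]
    exact this
  refine ⟨f, fun σ y => ?_, hf, fun y hy => ?_⟩
  · by_cases h : ∃ τ : GalQ, act τ x = y
    · obtain ⟨τ, rfl⟩ := h
      rw [act_apply_act, hf, hf, AlgEquiv.mul_apply]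
    · have h' : ¬ ∃ τ : GalQ, act τ x = act σ y := by
        rintro ⟨τ, hτ⟩
        exact h ⟨σ⁻¹ * τ, by rw [← act_apply_act, hτ, act_apply_act, inv_mul_cancel, act_one_apply]⟩
      simp only [f, dif_neg h, dif_neg h', map_zero]
  · simp only [f, dif_neg (not_exists.2 hy)]

/-- In a smooth Galois set a point is determined by the field it fixes. -/
theorem exists_fixed_moved (hsm : IsSmoothAct act) (x : X) {τ : GalQ} (hτ : act τ x ≠ x) :
    ∃ a : Qbar, (∀ σ : GalQ, act σ x = x → σ a = a) ∧ τ a ≠ a := by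
  haveI := isGalois_qbar
  let S : Subgroup GalQ :=
    { carrier := {σ | act σ x = x}
      mul_mem' := fun {σ τ} hσ hτ => by
        show act (σ * τ) x = x
        rw [← act_apply_act, hτ, hσ]
      one_mem' := act_one_apply x
      inv_mem' := fun {σ} hσ => by
        show act σ⁻¹ x = x
        conv_lhs => rw [← (hσ : act σ x = x)]
        rw [act_apply_act, inv_mul_cancel, act_one_apply] }
  obtain ⟨L, hfd, hL⟩ := hsm x
  haveI := hfd
  have hle : L.fixingSubgroup ≤ S := fun σ hσ =>
    hL σ fun a ha => (IntermediateField.mem_fixingSubgroup_iff _ _).1 hσ a ha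
  have hopen : IsOpen (S : Set GalQ) := Subgroup.isOpen_mono hle L.fixingSubgroup_isOpen
  let C : ClosedSubgroup GalQ := ⟨S, OpenSubgroup.isClosed ⟨S, hopen⟩⟩
  have hτS : τ ∉ (IntermediateField.fixedField (C : Subgroup GalQ)).fixingSubgroup := by
    rw [InfiniteGalois.fixingSubgroup_fixedField]
    exact hτ
  rw [IntermediateField.mem_fixingSubgroup_iff] at hτS
  push Not at hτS
  obtain ⟨a, ha, hτa⟩ := hτS
  exact ⟨a, fun σ hσ => (IntermediateField.mem_fixedField_iff _ _).1 ha σ hσ, hτa⟩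

/-- Equivariant functions separate the points of a smooth Galois set. -/
theorem exists_equivariant_separating (hsm : IsSmoothAct act) {x y : X} (hxy : x ≠ y) :
    ∃ f : X → Qbar, (∀ (σ : GalQ) z, f (act σ z) = σ (f z)) ∧ f x ≠ f y := by
  by_cases h : ∃ σ : GalQ, act σ x = y
  · obtain ⟨τ, rfl⟩ := h
    obtain ⟨a, ha, hτa⟩ := exists_fixed_moved hsm x (Ne.symm hxy)
    obtain ⟨f, hf, hfo, -⟩ := exists_equivariant_extension x a ha
    refine ⟨f, hf, ?_⟩
    have h1 : f x = a := by simpa [act_one_apply] using hfo 1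
    rw [hfo, h1]
    exact Ne.symm hτa
  · obtain ⟨f, hf, hfo, hf0⟩ := exists_equivariant_extension (act := act) x 1 fun σ _ => map_one σ
    refine ⟨f, hf, ?_⟩
    have h1 : f x = 1 := by simpa [act_one_apply] using hfo 1
    rw [h1, hf0 y (not_exists.1 h)]
    exact one_ne_zero

/-- On a finite smooth Galois set the integral equivariant functions form a finite module. -/
theorem finite_intFun (ℓ : ℕ) [Finite X] (hsm : IsSmoothAct act) :
    Module.Finite (Rp ℓ) (intFun ℓ act) := by
  haveI := isFractionRing ℓ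
  haveI := isPrincipalIdealRing ℓ
  choose L hfd hL using hsm
  haveI := hfd
  let K : IntermediateField ℚ Qbar := ⨆ x, L x
  haveI : FiniteDimensional ℚ K := IntermediateField.finiteDimensional_iSup_of_finite
  letI : Algebra (Rp ℓ) K := ((algebraMap ℚ K).comp (algebraMap (Rp ℓ) ℚ)).toAlgebra
  haveI : IsScalarTower (Rp ℓ) ℚ K := IsScalarTower.of_algebraMap_eq fun _ => rfl
  haveI : IsScalarTower (Rp ℓ) K Qbar := IsScalarTower.of_algebraMap_eq fun _ => rfl
  haveI : IsNoetherianRing (Rp ℓ) := inferInstance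
  haveI : Module.Finite (Rp ℓ) (integralClosure (Rp ℓ) K) :=
    IsIntegralClosure.finite (Rp ℓ) ℚ K (integralClosure (Rp ℓ) K)
  let emb : (X → integralClosure (Rp ℓ) K) →ₗ[Rp ℓ] (X → Qbar) :=
    ((IsScalarTower.toAlgHom (Rp ℓ) K Qbar).comp (integralClosure (Rp ℓ) K).val).toLinearMap.compLeft X
  have hle : Subalgebra.toSubmodule (intFun ℓ act) ≤ LinearMap.range emb := by
    intro f hf
    have hK : ∀ x, f x ∈ K := fun x =>
      le_iSup L x (apply_mem_of_equivariant (hL x) hf.1)
    refine ⟨fun x => ⟨⟨f x, hK x⟩, ?_⟩, funext fun x => rfl⟩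
    exact (isIntegral_algebraMap_iff (algebraMap K Qbar).injective).1 (hf.2 x)
  haveI : IsNoetherian (Rp ℓ) (LinearMap.range emb) := isNoetherian_of_isNoetherianRing_of_finite _ _
  exact Module.Finite.of_injective
    (Submodule.inclusion hle) (Submodule.inclusion_injective hle)

end Smooth

end FLTA.Grass

end
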