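import Fermat.Agent.Grass.EquivFun

/-!
A flat model of a finite Galois module from bounded integral coordinates of a covering set.
-/

set_option autoImplicit false
set_option linter.style.haveILetI false

noncomputable section

namespace FLTA.Grass

open FLTA.HeckeDatum FLTA.HeckeDatum.Flat

local notation "Qbar" => AlgebraicClosure ℚ

section Functions

variable (ℓ : ℕ)

attribute [local instance] isFractionRing isPrincipalIdealRing

/-- A permutation action on powers, coordinatewise. -/
def actPow {X : Type} (act : GalQ →* Equiv.Perm X) (m : ℕ) : GalQ →* Equiv.Perm (Fin m → X) where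
  toFun σ := Equiv.piCongrRight fun _ => act σ
  map_one' := Equiv.ext fun w => funext fun i => act_one_apply (w i)
  map_mul' σ τ := Equiv.ext fun w => funext fun i => (act_apply_act σ τ (w i)).symm

/-- A permutation action on a disjoint union, componentwise. -/
def actSigma {I : Type} {X : I → Type} (act : ∀ i, GalQ →* Equiv.Perm (X i)) :
    GalQ →* Equiv.Perm (Σ i, X i) where
  toFun σ := Equiv.sigmaCongrRight fun i => act i σ
  map_one' := Equiv.ext fun w => by
    obtain ⟨i, x⟩ := w
    exact congrArg (Sigma.mk i) (act_one_apply x)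
  map_mul' σ τ := Equiv.ext fun w => by
    obtain ⟨i, x⟩ := w
    exact congrArg (Sigma.mk i) (act_apply_act σ τ x).symm

theorem IsSmoothAct.pow {X : Type} {act : GalQ →* Equiv.Perm X} (h : IsSmoothAct act) (m : ℕ) :
    IsSmoothAct (actPow act m) := by
  intro w
  choose L hfd hL using fun i => h (w i)
  haveI := hfd
  refine ⟨⨆ i, L i, IntermediateField.finiteDimensional_iSup_of_finite, fun σ hσ => funext fun i => ?_⟩
  exact hL i σ fun a ha => hσ a (le_iSup L i ha)

theorem IsSmoothAct.sigma {I : Type} {X : I → Type} {act : ∀ i, GalQ →* Equiv.Perm (X i)}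
    (h : ∀ i, IsSmoothAct (act i)) : IsSmoothAct (actSigma act) := by
  rintro ⟨i, x⟩
  obtain ⟨L, hfd, hL⟩ := h i x
  exact ⟨L, hfd, fun σ hσ => congrArg (Sigma.mk i) (hL σ hσ)⟩

/-- The subalgebra generated by the projections of integral equivariant functions. -/
def powFun {X : Type} (act : GalQ →* Equiv.Perm X) (m : ℕ) :
    Subalgebra (Rp ℓ) ((Fin m → X) → Qbar) :=
  Algebra.adjoin (Rp ℓ) {F | ∃ (i : Fin m) (ψ : X → Qbar), ψ ∈ intFun ℓ act ∧ F = fun w => ψ (w i)}

theorem powFun_le {X : Type} (act : GalQ →* Equiv.Perm X) (m : ℕ) :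
    powFun ℓ act m ≤ intFun ℓ (actPow act m) := by
  refine Algebra.adjoin_le ?_
  rintro F ⟨i, ψ, hψ, rfl⟩
  exact ⟨fun σ w => hψ.1 σ (w i), fun w => hψ.2 (w i)⟩

theorem isTorsionFree_sub {X : Type} (K : Submodule (Rp ℓ) (X → Qbar)) :
    Module.IsTorsionFree (Rp ℓ) K := by
  refine ⟨fun r hr a b hab => Subtype.ext (funext fun x => ?_)⟩
  have hr0 : (r : ℚ) ≠ 0 := fun h => hr.ne_zero (Subtype.ext h)
  exact smul_right_injective Qbar hr0
    (congrArg (fun c : K => (c : X → Qbar) x) hab)

theorem rp_smul_cancel {X : Type} {r : Rp ℓ} (hr : r ≠ 0) {f g : X → Qbar} (h : r • f = r • g) :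
    f = g := funext fun x => by
  have hr0 : (r : ℚ) ≠ 0 := fun h => hr (Subtype.ext h)
  exact smul_right_injective Qbar hr0 (congrFun h x)

/-- The points-separating lattices of equivariant functions span all functions. -/
theorem span_eq_top_of_separating {X : Type} [Finite X] (O : Subalgebra (Rp ℓ) (X → Qbar))
    (hsep : ∀ x y : X, x ≠ y → ∃ f ∈ O, f x ≠ f y) :
    Submodule.span Qbar (O : Set (X → Qbar)) = ⊤ := by
  classical
  haveI := Fintype.ofFinite X
  have hS : Submodule.span Qbar (O : Set (X → Qbar)) =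
      Subalgebra.toSubmodule (Algebra.adjoin Qbar (O : Set (X → Qbar))) := by
    rw [Algebra.adjoin_eq_span, show (O : Set (X → Qbar)) =
      (O.toSubsemiring.toSubmonoid : Set (X → Qbar)) from rfl, Submonoid.closure_eq]
  rw [hS]
  set S := Algebra.adjoin Qbar (O : Set (X → Qbar)) with hSdef
  suffices hsingle : ∀ x : X, (Pi.single x (1 : Qbar) : X → Qbar) ∈ S by
    rw [eq_top_iff]
    intro g _
    rw [Subalgebra.mem_toSubmodule, pi_eq_sum_univ g]
    refine Subalgebra.sum_mem _ fun i _ => ?_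
    have hi : (fun j => if i = j then (1 : Qbar) else 0) = Pi.single i 1 := by
      funext j; simp [Pi.single_apply, eq_comm]
    rw [hi]
    exact S.smul_mem (hsingle i) _
  intro x
  choose! f hfO hf using fun y (hy : x ≠ y) => hsep x y hy
  let g : X → X → Qbar := fun y => (f y x - f y y)⁻¹ • (f y - algebraMap Qbar (X → Qbar) (f y y))
  have hg : ∀ y, x ≠ y → g y ∈ S := fun y hy =>
    S.smul_mem (sub_mem (Algebra.subset_adjoin (hfO y hy)) (S.algebraMap_mem _)) _
  have hprod : (Pi.single x (1 : Qbar) : X → Qbar) = ∏ y ∈ Finset.univ.erase x, g y := by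
    funext z
    rw [Finset.prod_apply]
    by_cases hz : z = x
    · subst hz
      rw [Pi.single_eq_same, eq_comm]
      refine Finset.prod_eq_one fun y hy => ?_
      have hy' : z ≠ y := (Finset.ne_of_mem_erase hy).symm
      simp only [g, Pi.smul_apply, Pi.sub_apply, Pi.algebraMap_apply, Algebra.algebraMap_self,
        RingHom.id_apply, smul_eq_mul]
      exact inv_mul_cancel₀ (sub_ne_zero.mpr (hf y hy'))
    · rw [Pi.single_eq_of_ne hz, eq_comm]
      refine Finset.prod_eq_zero (Finset.mem_erase.mpr ⟨hz, Finset.mem_univ _⟩) ?_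
      simp [g]
  rw [hprod]
  exact Subalgebra.prod_mem _ fun y hy => hg y (Finset.ne_of_mem_erase hy).symm

/-- `A`-valued functions in `powAdjoin`, viewed in `Qbar`, are `A`-combinations of `powFun`. -/
theorem coe_mem_span_of_mem_powAdjoin {X : Type} (act : GalQ →* Equiv.Perm X)
    (A : ValuationSubring Qbar) (m : ℕ) {F : (Fin m → X) → A} (hF : F ∈ powAdjoin ℓ act A m) :
    (fun w => (F w : Qbar)) ∈ Submodule.span A (powFun ℓ act m : Set ((Fin m → X) → Qbar)) := by
  let V := Submodule.span A (powFun ℓ act m : Set ((Fin m → X) → Qbar))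
  have hmul : ∀ f ∈ V, ∀ g ∈ V, f * g ∈ V := by
    intro f hf g hg
    have := Submodule.mul_mem_mul hf hg
    rw [Submodule.span_mul_span] at this
    refine Submodule.span_mono ?_ this
    rintro _ ⟨a, ha, b, hb, rfl⟩
    exact mul_mem (SetLike.mem_coe.1 ha) (SetLike.mem_coe.1 hb)
  show _ ∈ V
  induction hF using Algebra.adjoin_induction with
  | mem F hF =>
    obtain ⟨i, ψ, hψ, hF⟩ := hF
    exact Submodule.subset_span (Algebra.subset_adjoin ⟨i, ψ, hψ, funext hF⟩)
  | algebraMap a =>
    have : (fun w : Fin m → X => ((algebraMap A ((Fin m → X) → A) a) w : Qbar)) =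
        a • (1 : (Fin m → X) → Qbar) := funext fun w => (mul_one (a : Qbar)).symm
    rw [this]
    exact V.smul_mem _ (Submodule.subset_span (one_mem (powFun ℓ act m)))
  | add F G _ _ hF hG => exact V.add_mem hF hG
  | mul F G _ _ hF hG => exact hmul _ hF _ hG

/-- An equivariant `A`-combination of a lattice of equivariant functions lies in the lattice. -/
theorem mem_of_equivariant_of_mem_span [Fact ℓ.Prime] {X : Type} (act : GalQ →* Equiv.Perm X)
    (A : ValuationSubring Qbar) (hA : A.LiesOverPrime ℓ) (K : Submodule (Rp ℓ) (X → Qbar))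
    [Module.Finite (Rp ℓ) K] (hK : ∀ f ∈ K, ∀ (σ : GalQ) x, f (act σ x) = σ (f x))
    {F : X → Qbar} (hF : ∀ (σ : GalQ) x, F (act σ x) = σ (F x))
    (hspan : F ∈ Submodule.span A (K : Set (X → Qbar))) : F ∈ K := by
  classical
  haveI := isTorsionFree_sub ℓ K
  haveI : Module.Free (Rp ℓ) K := Module.free_of_finite_type_torsion_free'
  let e := Module.Free.chooseBasis (Rp ℓ) K
  have hsurj : ∀ σ : GalQ, Function.Surjective (act σ) := fun σ => (act σ).surjective
  have hli : LinearIndependent Qbar fun i => (e i : X → Qbar) :=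
    linearIndependent_qbar ℓ (fun σ => act σ) hsurj _ (fun i σ x => hK _ (e i).2 σ x)
      (e.linearIndependent.map' K.subtype K.ker_subtype)
  have hle : Submodule.span A (K : Set (X → Qbar)) ≤
      Submodule.span A (Set.range fun i => (e i : X → Qbar)) := by
    refine Submodule.span_le.2 fun f hf => ?_
    have h : f = ∑ i, (e.repr ⟨f, hf⟩ i) • (e i : X → Qbar) := by
      have h' := congrArg Subtype.val (e.sum_repr ⟨f, hf⟩)
      rw [AddSubmonoidClass.coe_finsetSum] at h'
      exact h'.symm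
    rw [h]
    refine Submodule.sum_mem _ fun i _ => ?_
    have : (e.repr ⟨f, hf⟩ i) • (e i : X → Qbar) =
        (⟨algebraMap (Rp ℓ) Qbar (e.repr ⟨f, hf⟩ i), rp_mem Fact.out hA _⟩ : A) •
          (e i : X → Qbar) := by
      funext x
      rw [Pi.smul_apply, Algebra.smul_def]
      rfl
    rw [this]
    exact Submodule.smul_mem _ _ (Submodule.subset_span ⟨i, rfl⟩)
  obtain ⟨a, ha⟩ := (Submodule.mem_span_range_iff_exists_fun A).1 (hle hspan)
  have hfix : ∀ i (σ : GalQ), σ (a i : Qbar) = a i := by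
    intro i σ
    refine sub_eq_zero.1 (Fintype.linearIndependent_iff.1 hli
      (fun j => σ (a j : Qbar) - a j) ?_ i)
    funext x
    obtain ⟨y, rfl⟩ := hsurj σ x
    have h1 : F (act σ y) = ∑ j, (a j : Qbar) * (e j : X → Qbar) (act σ y) := by
      rw [← ha, Finset.sum_apply]; rfl
    have h2 : σ (F y) = ∑ j, σ (a j : Qbar) * (e j : X → Qbar) (act σ y) := by
      rw [← ha, Finset.sum_apply, map_sum]
      refine Finset.sum_congr rfl fun j _ => ?_
      rw [hK _ (e j).2 σ y, ← map_mul]
      rfl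
    simp only [Finset.sum_apply, Pi.smul_apply, smul_eq_mul, Pi.zero_apply, sub_mul,
      Finset.sum_sub_distrib, ← h1, ← h2, hF σ y, sub_self]
  choose q hq using fun i => mem_range_of_fixed (hfix i)
  have hqr : ∀ i, q i ∈ GaloisRep.ratLocalizedAt ℓ := fun i =>
    rat_mem_rp_of_mem Fact.out hA ((hq i).symm ▸ (a i).2)
  rw [← ha]
  refine Submodule.sum_mem _ fun i _ => ?_
  have : a i • (e i : X → Qbar) = (⟨q i, hqr i⟩ : Rp ℓ) • (e i : X → Qbar) := by
    funext x
    show (a i : Qbar) * _ = _
    rw [← hq i, Pi.smul_apply, Algebra.smul_def]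
    rfl
  rw [this]
  exact K.smul_mem _ (e i).2

/-- Splitting of a lattice embedding with torsion-free cokernel. -/
theorem exists_retraction {M N : Type*} [AddCommGroup M] [Module (Rp ℓ) M] [AddCommGroup N]
    [Module (Rp ℓ) N] [Module.Finite (Rp ℓ) N] (φ : M →ₗ[Rp ℓ] N) (hφ : Function.Injective φ)
    (hsat : ∀ (r : Rp ℓ) y, r ≠ 0 → r • y ∈ LinearMap.range φ → y ∈ LinearMap.range φ) :
    ∃ ψ : N →ₗ[Rp ℓ] M, ∀ x, ψ (φ x) = x := by
  haveI : Module.IsTorsionFree (Rp ℓ) (N ⧸ LinearMap.range φ) := by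
    refine ⟨fun r hr a b hab => ?_⟩
    induction a using Submodule.Quotient.induction_on with
    | _ a =>
    induction b using Submodule.Quotient.induction_on with
    | _ b =>
    rw [Submodule.Quotient.eq]
    refine hsat r _ hr.ne_zero ?_
    rw [smul_sub, ← Submodule.Quotient.eq]
    exact hab
  haveI : Module.Free (Rp ℓ) (N ⧸ LinearMap.range φ) := Module.free_of_finite_type_torsion_free'
  obtain ⟨τ, hτ⟩ := Module.projective_lifting_property (LinearMap.range φ).mkQ LinearMap.id
    (Submodule.mkQ_surjective _)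
  have hmem : ∀ y, y - τ ((LinearMap.range φ).mkQ y) ∈ LinearMap.range φ := by
    intro y
    rw [← Submodule.Quotient.eq]
    exact (LinearMap.congr_fun hτ _).symm
  refine ⟨(LinearEquiv.ofInjective φ hφ).symm.toLinearMap ∘ₗ
    (LinearMap.id - τ ∘ₗ (LinearMap.range φ).mkQ).codRestrict _ hmem, fun x => ?_⟩
  apply (LinearEquiv.ofInjective φ hφ).injective
  rw [LinearMap.comp_apply, LinearEquiv.coe_coe, LinearEquiv.apply_symm_apply]
  apply Subtype.ext
  have h0 : (LinearMap.range φ).mkQ (φ x) = 0 :=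
    (Submodule.Quotient.mk_eq_zero _).2 ⟨x, rfl⟩
  simp [h0]

/-- The span of products `(x, y) ↦ f x * g y`. -/
def prodSpanOf {X Y : Type} (K : Submodule (Rp ℓ) (X → Qbar)) (K' : Submodule (Rp ℓ) (Y → Qbar)) :
    Submodule (Rp ℓ) (X × Y → Qbar) :=
  Submodule.span (Rp ℓ) {G | ∃ f ∈ K, ∃ g ∈ K', G = fun z => f z.1 * g z.2}

theorem comp_append_mem {X : Type} (act : GalQ →* Equiv.Perm X) (m n : ℕ)
    {F : (Fin (m + n) → X) → Qbar} (hF : F ∈ powFun ℓ act (m + n)) :
    (fun z : (Fin m → X) × (Fin n → X) => F (Fin.append z.1 z.2)) ∈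
      prodSpanOf ℓ (Subalgebra.toSubmodule (powFun ℓ act m))
        (Subalgebra.toSubmodule (powFun ℓ act n)) := by
  set V := prodSpanOf ℓ (Subalgebra.toSubmodule (powFun ℓ act m))
    (Subalgebra.toSubmodule (powFun ℓ act n)) with hV
  have hmul : ∀ f ∈ V, ∀ g ∈ V, f * g ∈ V := by
    intro f hf g hg
    have := Submodule.mul_mem_mul hf hg
    rw [hV, prodSpanOf, Submodule.span_mul_span] at this
    refine Submodule.span_mono ?_ this
    rintro _ ⟨_, ⟨a, ha, b, hb, rfl⟩, _, ⟨a', ha', b', hb', rfl⟩, rfl⟩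
    exact ⟨a * a', mul_mem (s := powFun ℓ act m) ha ha',
      b * b', mul_mem (s := powFun ℓ act n) hb hb', funext fun z => by
        simp only [Pi.mul_apply]; ring⟩
  induction hF using Algebra.adjoin_induction with
  | mem F hF =>
    obtain ⟨i, ψ, hψ, rfl⟩ := hF
    refine Submodule.subset_span ?_
    induction i using Fin.addCases with
    | left i =>
      exact ⟨fun v => ψ (v i), Algebra.subset_adjoin ⟨i, ψ, hψ, rfl⟩, 1, one_mem (powFun ℓ act n),
        funext fun z => by simp⟩
    | right i =>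
      exact ⟨1, one_mem (powFun ℓ act m), fun v => ψ (v i), Algebra.subset_adjoin ⟨i, ψ, hψ, rfl⟩,
        funext fun z => by simp⟩
  | algebraMap r =>
    refine Submodule.subset_span ⟨algebraMap (Rp ℓ) _ r, Subalgebra.algebraMap_mem _ r, 1,
      one_mem (powFun ℓ act n), funext fun z => ?_⟩
    simp [Pi.algebraMap_apply]
  | add F G _ _ hF hG => exact V.add_mem hF hG
  | mul F G _ _ hF hG => exact hmul _ hF _ hG

end Functions

/-- If, at one place `A` over `ℓ`, separating `A`-valued functions on `T` pull back along every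
iterated sum of an equivariant cover `cls : T' → T` into the algebra generated by integral
equivariant functions of `T'`, then `T` has a flat model at `ℓ`. -/
theorem hasFlatModel_of_bounded {ℓ : ℕ} [Fact ℓ.Prime] {T : Type} [AddCommGroup T] [Finite T]
    (act : GalQ →* AddMonoid.End T) {T' : Type} [Finite T'] (act' : GalQ →* Equiv.Perm T')
    (hsm : IsSmoothAct act') (cls : T' → T) (hcls : Function.Surjective cls)
    (hequiv : ∀ (σ : GalQ) t, cls (act' σ t) = act σ (cls t))
    (A : ValuationSubring Qbar) (hA : A.LiesOverPrime ℓ) (Φ : Set (T → A))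
    (hsep : ∀ x y : T, x ≠ y → ∃ φ ∈ Φ, φ x ≠ φ y)
    (hpull : ∀ m, ∀ φ ∈ Φ, (fun w : Fin m → T' => φ (∑ i, cls (w i))) ∈ powAdjoin ℓ act' A m) :
    HasFlatModel ℓ T act := by
  classical
  letI := isPrincipalIdealRing ℓ
  haveI := Fintype.ofFinite T
  haveI := Fintype.ofFinite T'
  -- the action on `T` as permutations
  let actT : GalQ →* Equiv.Perm T :=
    { toFun := fun σ => ⟨act σ, act σ⁻¹,
        fun x => by
          show (act σ⁻¹ * act σ) x = x
          rw [← map_mul, inv_mul_cancel, map_one]; rfl,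
        fun x => by
          show (act σ * act σ⁻¹) x = x
          rw [← map_mul, mul_inv_cancel, map_one]; rfl⟩
      map_one' := Equiv.ext fun x => by simp only [Equiv.coe_fn_mk, map_one]; rfl
      map_mul' := fun σ τ => Equiv.ext fun x => by simp only [Equiv.coe_fn_mk, map_mul]; rfl }
  have hsmT : IsSmoothAct actT := by
    intro x
    obtain ⟨t, rfl⟩ := hcls x
    obtain ⟨L, hfd, hL⟩ := hsm t
    exact ⟨L, hfd, fun σ hσ => (hequiv σ t).symm.trans (congrArg cls (hL σ hσ))⟩
  let R : ∀ m, Subalgebra (Rp ℓ) ((Fin m → T') → Qbar) := fun m => powFun ℓ act' m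
  have hRfin : ∀ m, Module.Finite (Rp ℓ) (Subalgebra.toSubmodule (R m)) := fun m => by
    haveI := finite_intFun ℓ (hsm.pow m)
    have hle : Subalgebra.toSubmodule (R m) ≤ Subalgebra.toSubmodule (intFun ℓ (actPow act' m)) :=
      powFun_le ℓ act' m
    exact Module.Finite.of_injective (Submodule.inclusion hle) (Submodule.inclusion_injective _)
  let sm : ∀ m, (Fin m → T') → T := fun m w => ∑ i, cls (w i)
  have hsm_eq : ∀ m (σ : GalQ) w, sm m (actPow act' m σ w) = act σ (sm m w) := fun m σ w => by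
    simp only [sm, map_sum]
    exact Finset.sum_congr rfl fun i _ => hequiv σ (w i)
  let E : Subalgebra (Rp ℓ) (T → Qbar) :=
    { carrier := {f | ∀ (σ : GalQ) x, f (act σ x) = σ (f x)}
      mul_mem' := fun {a b} ha hb σ x => by simp [ha σ x, hb σ x]
      add_mem' := fun {a b} ha hb σ x => by simp [ha σ x, hb σ x]
      algebraMap_mem' := fun r σ x => by
        rw [Pi.algebraMap_apply, Pi.algebraMap_apply]
        exact ((galHom ℓ σ).commutes r).symm }
  let H : Subalgebra (Rp ℓ) (T → Qbar) := E ⊓ ⨅ m, (R m).comap (pull ℓ (sm m))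
  have hH : ∀ {f}, f ∈ H ↔ (∀ (σ : GalQ) x, f (act σ x) = σ (f x)) ∧
      ∀ m, (fun w => f (sm m w)) ∈ R m := by
    intro f
    simp only [H, Algebra.mem_inf, Algebra.mem_iInf, Subalgebra.mem_comap]
    exact Iff.rfl
  -- bounded denominators
  let P : Subalgebra A (T → A) := Algebra.adjoin A Φ
  have hP : ∀ g ∈ P, ∀ m, (fun w : Fin m → T' => g (sm m w)) ∈ powAdjoin ℓ act' A m := by
    intro g hg m
    induction hg using Algebra.adjoin_induction with
    | mem g hg => exact hpull m g hg
    | algebraMap a => exact Subalgebra.algebraMap_mem _ a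
    | add f g _ _ hf hg => exact add_mem hf hg
    | mul f g _ _ hf hg => exact mul_mem hf hg
  have hbd : ∀ f : T → Qbar, (∀ (σ : GalQ) x, f (act σ x) = σ (f x)) →
      ∃ r : Rp ℓ, r ≠ 0 ∧ r • f ∈ H := by
    intro f hf
    have hdelta : ∀ x, ∃ g ∈ P, g x ≠ 0 ∧ ∀ y, y ≠ x → g y = 0 := by
      intro x
      choose! φ hφ hφne using fun y (hy : x ≠ y) => hsep x y hy
      refine ⟨∏ y ∈ Finset.univ.erase x, (φ y - algebraMap A (T → A) (φ y y)),
        Subalgebra.prod_mem _ fun y hy => sub_mem
          (Algebra.subset_adjoin (hφ y (Finset.ne_of_mem_erase hy).symm))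
          (Subalgebra.algebraMap_mem _ _), ?_, fun y hy => ?_⟩
      · rw [Finset.prod_apply]
        refine Finset.prod_ne_zero_iff.2 fun y hy => ?_
        simp only [Pi.sub_apply, Pi.algebraMap_apply, Algebra.algebraMap_self, RingHom.id_apply]
        exact sub_ne_zero.2 (hφne y (Finset.ne_of_mem_erase hy).symm)
      · rw [Finset.prod_apply]
        refine Finset.prod_eq_zero (Finset.mem_erase.2 ⟨hy, Finset.mem_univ _⟩) ?_
        simp [Pi.algebraMap_apply]
    choose g hgP hgne hg0 using hdelta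
    choose r hr hrint using fun x => exists_smul_isIntegral ℓ (f x / (g x x : Qbar))
    refine ⟨∏ x, r x, Finset.prod_ne_zero_iff.2 fun x _ => hr x, hH.2 ⟨fun σ x => ?_, fun m => ?_⟩⟩
    · show (∏ x, r x) • f (act σ x) = σ ((∏ x, r x) • f x)
      rw [hf σ x, galois_smul]
    · have ha : ∀ x, (∏ y, r y) • (f x / (g x x : Qbar)) ∈ A := fun x => by
        rw [← Finset.prod_erase_mul _ _ (Finset.mem_univ x), mul_smul]
        refine mem_of_isIntegral_rp Fact.out hA ?_
        rw [Algebra.smul_def]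
        exact isIntegral_algebraMap.mul (hrint x)
      let G : T → A := ∑ x, algebraMap A (T → A) ⟨_, ha x⟩ * g x
      have hG : ∀ y, (G y : Qbar) = (∏ z, r z) • f y := by
        intro y
        simp only [G, Finset.sum_apply, AddSubmonoidClass.coe_finsetSum, Pi.mul_apply,
          Pi.algebraMap_apply, Algebra.algebraMap_self, RingHom.id_apply, MulMemClass.coe_mul]
        rw [Finset.sum_eq_single y]
        · rw [smul_mul_assoc, div_mul_cancel₀ _ fun h => hgne y (Subtype.ext h)]
        · intro x _ hxy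
          rw [hg0 x y (Ne.symm hxy), ZeroMemClass.coe_zero, mul_zero]
        · simp
      have hGP : G ∈ P := Subalgebra.sum_mem _ fun x _ =>
        mul_mem (Subalgebra.algebraMap_mem _ _) (hgP x)
      have hspan := coe_mem_span_of_mem_powAdjoin ℓ act' A m (hP G hGP m)
      haveI := hRfin m
      refine mem_of_equivariant_of_mem_span ℓ (actPow act' m) A hA (Subalgebra.toSubmodule (R m))
        (fun F hF => (powFun_le ℓ act' m hF).1) (fun σ w => ?_) ?_
      · show (∏ x, r x) • f (sm m (actPow act' m σ w)) = σ ((∏ x, r x) • f (sm m w))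
        rw [hsm_eq, hf, galois_smul]
      · have heq : (fun w => ((∏ x, r x) • f) (sm m w)) = fun w => (G (sm m w) : Qbar) :=
          funext fun w => (hG _).symm
        rw [heq]
        exact hspan
  have hsep' : ∀ x y : T, x ≠ y → ∃ f ∈ H, f x ≠ f y := by
    intro x y hxy
    obtain ⟨f, hf, hne⟩ := exists_equivariant_separating hsmT hxy
    obtain ⟨r, hr, hrf⟩ := hbd f hf
    exact ⟨_, hrf, fun h => hne (smul_right_injective Qbar
      (show (r : ℚ) ≠ 0 from fun h => hr (Subtype.ext h)) h)⟩
  have hHfin : Module.Finite (Rp ℓ) H := by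
    haveI := finite_intFun ℓ hsm
    have hle : ∀ f ∈ H, (fun t => f (cls t)) ∈ intFun ℓ act' := by
      intro f hf
      have h := powFun_le ℓ act' 1 ((hH.1 hf).2 1)
      refine ⟨fun σ t => ?_, fun t => ?_⟩
      · show f (cls (act' σ t)) = σ (f (cls t))
        rw [hequiv, (hH.1 hf).1]
      · simpa [sm] using h.2 fun _ => t
    let emb : H →ₗ[Rp ℓ] intFun ℓ act' :=
      { toFun := fun f => ⟨fun t => (f : T → Qbar) (cls t), hle _ f.2⟩
        map_add' := fun _ _ => rfl
        map_smul' := fun _ _ => rfl }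
    refine Module.Finite.of_injective emb fun f g h => Subtype.ext (funext fun x => ?_)
    obtain ⟨t, rfl⟩ := hcls x
    exact congrFun (congrArg Subtype.val h) t
  haveI := hHfin
  -- finitely many sums cut out `H`
  haveI : Module.IsTorsionFree (Rp ℓ) H := isTorsionFree_sub ℓ (Subalgebra.toSubmodule H)
  haveI : Module.Free (Rp ℓ) H := Module.free_of_finite_type_torsion_free'
  let φm : ∀ m, H →ₗ[Rp ℓ] Subalgebra.toSubmodule (R m) := fun m =>
    ((pull ℓ (sm m)).toLinearMap ∘ₗ (Subalgebra.toSubmodule H).subtype).codRestrict _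
      fun f => (hH.1 f.2).2 m
  let D : ℕ →o Submodule (Rp ℓ) (Module.Dual (Rp ℓ) H) :=
    ⟨fun k => ⨆ m : Fin (k + 1), LinearMap.range (φm m).dualMap, fun a b hab =>
      iSup_le fun m => le_iSup (fun i : Fin (b + 1) => LinearMap.range (φm i).dualMap)
        ⟨m, by omega⟩⟩
  obtain ⟨k₀, hk₀⟩ := monotone_stabilizes_iff_noetherian.2
    (inferInstance : IsNoetherian (Rp ℓ) (Module.Dual (Rp ℓ) H)) D
  let M := k₀ + 1
  have hcut : ∀ g : T → Qbar, (∀ (σ : GalQ) x, g (act σ x) = σ (g x)) →
      (∀ m : Fin (M + 1), (fun w => g (sm m w)) ∈ R m) → g ∈ H := by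
    intro g hg hgM
    obtain ⟨r, hr, hrg⟩ := hbd g hg
    have hdvd : ∀ lam ∈ D k₀, r ∣ lam ⟨_, hrg⟩ := by
      intro lam hlam
      induction hlam using Submodule.iSup_induction' with
      | mem m lam hlam =>
        obtain ⟨μ, rfl⟩ := hlam
        refine ⟨μ ⟨_, hgM ⟨m, by omega⟩⟩, ?_⟩
        rw [← smul_eq_mul, ← map_smul]
        rfl
      | zero => exact dvd_zero r
      | add a b _ _ ha hb => exact dvd_add ha hb
    refine hH.2 ⟨hg, fun m => ?_⟩
    haveI := hRfin m
    haveI := isTorsionFree_sub ℓ (Subalgebra.toSubmodule (R m))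
    haveI : Module.Free (Rp ℓ) (Subalgebra.toSubmodule (R m)) :=
      Module.free_of_finite_type_torsion_free'
    let e := Module.Free.chooseBasis (Rp ℓ) (Subalgebra.toSubmodule (R m))
    have hcoord : ∀ i, r ∣ e.coord i (φm m ⟨_, hrg⟩) := by
      intro i
      refine hdvd ((φm m).dualMap (e.coord i)) ?_
      have hle : LinearMap.range (φm m).dualMap ≤ D k₀ := by
        by_cases hm : m ≤ k₀
        · exact le_iSup (fun i : Fin (k₀ + 1) => LinearMap.range (φm i).dualMap) ⟨m, by omega⟩
        · rw [hk₀ m (by omega)]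
          exact le_iSup (fun i : Fin (m + 1) => LinearMap.range (φm i).dualMap) ⟨m, by omega⟩
      exact hle ⟨_, rfl⟩
    choose y hy using hcoord
    have hval : φm m ⟨_, hrg⟩ = r • ∑ i, y i • e i := by
      rw [← e.sum_repr (φm m ⟨_, hrg⟩), Finset.smul_sum]
      refine Finset.sum_congr rfl fun i _ => ?_
      rw [smul_smul, ← hy i]
      rfl
    have := rp_smul_cancel ℓ hr (congrArg Subtype.val hval :
      r • (fun w => g (sm m w)) = r • (((∑ i, y i • e i : Subalgebra.toSubmodule (R m))) :
        (Fin m → T') → Qbar))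
    rw [this]
    exact Subtype.property _
  -- the union of the powers up to `M`
  let X := Σ m : Fin (M + 1), (Fin m → T')
  let actX : GalQ →* Equiv.Perm X :=
    actSigma (fun m : Fin (M + 1) => actPow act' (m : ℕ))
  let s : X → T := fun z => sm z.1 z.2
  have hs : Function.Surjective s := fun x => by
    obtain ⟨t, rfl⟩ := hcls x
    refine ⟨⟨⟨1, by omega⟩, fun _ => t⟩, ?_⟩
    show ∑ _i : Fin 1, cls t = cls t
    simp
  let K : Submodule (Rp ℓ) (X → Qbar) := ⨅ m : Fin (M + 1),
    (Subalgebra.toSubmodule (R m)).comap (pull ℓ (fun w => (⟨m, w⟩ : X))).toLinearMap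
  have hKmem : ∀ {F}, F ∈ K ↔ ∀ m : Fin (M + 1), (fun w => F ⟨m, w⟩) ∈ R m := by
    intro F
    simp only [K, Submodule.mem_iInf, Submodule.mem_comap]
    exact Iff.rfl
  have hKequiv : ∀ F ∈ K, ∀ (σ : GalQ) z, F (actX σ z) = σ (F z) := by
    rintro F hF σ ⟨m, w⟩
    exact (powFun_le ℓ act' m (hKmem.1 hF m)).1 σ w
  haveI hKfin : Module.Finite (Rp ℓ) K := by
    haveI := finite_intFun ℓ (IsSmoothAct.sigma fun m : Fin (M + 1) => hsm.pow (m : ℕ))
    have hle : K ≤ Subalgebra.toSubmodule (intFun ℓ actX) := fun F hF =>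
      ⟨hKequiv F hF, fun z => (powFun_le ℓ act' z.1 (hKmem.1 hF z.1)).2 z.2⟩
    exact Module.Finite.of_injective (Submodule.inclusion hle) (Submodule.inclusion_injective _)
  haveI := isTorsionFree_sub ℓ K
  haveI : Module.Free (Rp ℓ) K := Module.free_of_finite_type_torsion_free'
  let φ : H →ₗ[Rp ℓ] K :=
    ((pull ℓ s).toLinearMap ∘ₗ (Subalgebra.toSubmodule H).subtype).codRestrict _
      fun f => hKmem.2 fun m => (hH.1 f.2).2 m
  have hφ : Function.Injective φ := fun f g h => Subtype.ext (funext fun x => by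
    obtain ⟨z, rfl⟩ := hs x
    exact congrFun (congrArg Subtype.val h) z)
  obtain ⟨ψ, hψ⟩ := exists_retraction ℓ φ hφ (by
    rintro r y hr ⟨f, hf⟩
    have hr0 : (algebraMap (Rp ℓ) Qbar r) ≠ 0 := by
      rw [algebraMap_rp_apply, map_ne_zero]
      exact fun h => hr (Subtype.ext h)
    let g : T → Qbar := fun x => (algebraMap (Rp ℓ) Qbar r)⁻¹ * (f : T → Qbar) x
    have hgs : ∀ z, g (s z) = (y : X → Qbar) z := by
      intro z
      have h : (f : T → Qbar) (s z) = algebraMap (Rp ℓ) Qbar r * (y : X → Qbar) z := by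
        rw [← Algebra.smul_def]
        exact congrFun (congrArg Subtype.val hf) z
      show (algebraMap (Rp ℓ) Qbar r)⁻¹ * (f : T → Qbar) (s z) = _
      rw [h, inv_mul_cancel_left₀ hr0]
    have hgH : g ∈ H := hcut g (fun σ x => by
      show _ * _ = σ (_ * _)
      rw [map_mul, map_inv₀, (hH.1 f.2).1 σ x]
      congr 2
      exact ((galHom ℓ σ).commutes r).symm) fun m => by
        have h := hKmem.1 y.2 m
        have heq : (fun w => g (sm m w)) = fun w => (y : X → Qbar) ⟨m, w⟩ :=
          funext fun w => hgs ⟨m, w⟩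
        rwa [heq]
    exact ⟨⟨g, hgH⟩, Subtype.ext (funext hgs)⟩)
  -- extend the retraction to all functions
  let e := Module.Free.chooseBasis (Rp ℓ) K
  have hli : LinearIndependent Qbar fun i => (e i : X → Qbar) :=
    linearIndependent_qbar ℓ (fun σ => actX σ) (fun σ => (actX σ).surjective) _
      (fun i σ x => hKequiv _ (e i).2 σ x) (e.linearIndependent.map' K.subtype K.ker_subtype)
  obtain ⟨Ψ, hΨ⟩ := LinearMap.exists_extend
    ((Module.Basis.span hli).constr Qbar fun i => (ψ (e i) : T → Qbar))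
  have hΨK : ∀ F : K, Ψ (F : X → Qbar) = (ψ F : T → Qbar) := by
    have h : (Ψ.restrictScalars (Rp ℓ)) ∘ₗ K.subtype =
        (Subalgebra.toSubmodule H).subtype ∘ₗ ψ := e.ext fun i => by
      have h1 := LinearMap.congr_fun hΨ (Module.Basis.span hli i)
      rw [Module.Basis.constr_basis, LinearMap.comp_apply, Submodule.subtype_apply] at h1
      have h2 : ((Module.Basis.span hli i : Submodule.span Qbar _) : X → Qbar) = e i :=
        congrArg Subtype.val (Module.Basis.span_apply hli i)
      rw [h2] at h1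
      exact h1
    exact fun F => LinearMap.congr_fun h F
  have hΨs : ∀ f : T → Qbar, Ψ (fun z => f (s z)) = f := by
    intro f
    have hspan := span_eq_top_of_separating ℓ H hsep'
    have hmem : f ∈ Submodule.span Qbar (H : Set (T → Qbar)) := by rw [hspan]; trivial
    induction hmem using Submodule.span_induction with
    | mem f hf =>
      have h := hΨK (φ ⟨f, hf⟩)
      rw [hψ] at h
      exact h
    | zero => exact map_zero Ψ
    | add a b _ _ ha hb =>
      rw [show (fun z => (a + b) (s z)) = (fun z => a (s z)) + fun z => b (s z) from rfl,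
        map_add, ha, hb]
    | smul c a _ ha =>
      rw [show (fun z => (c • a) (s z)) = c • fun z => a (s z) from rfl, map_smul, ha]
  let u : X → T → Qbar := fun z => Ψ (Pi.single z 1)
  have hΨu : ∀ (F : X → Qbar) t, Ψ F t = ∑ z, F z * u z t := by
    intro F t
    have h : F = ∑ z, F z • (Pi.single z 1 : X → Qbar) := by
      funext z'
      rw [Finset.sum_apply, Finset.sum_eq_single z']
      · simp
      · intro b _ hb
        simp [Pi.single_eq_of_ne (Ne.symm hb)]
      · simp
    conv_lhs => rw [h, map_sum, Finset.sum_apply]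
    simp [u, map_smul]
  let Ψ2 : (X × X → Qbar) →ₗ[Rp ℓ] (T × T → Qbar) :=
    { toFun := fun G q => ∑ a, ∑ b, G (a, b) * (u a q.1 * u b q.2)
      map_add' := fun G G' => funext fun q => by
        simp [add_mul, Finset.sum_add_distrib]
      map_smul' := fun c G => funext fun q => by
        simp [Finset.smul_sum] }
  refine ⟨⟨H, hHfin, fun f hf => (hH.1 hf).1, hsep', fun f hf => ?_⟩⟩
  -- the pullback of the comultiplication of `f`
  let G : X × X → Qbar := fun z => f (s z.1 + s z.2)
  have hG : G ∈ prodSpanOf ℓ K K := by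
    let ext : ∀ m : Fin (M + 1), ((Fin m → T') → Qbar) → X → Qbar := fun m F z =>
      if h : z.1 = m then F (h ▸ z.2) else 0
    have hext_eq : ∀ (m : Fin (M + 1)) (F : (Fin (m : ℕ) → T') → Qbar) w, ext m F ⟨m, w⟩ = F w := fun m F w => by
      simp [ext]
    have hext_ne : ∀ (m m' : Fin (M + 1)) (F : (Fin (m : ℕ) → T') → Qbar) w, m' ≠ m → ext m F ⟨m', w⟩ = 0 :=
      fun m m' F w h => by simp [ext, h]
    have hextK : ∀ (m : Fin (M + 1)), ∀ F ∈ R (m : ℕ), ext m F ∈ K := by
      intro m F hF
      refine hKmem.2 fun m' => ?_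
      by_cases h : m' = m
      · subst h
        simpa [hext_eq] using hF
      · simp only [hext_ne m m' F _ h]
        exact Subalgebra.zero_mem _
    let ext2 : ∀ m n : Fin (M + 1),
        (((Fin m → T') × (Fin n → T')) → Qbar) →ₗ[Rp ℓ] (X × X → Qbar) := fun m n =>
      { toFun := fun F z => if h : z.1.1 = m ∧ z.2.1 = n then F (h.1 ▸ z.1.2, h.2 ▸ z.2.2) else 0
        map_add' := fun F F' => funext fun z => by
          by_cases h : z.1.1 = m ∧ z.2.1 = n <;> simp [h]
        map_smul' := fun c F => funext fun z => by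
          by_cases h : z.1.1 = m ∧ z.2.1 = n <;> simp [h] }
    have hdecomp : G = ∑ m, ∑ n, ext2 m n (fun q => f (sm m q.1 + sm n q.2)) := by
      funext z
      obtain ⟨⟨m, v⟩, ⟨n, w⟩⟩ := z
      simp only [Finset.sum_apply]
      rw [Finset.sum_eq_single m, Finset.sum_eq_single n]
      · simp [ext2, G, s]
      · intro n' _ hn'; simp [ext2, Ne.symm hn']
      · simp
      · intro m' _ hm'; simp [ext2, Ne.symm hm']
      · simp
    rw [hdecomp]
    refine Submodule.sum_mem _ fun m _ => Submodule.sum_mem _ fun n _ => ?_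
    have hc := comp_append_mem ℓ act' (m : ℕ) (n : ℕ) ((hH.1 hf).2 ((m : ℕ) + n))
    have heq : (fun q : (Fin (m : ℕ) → T') × (Fin (n : ℕ) → T') => f (sm m q.1 + sm n q.2)) =
        fun q => f (sm (m + n) (Fin.append q.1 q.2)) := by
      funext q
      simp [sm, Fin.sum_univ_add]
    rw [← heq] at hc
    have h2 := Submodule.mem_map_of_mem (f := ext2 m n) hc
    rw [prodSpanOf, Submodule.map_span] at h2
    refine Submodule.span_mono ?_ h2
    rintro _ ⟨_, ⟨a, ha, b, hb, rfl⟩, rfl⟩
    refine ⟨ext m a, hextK m a ha, ext n b, hextK n b hb, funext fun z => ?_⟩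
    by_cases h1 : z.1.1 = m <;> by_cases h2 : z.2.1 = n <;> simp [ext2, ext, h1, h2]
  have hback : Ψ2 G = fun xy : T × T => f (xy.1 + xy.2) := by
    funext q
    obtain ⟨x, y⟩ := q
    show ∑ a, ∑ b, G (a, b) * (u a x * u b y) = f (x + y)
    have h1 : ∀ a, ∑ b, G (a, b) * u b y = f (s a + y) := fun a => by
      rw [← hΨu]
      exact congrFun (hΨs fun z => f (s a + z)) y
    calc ∑ a, ∑ b, G (a, b) * (u a x * u b y) = ∑ a, (∑ b, G (a, b) * u b y) * u a x := by
          refine Finset.sum_congr rfl fun a _ => ?_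
          rw [Finset.sum_mul]
          exact Finset.sum_congr rfl fun b _ => by ring
      _ = ∑ a, f (s a + y) * u a x := by simp only [h1]
      _ = f (x + y) := by
          rw [← hΨu]
          exact congrFun (hΨs fun z => f (z + y)) x
  rw [← hback]
  have h2 := Submodule.mem_map_of_mem (f := Ψ2) hG
  rw [prodSpanOf, Submodule.map_span] at h2
  refine Submodule.span_mono ?_ h2
  rintro _ ⟨_, ⟨a, ha, b, hb, rfl⟩, rfl⟩
  refine ⟨ψ ⟨a, ha⟩, (ψ ⟨a, ha⟩).2, ψ ⟨b, hb⟩, (ψ ⟨b, hb⟩).2, funext fun q => ?_⟩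
  rw [← hΨK ⟨a, ha⟩, ← hΨK ⟨b, hb⟩]
  show ∑ i, ∑ j, a i * b j * (u i q.1 * u j q.2) = _
  rw [hΨu, hΨu, Finset.sum_mul_sum]
  exact Finset.sum_congr rfl fun i _ => Finset.sum_congr rfl fun j _ => by ring

end FLTA.Grass

end
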