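import Fermat.Agent.Grass.Colon

/-!
# Divisor classes carried by a ring of functions
-/

set_option autoImplicit false

noncomputable section

open AlgebraicCurve

namespace FLTA.Grass

variable {K : Type*} [Field K] {A : ValuationSubring K} {k : Type*} [Field k] {π : A →+* k}
  {F : Type*} [Field F] [Algebra K F] {F' : Type*} [Field F'] [Algebra k F'] {g : ℕ}
  {Ω : Type*}

namespace Ctx

variable (C : Ctx A π F F' g)

local notation "L" => riemannRochSpace
local notation "Prin" => Divisor.principal (K := K) (F := F)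

/-- `Rg` carries the family of degree zero classes `c`. -/
def Carries (Rg : Subalgebra A (Ω → A)) (c : Ω → Divisor K F) : Prop :=
  ∀ n : ℕ, 2 * g ≤ n → ∃ (N : ℕ) (E : Ω → Divisor K F), C.GenAt Rg N E ∧
    (∀ ω, Divisor.degree (E ω) = (n : ℤ)) ∧ ∀ ω, E ω - (c ω + C.infDiv n) ∈ Prin

theorem genAt_level {Rg : Subalgebra A (Ω → A)} {N : ℕ} {E : Ω → Divisor K F}
    (h : C.GenAt Rg N E) {D : Ω → Divisor K F} (e : ∀ ω, E ω = D ω) : C.GenAt Rg N D := by
  rwa [← funext e]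

include C in
theorem finrank_of_degree {D : Divisor K F} {n : ℕ} (h : Divisor.degree D = (n : ℤ))
    (hn : 2 * g ≤ n + 1) : Module.finrank K (L D) = n + 1 - g := by
  have := C.rrK.finrank_eq D (by omega)
  omega

/-- From `E` of degree `e ≥ 2g`: a function `u` and the complement `(e + 2g) • inf - div u - E`. -/
theorem exists_compl [Finite Ω] {Rg : Subalgebra A (Ω → A)} {N e : ℕ} {E : Ω → Divisor K F}
    (h : C.GenAt Rg N E) (hd : ∀ ω, Divisor.degree (E ω) = (e : ℤ)) (he : 2 * g ≤ e) :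
    ∃ (u : Ω → Fin (C.dimInf N) → A) (P : Ω → Divisor K F),
      (∀ i, (fun ω => u ω i) ∈ Rg) ∧ (∀ ω, C.R.red (C.vec N (u ω)) ≠ 0) ∧
      (∀ ω w, P ω w = w.ord (C.vec N (u ω) : F)) ∧
      (∀ ω, (C.vec N (u ω) : F) ∈ L (E ω)) ∧
      (∀ ω, P ω ∈ Prin) ∧
      C.GenAt Rg (e + 2 * g) fun ω => C.infDiv ((e + 2 * g : ℕ) : ℤ) - P ω - E ω := by
  obtain ⟨u, hu, hu'⟩ := C.exists_primitive h fun ω => by
    rw [C.finrank_of_degree (hd ω) (by omega)]; omega
  have hne : ∀ ω, (C.vec N (u ω) : F) ≠ 0 := fun ω h0 => (hu' ω).2 <| by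
    rw [show C.vec N (u ω) = 0 from Subtype.ext h0, map_zero]
  choose P hP hP0 using fun ω => C.rrK.principal.exists_divisor (C.vec N (u ω) : F) (hne ω)
  have hPp : ∀ ω, P ω ∈ Prin := fun ω => ⟨_, hne ω, hP ω⟩
  refine ⟨u, P, hu, fun ω => (hu' ω).2, hP, fun ω => (hu' ω).1, hPp, ?_⟩
  have htw := C.genAt_twist (W := N + (e + 2 * g)) le_rfl
    (C.genAt_const Rg (N := e + 2 * g) (D := C.infDiv ((e + 2 * g : ℕ) : ℤ)) le_rfl
      (C.full_of_degree (by rw [C.degree_infDiv]; omega))) u hu (fun ω => (hu' ω).2) P hP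
  have hdt : ∀ ω, Divisor.degree (C.infDiv ((e + 2 * g : ℕ) : ℤ) - P ω) = ((e + 2 * g : ℕ) : ℤ) :=
    fun ω => by rw [map_sub, C.degree_infDiv, hP0, sub_zero]
  have hdd : ∀ ω, Divisor.degree (C.infDiv ((e + 2 * g : ℕ) : ℤ) - P ω - E ω) =
      ((2 * g : ℕ) : ℤ) := fun ω => by rw [map_sub, hdt, hd]; omega
  refine C.genAt_colon (c := g + 1) (c₂ := e + 2 * g + 1 - g) h htw
    (fun ω => by rw [hd]; omega) (by omega) (fun ω => Finsupp.le_def.2 fun w => ?_)
    (fun ω => C.full_of_degree (by rw [hdd]; omega))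
    (fun ω => by rw [C.finrank_of_degree (hdd ω) (by omega)]; omega)
    (fun ω => C.finrank_of_degree (hdt ω) (by omega))
  have h1 := (mem_riemannRochSpace_iff.1 (hu' ω).1 w).resolve_left (hne ω)
  rw [Finsupp.sub_apply, Finsupp.sub_apply, hP ω w]
  omega

/-- `E' + E - (e + 2g) • inf`, with the last degree arbitrary as long as the rank is constant. -/
theorem genAt_add_sub [Finite Ω] {Rg : Subalgebra A (Ω → A)} {N N' Q e e' c : ℕ}
    {E E' : Ω → Divisor K F} (h : C.GenAt Rg N E) (hd : ∀ ω, Divisor.degree (E ω) = (e : ℤ))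
    (he : 2 * g ≤ e) (h' : C.GenAt Rg N' E') (hd' : ∀ ω, Divisor.degree (E' ω) = (e' : ℤ))
    (he' : 2 * g ≤ e' + 1) (hQ : 2 * g ≤ Q)
    (hQ' : (N' : ℤ) + N - (e + 2 * g : ℕ) ≤ Q)
    (hfull : ∀ ω, C.Full (E' ω + E ω - C.infDiv ((e + 2 * g : ℕ) : ℤ)))
    (hc : ∀ ω, Module.finrank K (L (E' ω + E ω - C.infDiv ((e + 2 * g : ℕ) : ℤ))) = c) :
    C.GenAt Rg Q fun ω => E' ω + E ω - C.infDiv ((e + 2 * g : ℕ) : ℤ) := by
  obtain ⟨u, P, hu, hu0, hP, humem, hPp, hcompl⟩ := C.exists_compl h hd he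
  have htw := C.genAt_twist (W := N + N') le_rfl h' u hu hu0 P hP
  have hdP : ∀ ω, Divisor.degree (P ω) = 0 := fun ω => by
    obtain ⟨f, hf, hfP⟩ := hPp ω
    obtain ⟨D, hD, hD0⟩ := C.rrK.principal.exists_divisor f hf
    rwa [show P ω = D from Finsupp.ext fun w => (hfP w).trans (hD w).symm]
  have hid : ∀ ω, (E' ω - P ω) - (C.infDiv ((e + 2 * g : ℕ) : ℤ) - P ω - E ω) =
      E' ω + E ω - C.infDiv ((e + 2 * g : ℕ) : ℤ) := fun ω => by abel
  refine C.genAt_level (C.genAt_colon (c := c) (c₂ := e' + 1 - g) hcompl htw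
    (fun ω => by rw [map_sub, map_sub, C.degree_infDiv, hdP, hd]; omega) hQ (fun ω => ?_)
    (fun ω => (hid ω).symm ▸ hfull ω) (fun ω => (hid ω).symm ▸ hc ω)
    (fun ω => C.finrank_of_degree (by rw [map_sub, hdP, hd', sub_zero]) he')) hid
  rw [hid]
  refine Finsupp.le_def.2 fun w => ?_
  have h1 := Finsupp.le_def.1 (h.1 ω) w
  have h2 := Finsupp.le_def.1 (h'.1 ω) w
  rw [Finsupp.sub_apply, Finsupp.add_apply]
  by_cases hw : C.inf = w
  · subst hw
    simp only [infDiv, Finsupp.single_eq_same] at h1 h2 ⊢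
    omega
  · simp only [infDiv, Finsupp.single_eq_of_ne' hw] at h1 h2 ⊢
    omega

/-- The same in degree at least `2g - 1`. -/
theorem exists_add_sub [Finite Ω] {Rg : Subalgebra A (Ω → A)} {N N' e e' : ℕ}
    {E E' : Ω → Divisor K F} (h : C.GenAt Rg N E) (hd : ∀ ω, Divisor.degree (E ω) = (e : ℤ))
    (he : 2 * g ≤ e) (h' : C.GenAt Rg N' E') (hd' : ∀ ω, Divisor.degree (E' ω) = (e' : ℤ))
    (he' : 4 * g ≤ e') :
    C.GenAt Rg (N' + N + 2 * g) fun ω => E' ω + E ω - C.infDiv ((e + 2 * g : ℕ) : ℤ) := by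
  have hdd : ∀ ω, Divisor.degree (E' ω + E ω - C.infDiv ((e + 2 * g : ℕ) : ℤ)) =
      ((e' - 2 * g : ℕ) : ℤ) := fun ω => by
    rw [map_sub, map_add, C.degree_infDiv, hd, hd']; omega
  exact C.genAt_add_sub (c := e' - 2 * g + 1 - g) h hd he h' hd' (by omega) (by omega) (by omega)
    (fun ω => C.full_of_degree (by rw [hdd]; omega))
    (fun ω => C.finrank_of_degree (hdd ω) (by omega))

theorem carries_of_genAt [Finite Ω] {Rg : Subalgebra A (Ω → A)} {N e : ℕ}
    {E c : Ω → Divisor K F} (h : C.GenAt Rg N E) (hd : ∀ ω, Divisor.degree (E ω) = (e : ℤ))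
    (he : 2 * g ≤ e) (hc : ∀ ω, E ω - (c ω + C.infDiv e) ∈ Prin) : C.Carries Rg c := by
  intro n hn
  have hk := C.genAt_const Rg (N := n + 2 * g) (D := C.infDiv ((n + 2 * g : ℕ) : ℤ)) le_rfl
    (C.full_of_degree (by rw [C.degree_infDiv]; omega))
  refine ⟨_, _, C.exists_add_sub h hd he hk (e' := n + 2 * g) (fun ω => C.degree_infDiv _)
    (by omega), fun ω => ?_, fun ω => ?_⟩
  · rw [map_sub, map_add, C.degree_infDiv, C.degree_infDiv, hd]; omega
  · convert hc ω using 1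
    push_cast
    simp only [C.infDiv_add]
    abel

theorem carries_congr {Rg : Subalgebra A (Ω → A)} {c c' : Ω → Divisor K F}
    (h : C.Carries Rg c) (hcc : ∀ ω, c ω - c' ω ∈ Prin) : C.Carries Rg c' := fun n hn => by
  obtain ⟨N, E, hgen, hd, hc⟩ := h n hn
  refine ⟨N, E, hgen, hd, fun ω => ?_⟩
  convert add_mem (hc ω) (hcc ω) using 1
  abel

theorem carries_add [Finite Ω] {Rg : Subalgebra A (Ω → A)} {c c' : Ω → Divisor K F}
    (h : C.Carries Rg c) (h' : C.Carries Rg c') : C.Carries Rg fun ω => c ω + c' ω := by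
  obtain ⟨N, E, hgen, hd, hc⟩ := h (2 * g) le_rfl
  obtain ⟨N', E', hgen', hd', hc'⟩ := h' (4 * g) (by omega)
  refine C.carries_of_genAt (e := 2 * g) (C.exists_add_sub hgen hd le_rfl hgen' hd' le_rfl)
    (fun ω => ?_) le_rfl fun ω => ?_
  · rw [map_sub, map_add, C.degree_infDiv, hd, hd']; omega
  · convert add_mem (hc ω) (hc' ω) using 1
    rw [show ((2 * g + 2 * g : ℕ) : ℤ) = ((4 * g : ℕ) : ℤ) by push_cast; ring]
    abel

theorem carries_zero [Finite Ω] (Rg : Subalgebra A (Ω → A)) :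
    C.Carries Rg fun _ => (0 : Divisor K F) :=
  C.carries_of_genAt (e := 2 * g) (C.genAt_const Rg (N := 2 * g) (D := C.infDiv ((2 * g : ℕ) : ℤ))
    le_rfl (C.full_of_degree (by rw [C.degree_infDiv]; omega))) (fun _ => C.degree_infDiv _) le_rfl
    fun _ => by simp

theorem carries_neg [Finite Ω] {Rg : Subalgebra A (Ω → A)} {c : Ω → Divisor K F}
    (h : C.Carries Rg c) : C.Carries Rg fun ω => -c ω := by
  obtain ⟨N, E, hgen, hd, hc⟩ := h (2 * g) le_rfl
  obtain ⟨u, P, -, -, -, -, hPp, hcompl⟩ := C.exists_compl hgen hd le_rfl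
  have hdP : ∀ ω, Divisor.degree (P ω) = 0 := fun ω => by
    obtain ⟨f, hf, hfP⟩ := hPp ω
    obtain ⟨D, hD, hD0⟩ := C.rrK.principal.exists_divisor f hf
    rwa [show P ω = D from Finsupp.ext fun w => (hfP w).trans (hD w).symm]
  refine C.carries_of_genAt (e := 2 * g) hcompl (fun ω => ?_) le_rfl fun ω => ?_
  · rw [map_sub, map_sub, C.degree_infDiv, hd, hdP]; omega
  · convert sub_mem (neg_mem (hPp ω)) (hc ω) using 1
    push_cast
    simp only [C.infDiv_add]
    abel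

theorem carries_sum [Finite Ω] {Rg : Subalgebra A (Ω → A)} {ι : Type*} (s : Finset ι)
    (c : ι → Ω → Divisor K F) (h : ∀ i ∈ s, C.Carries Rg (c i)) :
    C.Carries Rg fun ω => ∑ i ∈ s, c i ω := by
  classical
  induction s using Finset.induction_on with
  | empty => simpa using C.carries_zero Rg
  | insert i s hi ih =>
    simp only [Finset.sum_insert hi]
    exact C.carries_add (h i (Finset.mem_insert_self i s))
      (ih fun j hj => h j (Finset.mem_insert_of_mem hj))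

theorem genAt_comp {Ω' : Type*} {Rg : Subalgebra A (Ω → A)} {Rg' : Subalgebra A (Ω' → A)}
    (f : Ω' → Ω) (hf : ∀ φ ∈ Rg, φ ∘ f ∈ Rg') {N : ℕ} {E : Ω → Divisor K F}
    (h : C.GenAt Rg N E) : C.GenAt Rg' N (E ∘ f) := by
  obtain ⟨hle, hfull, s, v, hv, hmem, hspan⟩ := h
  exact ⟨fun ω => hle _, fun ω => hfull _, s, fun j ω => v j (f ω), fun j i => hf _ (hv j i),
    fun j ω => hmem j _, fun ω => hspan _⟩

theorem carries_comp {Ω' : Type*} {Rg : Subalgebra A (Ω → A)} {Rg' : Subalgebra A (Ω' → A)}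
    (f : Ω' → Ω) (hf : ∀ φ ∈ Rg, φ ∘ f ∈ Rg') {c : Ω → Divisor K F}
    (h : C.Carries Rg c) : C.Carries Rg' (c ∘ f) := fun n hn => by
  obtain ⟨N, E, hgen, hd, hc⟩ := h n hn
  exact ⟨N, E ∘ f, C.genAt_comp f hf hgen, fun ω => hd _, fun ω => hc _⟩

end Ctx

end FLTA.Grass
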