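import Fermat.Agent.Grass.Carries

/-!
# Charts: coordinates of divisor classes, universal for carried families
-/

set_option autoImplicit false

noncomputable section

open AlgebraicCurve Matrix

namespace FLTA.Grass

variable {K : Type*} [Field K] {A : ValuationSubring K} {k : Type*} [Field k] {π : A →+* k}
  {F : Type*} [Field F] [Algebra K F] {F' : Type*} [Field F'] [Algebra k F'] {g : ℕ}
  {Ω T : Type*}

namespace Ctx

variable (C : Ctx A π F F' g)

local notation "L" => riemannRochSpace
local notation "Prin" => Divisor.principal (K := K) (F := F)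
local notation "Prin'" => Divisor.principal (K := k) (F := F')

/-- A chart for the classes `c`: a divisor `S` and, for each class, the only effective divisor
`G t` in `c t + 2g • inf - S`, which stays the only one after reduction. -/
structure Chart (c : T → Divisor K F) where
  S : Divisor K F
  nonneg : 0 ≤ S
  degree_S : Divisor.degree S = (g : ℤ)
  G : T → Divisor K F
  G_nonneg : ∀ t, 0 ≤ G t
  G_degree : ∀ t, Divisor.degree (G t) = (g : ℤ)
  G_class : ∀ t, G t + S - (c t + C.infDiv ((2 * g : ℕ) : ℤ)) ∈ Prin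
  G_one : ∀ t, Module.finrank k (L (C.rDiv (G t))) = 1

include C in
theorem degree_of_sub_mem {D E : Divisor K F} (h : D - E ∈ Prin) :
    Divisor.degree D = Divisor.degree E := by
  obtain ⟨f, hf, hfD⟩ := h
  obtain ⟨P, hP, hP0⟩ := C.rrK.principal.exists_divisor f hf
  have : D - E = P := Finsupp.ext fun w => (hfD w).trans (hP w).symm
  rw [← this, map_sub, sub_eq_zero] at hP0
  exact hP0

theorem exists_chartData [Finite T] (c : T → Divisor K F) (hc : ∀ t, Divisor.degree (c t) = 0) :
    Nonempty (C.Chart c) := by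
  have hY : ∀ t, Divisor.degree (c t + C.infDiv ((2 * g : ℕ) : ℤ)) = 2 * (g : ℤ) := fun t => by
    rw [map_add, hc, C.degree_infDiv]; push_cast; ring
  obtain ⟨S, hS0, hSd, hS⟩ := C.exists_chart _ hY
  have key : ∀ t, ∃ G : Divisor K F, 0 ≤ G ∧
      G + S - (c t + C.infDiv ((2 * g : ℕ) : ℤ)) ∈ Prin := fun t => by
    set D := c t + C.infDiv ((2 * g : ℕ) : ℤ) - S with hD
    have hd : Divisor.degree D = (g : ℤ) := by rw [hD, map_sub, hY, hSd]; ring
    have h1 := riemann_le C.rrK D
    have := C.rrK.finiteDimensional D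
    have hpos : 0 < Module.finrank K (L D) := by rw [hd] at h1; omega
    obtain ⟨⟨f, hf⟩, hne⟩ : ∃ x : L D, x ≠ 0 := Module.finrank_pos_iff_exists_ne_zero.1 hpos
    have hf0 : f ≠ 0 := fun h => hne (Subtype.ext h)
    obtain ⟨P, hP, -⟩ := C.rrK.principal.exists_divisor f hf0
    refine ⟨P + D, Finsupp.le_def.2 fun w => ?_, ?_⟩
    · have := (mem_riemannRochSpace_iff.1 hf w).resolve_left hf0
      rw [Finsupp.add_apply, hP w, Finsupp.zero_apply]
      omega
    · rw [show P + D + S - (c t + C.infDiv ((2 * g : ℕ) : ℤ)) = P by rw [hD]; abel]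
      exact ⟨f, hf0, hP⟩
  choose G hG0 hGc using key
  refine ⟨⟨S, hS0, hSd, G, hG0, fun t => ?_, hGc, fun t => ?_⟩⟩
  · have h := C.degree_of_sub_mem (hGc t)
    rw [map_add, hSd, hY] at h
    linarith
  · rw [finrank_congr_of_sub_mem_principal C.rrk (D := C.rDiv (G t))
      (E := C.rDiv (c t + C.infDiv ((2 * g : ℕ) : ℤ) - S))]
    · exact hS t
    · rw [← map_sub]
      apply C.rDiv_mem_principal
      convert hGc t using 1
      abel

/-- Generators over the ring of all functions. -/
theorem genAt_top [Finite T] {N : ℕ} (E : T → Divisor K F) (hle : ∀ t, E t ≤ C.infDiv N)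
    (hfull : ∀ t, C.Full (E t)) : C.GenAt (⊤ : Subalgebra A (T → A)) N E := by
  classical
  have := Fintype.ofFinite T
  choose hle' hfull' s v hv hmem hspan using fun t =>
    C.genAt_const (⊤ : Subalgebra A (Unit → A)) (hle t) (hfull t)
  let e := (Fintype.equivFin (Σ t, Fin (s t))).symm
  refine ⟨hle, hfull, _, fun r t i => if (e r).1 = t then v (e r).1 (e r).2 () i else 0,
    fun _ _ => Algebra.mem_top, fun r t => ?_, fun t => le_antisymm (Submodule.span_le.2 ?_) ?_⟩
  · by_cases h : (e r).1 = t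
    · subst h; simpa using hmem _ (e r).2 ()
    · simp [vec, if_neg h]
  · rintro _ ⟨r, rfl⟩
    by_cases h : (e r).1 = t
    · subst h
      rw [← hspan (e r).1 ()]
      exact Submodule.subset_span ⟨(e r).2, by simp⟩
    · simp [vec, if_neg h]
  · rw [← hspan t (), Submodule.span_le]
    rintro _ ⟨j, rfl⟩
    refine Submodule.subset_span ⟨e.symm ⟨t, j⟩, ?_⟩
    dsimp only
    rw [Equiv.apply_symm_apply]
    simp

namespace Chart

variable {C} {c : T → Divisor K F} (ch : C.Chart c)

/-- The family `3g • inf - G`. -/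
def W (t : T) : Divisor K F := C.infDiv ((3 * g : ℕ) : ℤ) - ch.G t

theorem degree_W (t : T) : Divisor.degree (ch.W t) = ((2 * g : ℕ) : ℤ) := by
  rw [W, map_sub, C.degree_infDiv, ch.G_degree]; omega

theorem W_le (t : T) : ch.W t ≤ C.infDiv ((3 * g : ℕ) : ℤ) :=
  sub_le_self _ (ch.G_nonneg t)

theorem full_W (t : T) : C.Full (ch.W t) := C.full_of_degree (by rw [ch.degree_W]; omega)

theorem finrank_G (t : T) : Module.finrank K (L (ch.G t)) = 1 := by
  have h1 := riemann_le C.rrK (ch.G t)
  have h2 := C.finrank_le_finrank_rDiv (ch.G t)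
  have h3 := ch.G_degree t
  rw [ch.G_one t] at h2
  omega

/-- Universality, divisor level: the family `W ∘ f` is generated over any ring carrying `c ∘ f`. -/
theorem genAt_W [Finite Ω] {Rg : Subalgebra A (Ω → A)} (f : Ω → T)
    (h : C.Carries Rg fun ω => c (f ω)) : C.GenAt Rg (3 * g) fun ω => ch.W (f ω) := by
  obtain ⟨N, E, hgen, hd, hcl⟩ := h (3 * g) (by omega)
  have hS5 : ∀ ω : Ω, Divisor.degree ((fun _ => C.infDiv ((5 * g : ℕ) : ℤ) - ch.S) ω) =
      ((4 * g : ℕ) : ℤ) := fun _ => by rw [map_sub, C.degree_infDiv, ch.degree_S]; omega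
  have hS4 : ∀ ω : Ω, Divisor.degree ((fun _ => C.infDiv ((4 * g : ℕ) : ℤ) - ch.S) ω) =
      ((3 * g : ℕ) : ℤ) := fun _ => by rw [map_sub, C.degree_infDiv, ch.degree_S]; omega
  have hc5 := C.genAt_const Rg (N := 5 * g) (D := C.infDiv ((5 * g : ℕ) : ℤ) - ch.S)
    (sub_le_self _ ch.nonneg) (C.full_of_degree (by
      rw [map_sub, C.degree_infDiv, ch.degree_S]; omega))
  have hc4 := C.genAt_const Rg (N := 4 * g) (D := C.infDiv ((4 * g : ℕ) : ℤ) - ch.S)
    (sub_le_self _ ch.nonneg) (C.full_of_degree (by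
      rw [map_sub, C.degree_infDiv, ch.degree_S]; omega))
  -- `X = E - S`, of degree `2g`
  have hX := C.genAt_level
    (C.exists_add_sub hgen hd (by omega) hc5 hS5 (le_refl (4 * g))) (D := fun ω => E ω - ch.S)
    fun ω => by
      rw [show ((3 * g + 2 * g : ℕ) : ℤ) = ((5 * g : ℕ) : ℤ) by push_cast; ring]
      abel
  have hXd : ∀ ω, Divisor.degree (E ω - ch.S) = ((2 * g : ℕ) : ℤ) := fun ω => by
    rw [map_sub, hd, ch.degree_S]; omega
  -- `Y = X - g • inf`, linearly equivalent to `G (f ω)`
  have hY0 : ∀ ω, (C.infDiv ((4 * g : ℕ) : ℤ) - ch.S) + E ω -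
      C.infDiv ((3 * g + 2 * g : ℕ) : ℤ) = E ω - ch.S - C.infDiv g := fun ω => by
    rw [show ((3 * g + 2 * g : ℕ) : ℤ) = ((4 * g : ℕ) : ℤ) + g by push_cast; ring, C.infDiv_add]
    abel
  have hYG : ∀ ω, E ω - ch.S - C.infDiv g - ch.G (f ω) ∈ Prin := fun ω => by
    convert sub_mem (hcl ω) (ch.G_class (f ω)) using 1
    rw [show ((3 * g : ℕ) : ℤ) = ((2 * g : ℕ) : ℤ) + g by push_cast; ring, C.infDiv_add]
    abel
  have hYK : ∀ ω, Module.finrank K (L (E ω - ch.S - C.infDiv g)) = 1 := fun ω => by
    rw [finrank_congr_of_sub_mem_principal C.rrK (hYG ω)]; exact ch.finrank_G _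
  have hYk : ∀ ω, C.Full (E ω - ch.S - C.infDiv g) := fun ω => by
    rw [Full, hYK, finrank_congr_of_sub_mem_principal C.rrk (E := C.rDiv (ch.G (f ω)))
      (by rw [← map_sub]; exact C.rDiv_mem_principal (hYG ω))]
    exact ch.G_one _
  have hY := C.genAt_level (C.genAt_add_sub (Q := 4 * g + N + 2 * g) (c := 1) hgen hd (by omega) hc4
    hS4 (by omega) (by omega) (by omega) (fun ω => (hY0 ω).symm ▸ hYk ω)
    (fun ω => (hY0 ω).symm ▸ hYK ω)) hY0
  obtain ⟨w, hw, hw'⟩ := C.exists_primitive hY fun ω => by rw [hYK]; exact one_pos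
  have hne : ∀ ω, (C.vec (4 * g + N + 2 * g) (w ω) : F) ≠ 0 := fun ω h0 => (hw' ω).2 <| by
    rw [show C.vec (4 * g + N + 2 * g) (w ω) = 0 from Subtype.ext h0, map_zero]
  choose P hP hP0 using fun ω => C.rrK.principal.exists_divisor _ (hne ω)
  have hPG : ∀ ω, P ω + (E ω - ch.S - C.infDiv g) = ch.G (f ω) := fun ω => by
    refine (eq_of_nonneg_of_finrank_eq_one C.rrK (ch.G_nonneg _)
      (Finsupp.le_def.2 fun v => ?_) ?_ (ch.finrank_G _)).symm
    · have := (mem_riemannRochSpace_iff.1 (hw' ω).1 v).resolve_left (hne ω)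
      rw [Finsupp.add_apply, hP ω v, Finsupp.zero_apply]
      omega
    · convert neg_mem (add_mem (⟨_, hne ω, hP ω⟩ : P ω ∈ Prin) (hYG ω)) using 1
      abel
  have htw := C.genAt_twist (W := (4 * g + N + 2 * g) + 4 * g) le_rfl
    (C.genAt_const Rg (N := 4 * g) (D := C.infDiv ((4 * g : ℕ) : ℤ)) le_rfl
      (C.full_of_degree (by rw [C.degree_infDiv]; omega))) w hw (fun ω => (hw' ω).2) P hP
  have hZ : ∀ ω, C.infDiv ((4 * g : ℕ) : ℤ) - P ω - (E ω - ch.S) = ch.W (f ω) := fun ω => by
    rw [W, ← hPG ω, show ((4 * g : ℕ) : ℤ) = ((3 * g : ℕ) : ℤ) + g by push_cast; ring,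
      C.infDiv_add]
    abel
  refine C.genAt_level (C.genAt_colon (Q := 3 * g) (c := g + 1) (c₂ := 4 * g + 1 - g) hX htw
    (fun ω => by rw [hXd]; omega) (by omega) (fun ω => by rw [hZ]; exact ch.W_le _)
    (fun ω => by rw [hZ]; exact ch.full_W _) (fun ω => ?_) (fun ω => ?_)) hZ
  · rw [hZ, C.finrank_of_degree (ch.degree_W _) (by omega)]; omega
  · exact C.finrank_of_degree (by rw [map_sub, C.degree_infDiv, hP0, sub_zero]) (by omega)

/-- `c` is carried by any ring over which `W` is generated. -/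
theorem carries_of_genAt_W [Finite T] {Rg : Subalgebra A (T → A)}
    (h : C.GenAt Rg (3 * g) ch.W) : C.Carries Rg c := by
  have h1 : C.Carries Rg fun t => -c t + (ch.S - C.infDiv g) := by
    refine C.carries_of_genAt (e := 2 * g) h ch.degree_W le_rfl fun t => ?_
    convert neg_mem (ch.G_class t) using 1
    rw [W, show ((3 * g : ℕ) : ℤ) = (g : ℤ) + g + g by push_cast; ring,
      show ((2 * g : ℕ) : ℤ) = (g : ℤ) + g by push_cast; ring]
    simp only [C.infDiv_add]
    abel
  have h2 : C.Carries Rg fun _ : T => C.infDiv g - ch.S := by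
    refine C.carries_of_genAt (e := 2 * g) (C.genAt_const Rg (N := 3 * g)
      (D := C.infDiv ((3 * g : ℕ) : ℤ) - ch.S) (sub_le_self _ ch.nonneg)
      (C.full_of_degree (by rw [map_sub, C.degree_infDiv, ch.degree_S]; omega)))
      (fun _ => by rw [map_sub, C.degree_infDiv, ch.degree_S]; omega) le_rfl fun _ => ?_
    rw [show ((3 * g : ℕ) : ℤ) = ((2 * g : ℕ) : ℤ) + g by push_cast; ring, C.infDiv_add]
    convert zero_mem Prin using 1
    abel
  refine C.carries_congr (C.carries_neg (C.carries_add h1 h2)) fun t => ?_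
  rw [show -(-c t + (ch.S - C.infDiv g) + (C.infDiv g - ch.S)) - c t = 0 by abel]
  exact zero_mem _

end Chart

/-- Coordinate functions of a finite family of classes. -/
theorem exists_chart_functions [Finite T] (c : T → Divisor K F)
    (hc : ∀ t, Divisor.degree (c t) = 0) :
    ∃ Φ : Set (T → A), Φ.Finite ∧
      (∀ x y, (∀ φ ∈ Φ, φ x = φ y) → c x - c y ∈ Prin) ∧
      (∀ x y, C.rDiv (c x - c y) ∈ Prin' → ∀ φ ∈ Φ, π (φ x) = π (φ y)) ∧
      C.Carries (Algebra.adjoin A Φ) c ∧
      ∀ {Ω : Type*} [Finite Ω] (Rg : Subalgebra A (Ω → A)) (f : Ω → T),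
        (C.Carries Rg fun ω => c (f ω)) → ∀ φ ∈ Φ, φ ∘ f ∈ Rg := by
  have := C.infinite_k
  obtain ⟨ch⟩ := C.exists_chartData c hc
  obtain ⟨-, -, s, v, -, hmem, hspan⟩ := C.genAt_top ch.W ch.W_le ch.full_W
  have hπ := C.R.π_surjective
  have hN : 2 * (g : ℤ) - 1 ≤ (3 * g : ℕ) := by omega
  have hkv : ∀ t, Submodule.span k (Set.range fun j => π ∘ v j t) =
      (L (C.rDiv (ch.W t))).comap (C.vecBar (3 * g)) :=
    fun t => C.span_residual_eq_comap _ _ (hspan t)
  have hdim : ∀ t, Module.finrank K (L (ch.W t)) = g + 1 := fun t => by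
    rw [C.finrank_of_degree (ch.degree_W t) (by omega)]; omega
  have hrkK : ∀ t, ((Matrix.of fun i j => v j t i).map ((↑) : A → K)).rank ≤ g + 1 := fun t => by
    rw [Matrix.rank_eq_finrank_span_cols, ← hdim t, ← C.finrank_comap_vecK (ch.W_le t)]
    have := C.rrK.finiteDimensional (ch.W t)
    refine Submodule.finrank_mono (Submodule.span_le.2 ?_)
    rintro _ ⟨j, rfl⟩
    rw [SetLike.mem_coe, Submodule.mem_comap]
    exact (C.coe_vec _ _).symm ▸ hmem j t
  have hrkk : ∀ t, g + 1 ≤ ((Matrix.of fun i j => v j t i).map π).rank := fun t => by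
    rw [Matrix.rank_eq_finrank_span_cols]
    show g + 1 ≤ Module.finrank k (Submodule.span k (Set.range fun j => π ∘ v j t))
    rw [hkv, C.finrank_comap_vecBar hN (ch.W_le t), ch.full_W t, hdim]
  obtain ⟨P, e, he, hve, hQ⟩ := exists_standard_form hπ v hrkK hrkk
  choose Q hQ using hQ
  have hQ' : ∀ t a, (fun l => e t l a) = fun l => ∑ j, v j t l * Q t j a := fun t a => by
    funext l; rw [hQ t]; rfl
  have hecol : ∀ t a, (C.vec (3 * g) (fun l => e t l a) : F) ∈ L (ch.W t) := fun t a => by
    rw [hQ', show (fun l => ∑ j, v j t l * Q t j a) = fun l => ∑ j, Q t j a * v j t l from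
      funext fun l => Finset.sum_congr rfl fun j _ => mul_comm _ _, C.vec_sum,
      AddSubmonoidClass.coe_finset_sum]
    refine Submodule.sum_mem _ fun j _ => ?_
    rw [MulMemClass.coe_mul, coe_scal, ← Algebra.smul_def]
    exact Submodule.smul_mem _ _ (hmem j t)
  -- at each point the columns of `e` span
  have hKe : ∀ t, Submodule.span K (Set.range fun a l => (e t l a : K)) =
      (L (ch.W t)).comap (C.vecK (3 * g)) := fun t => by
    have := C.rrK.finiteDimensional (ch.W t)
    refine span_eq_of_residual (π := π) (r := g + 1) (fun a l => e t l a) _ (fun a => ?_)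
      (by rw [C.finrank_comap_vecK (ch.W_le t), hdim]) ?_
    · rw [Submodule.mem_comap, ← C.coe_vec]; exact hecol t a
    · refine le_trans (hrkk t) ?_
      rw [Matrix.rank_eq_finrank_span_cols]
      refine Submodule.finrank_mono (Submodule.span_le.2 ?_)
      rintro _ ⟨j, rfl⟩
      have hvj : (fun l => π (v j t l)) = ∑ a, π ((P *ᵥ v j t) a) • fun l => π (e t l a) := by
        funext l
        conv_lhs => rw [hve j t]
        simp [Matrix.mulVec, dotProduct, mul_comm]
      show (fun l => π (v j t l)) ∈ _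
      rw [hvj]
      exact Submodule.sum_mem _ fun a _ => Submodule.smul_mem _ _ (Submodule.subset_span ⟨a, rfl⟩)
  have hke : ∀ t a, (fun l => π (e t l a)) ∈ (L (C.rDiv (ch.W t))).comap (C.vecBar (3 * g)) :=
    fun t a => by
      rw [Submodule.mem_comap, ← C.red_vec]
      exact C.red_mem (hecol t a)
  let Φ : Set (T → A) := Set.range fun p : Fin (C.dimInf (3 * g)) × Fin (g + 1) =>
    fun t => e t p.1 p.2
  refine ⟨Φ, Set.finite_range _, fun x y hxy => ?_, fun x y hxy φ hφ => ?_, ?_, ?_⟩
  · have hexy : e x = e y := Matrix.ext fun l a => hxy _ ⟨(l, a), rfl⟩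
    have h := congrArg (Submodule.map (C.vecK (3 * g)))
      (((hKe x).symm.trans (by rw [hexy])).trans (hKe y))
    rw [Submodule.map_comap_eq_of_le (C.riemannRochSpace_le_range_vecK (ch.W_le x)),
      Submodule.map_comap_eq_of_le (C.riemannRochSpace_le_range_vecK (ch.W_le y))] at h
    have hW := eq_of_riemannRochSpace_eq C.rrK (by rw [ch.degree_W]; omega)
      (by rw [ch.degree_W]; omega) h
    have hG : ch.G x = ch.G y := sub_right_injective hW
    convert sub_mem (ch.G_class y) (ch.G_class x) using 1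
    rw [hG]; abel
  · obtain ⟨⟨l₀, a₀⟩, rfl⟩ := hφ
    have hG : C.rDiv (ch.G x) = C.rDiv (ch.G y) := by
      refine eq_of_nonneg_of_finrank_eq_one C.rrk ?_ ?_ ?_ (ch.G_one x)
      · simpa using C.rDiv_mono (ch.G_nonneg x)
      · simpa using C.rDiv_mono (ch.G_nonneg y)
      · rw [← map_sub, show ch.G x - ch.G y = (c x - c y) +
            ((ch.G x + ch.S - (c x + C.infDiv ((2 * g : ℕ) : ℤ))) -
              (ch.G y + ch.S - (c y + C.infDiv ((2 * g : ℕ) : ℤ)))) by abel, map_add]
        exact add_mem hxy (C.rDiv_mem_principal (sub_mem (ch.G_class x) (ch.G_class y)))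
    have hW : C.rDiv (ch.W x) = C.rDiv (ch.W y) := by simp only [Chart.W, map_sub, hG]
    have hy : (fun l => π (e y l a₀)) ∈ Submodule.span k (Set.range fun j => π ∘ v j x) := by
      rw [hkv, hW]; exact hke y a₀
    -- both columns have the same image under `P`, which is injective on the residual span
    have hinj : ∀ z ∈ Submodule.span k (Set.range fun j => π ∘ v j x),
        z = (e x).map π *ᵥ (P.map π *ᵥ z) := by
      intro z hz
      induction hz using Submodule.span_induction with
      | mem z hz =>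
        obtain ⟨j, rfl⟩ := hz
        funext l
        simpa [Matrix.mulVec, dotProduct, Finset.mul_sum] using
          congrArg π (congrFun (hve j x) l)
      | zero => simp
      | add a b _ _ ha hb => rw [Matrix.mulVec_add, Matrix.mulVec_add, ← ha, ← hb]
      | smul r a _ ha => rw [Matrix.mulVec_smul, Matrix.mulVec_smul, ← ha]
    have hPe : P.map π *ᵥ (fun l => π (e y l a₀)) = Pi.single a₀ 1 := by
      funext b
      have := congrArg π (congrFun (congrFun (he y) b) a₀)
      simpa [Matrix.mulVec, dotProduct, Matrix.mul_apply, Matrix.one_apply, Pi.single_apply,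
        apply_ite π] using this
    have h := congrFun (hinj _ hy) l₀
    rw [hPe] at h
    simpa [Matrix.mulVec, dotProduct, Pi.single_apply] using h.symm
  · refine ch.carries_of_genAt_W ⟨ch.W_le, ch.full_W, g + 1, fun a t l => e t l a,
      fun a l => Algebra.subset_adjoin ⟨(l, a), rfl⟩, fun a t => hecol t a, fun t => ?_⟩
    refine le_antisymm (Submodule.span_le.2 ?_) ?_
    · rintro _ ⟨a, rfl⟩; exact C.red_mem (hecol t a)
    · rw [← hspan t, Submodule.span_le]
      rintro _ ⟨j, rfl⟩
      have hvj : (fun l => π (v j t l)) = ∑ a, π ((P *ᵥ v j t) a) • fun l => π (e t l a) := by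
        funext l
        conv_lhs => rw [hve j t]
        simp [Matrix.mulVec, dotProduct, mul_comm]
      simp only [SetLike.mem_coe, C.red_vec]
      rw [hvj, map_sum]
      exact Submodule.sum_mem _ fun a _ => by
        rw [map_smul]; exact Submodule.smul_mem _ _ (Submodule.subset_span ⟨a, rfl⟩)
  · intro Ω _ Rg f hf φ hφ
    obtain ⟨⟨l₀, a₀⟩, rfl⟩ := hφ
    obtain ⟨-, -, s', v', hv', hmem', hspan'⟩ := ch.genAt_W f hf
    refine standard_form_mem (R := Rg) hπ P (fun ω => e (f ω)) (fun ω => he _) v' hv'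
      (fun j ω => ?_) (fun ω => ?_) l₀ a₀
    · -- `z = e (P z)` on the whole space
      have hz : (fun l => (v' j ω l : K)) ∈
          Submodule.span K (Set.range fun a l => (e (f ω) l a : K)) := by
        rw [hKe, Submodule.mem_comap, ← C.coe_vec]; exact hmem' j ω
      obtain ⟨z, hz⟩ := (Submodule.mem_span_range_iff_exists_fun K).1 hz
      have hP : ∀ b, (((P *ᵥ v' j ω) b : A) : K) = z b := by
        intro b
        have h1 : ∀ a, ∑ l, (P b l : K) * (e (f ω) l a : K) = if b = a then 1 else 0 := fun a => by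
          have := congrArg (fun x : A => (x : K)) (congrFun (congrFun (he (f ω)) b) a)
          simpa [Matrix.mul_apply, Matrix.one_apply, apply_ite (fun x : A => (x : K))] using this
        have h2 : (((P *ᵥ v' j ω) b : A) : K) = ∑ l, (P b l : K) * (v' j ω l : K) := by
          simp [Matrix.mulVec, dotProduct]
        have hzl : ∀ l, (v' j ω l : K) = ∑ a, z a * (e (f ω) l a : K) := fun l => by
          rw [← congrFun hz l]; simp
        rw [h2]
        simp only [hzl, Finset.mul_sum]
        rw [Finset.sum_comm]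
        simp only [mul_left_comm (P b _ : K), ← Finset.mul_sum, h1, mul_ite, mul_one, mul_zero,
          Finset.sum_ite_eq, Finset.mem_univ, if_true]
      funext l
      apply Subtype.ext
      have := congrFun hz l
      rw [← this]
      simp only [Finset.sum_apply, Pi.smul_apply, smul_eq_mul, ← hP]
      simp [Matrix.mulVec, dotProduct, mul_comm]
    · rw [Matrix.rank_eq_finrank_span_cols]
      show g + 1 ≤ Module.finrank k (Submodule.span k (Set.range fun j => π ∘ v' j ω))
      rw [C.span_residual_eq_comap _ _ (hspan' ω), C.finrank_comap_vecBar hN (ch.W_le _),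
        ch.full_W, hdim]

end Ctx

end FLTA.Grass
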