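import Fermat.Agent.Grass.Families

/-!
# The colon operation on families of Riemann-Roch spaces
-/

set_option autoImplicit false

noncomputable section

open AlgebraicCurve Matrix

namespace FLTA.Grass

variable {K : Type*} [Field K] {A : ValuationSubring K} {k : Type*} [Field k] {π : A →+* k}
  {F : Type*} [Field F] [Algebra K F] {F' : Type*} [Field F'] [Algebra k F'] {g : ℕ}
  {Ω : Type*}

namespace Ctx

variable (C : Ctx A π F F' g)

local notation "L" => riemannRochSpace

/-- Residual generators, in coordinates. -/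
theorem span_residual_eq_comap {W : ℕ} {s : ℕ} (w : Fin s → Fin (C.dimInf W) → A)
    (D' : Divisor k F')
    (h : Submodule.span k (Set.range fun j => C.R.red (C.vec W (w j))) = L D') :
    Submodule.span k (Set.range fun j => π ∘ w j) = (L D').comap (C.vecBar W) := by
  rw [← h]
  simp only [C.red_vec]
  rw [show (fun j => C.vecBar W fun i => π (w j i)) = C.vecBar W ∘ fun j => π ∘ w j from rfl,
    Set.range_comp, Submodule.span_image,
    Submodule.comap_map_eq_of_injective (C.vecBar_injective W)]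

theorem finrank_comap_vecK {W : ℕ} {D : Divisor K F} (h : D ≤ C.infDiv W) :
    Module.finrank K ((L D).comap (C.vecK W)) = Module.finrank K (L D) :=
  (Submodule.comap_equiv_self_of_inj_of_le (C.vecK_injective W)
    (C.riemannRochSpace_le_range_vecK h)).finrank_eq

theorem finrank_comap_vecBar {W : ℕ} (hW : 2 * (g : ℤ) - 1 ≤ W) {D : Divisor K F}
    (h : D ≤ C.infDiv W) :
    Module.finrank k ((L (C.rDiv D)).comap (C.vecBar W)) =
      Module.finrank k (L (C.rDiv D)) := by
  refine (Submodule.comap_equiv_self_of_inj_of_le (C.vecBar_injective W) ?_).finrank_eq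
  rw [C.range_vecBar hW]
  exact FLTA.Curves.riemannRochSpace_mono (C.rDiv_mono h)

theorem prod_sum_smul {R₀ M₀ : Type*} [CommSemiring R₀] [Field M₀] [Algebra R₀ M₀]
    {m n : ℕ} (x : Fin m → R₀) (y : Fin n → R₀) (b : Fin m → M₀) (c : Fin n → M₀) :
    ∑ p : Fin m × Fin n, (x p.1 * y p.2) • (b p.1 * c p.2) =
      (∑ i, x i • b i) * ∑ l, y l • c l := by
  rw [Fintype.sum_prod_type, Finset.sum_mul_sum]
  exact Finset.sum_congr rfl fun i _ => Finset.sum_congr rfl fun l _ => by
    rw [smul_mul_smul_comm]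

/-- The family `E₂ - E₁` is generated when `E₁` is base point free. -/
theorem genAt_colon [Finite Ω] {Rg : Subalgebra A (Ω → A)} {N₁ N₂ Q c c₂ : ℕ}
    {E₁ E₂ : Ω → Divisor K F} (h₁ : C.GenAt Rg N₁ E₁) (h₂ : C.GenAt Rg N₂ E₂)
    (hdeg : ∀ ω, 2 * (g : ℤ) ≤ Divisor.degree (E₁ ω)) (hQ : 2 * g ≤ Q)
    (hle : ∀ ω, E₂ ω - E₁ ω ≤ C.infDiv Q) (hfull : ∀ ω, C.Full (E₂ ω - E₁ ω))
    (hc : ∀ ω, Module.finrank K (L (E₂ ω - E₁ ω)) = c)
    (hc₂ : ∀ ω, Module.finrank K (L (E₂ ω)) = c₂) :
    C.GenAt Rg Q fun ω => E₂ ω - E₁ ω := by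
  have := C.infinite_k
  obtain ⟨hle₁, hfull₁, s₁, v₁, hv₁, hmem₁, hspan₁⟩ := h₁
  let W := max N₂ (Q + N₁)
  obtain ⟨hle₂, hfull₂, s₂, v₂, hv₂, hmem₂, hspan₂⟩ :=
    C.genAt_mono (W := W) (le_max_left _ _) h₂
  obtain ⟨T, hT⟩ := C.exists_mulTable (Q := Q) (N := N₁) (W := W) (le_max_right _ _)
  have hπ := C.R.π_surjective
  have hW : 2 * (g : ℤ) - 1 ≤ W := by
    have : Q + N₁ ≤ W := le_max_right _ _
    omega
  have hQ' : 2 * (g : ℤ) - 1 ≤ Q := by omega
  have hdegr : ∀ ω, 2 * (g : ℤ) ≤ Divisor.degree (C.rDiv (E₁ ω)) := fun ω => by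
    rw [C.degree_rDiv]; exact hdeg ω
  -- coordinates of the spaces `L (E₂ ω)`
  have hk2 : ∀ ω, Submodule.span k (Set.range fun j => π ∘ v₂ j ω) =
      (L (C.rDiv (E₂ ω))).comap (C.vecBar W) :=
    fun ω => C.span_residual_eq_comap _ _ (hspan₂ ω)
  have hK2 : ∀ ω, Submodule.span K (Set.range fun j i => (v₂ j ω i : K)) =
      (L (E₂ ω)).comap (C.vecK W) := fun ω => by
    have := C.rrK.finiteDimensional (E₂ ω)
    refine span_eq_of_residual (π := π) (r := Module.finrank K (L (E₂ ω))) _ _ (fun j => ?_) ?_ ?_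
    · rw [Submodule.mem_comap, ← C.coe_vec]; exact hmem₂ j ω
    · rw [C.finrank_comap_vecK (hle₂ ω)]
    · rw [hk2, C.finrank_comap_vecBar hW (hle₂ ω)]
      exact (hfull₂ ω).ge
  have hr2 : ∀ ω, Module.finrank k (L (C.rDiv (E₂ ω))) = Module.finrank K (L (E₂ ω)) := hfull₂
  obtain ⟨m, E, hE, hEK, hEk⟩ := exists_equations hπ Rg v₂ hv₂ (r := c₂)
    (fun ω => by rw [hK2, C.finrank_comap_vecK (hle₂ ω), hc₂])
    (fun ω => by rw [hk2, C.finrank_comap_vecBar hW (hle₂ ω), hr2, hc₂])
  -- multiplication by a generator of `E₁`, followed by the equations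
  let G : Fin s₁ → Ω → Fin (C.dimInf Q) → Fin (C.dimInf W) → A :=
    fun j ω i l => ∑ p, v₁ j ω p * T i p l
  let e := (finProdFinEquiv : Fin m × Fin s₁ ≃ Fin (m * s₁))
  let M : Ω → Matrix (Fin (m * s₁)) (Fin (C.dimInf Q)) A :=
    fun ω => Matrix.of fun r i => ∑ l, E ω (e.symm r).1 l * G (e.symm r).2 ω i l
  have hM : ∀ r i, (fun ω => M ω r i) ∈ Rg := fun r i => by
    have : (fun ω => M ω r i) = ∑ l, ∑ p, (fun ω => E ω (e.symm r).1 l) *
        ((fun ω => v₁ (e.symm r).2 ω p) * algebraMap A (Ω → A) (T i p l)) := by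
      funext ω; simp [M, G, Finset.mul_sum]
    rw [this]
    exact Subalgebra.sum_mem _ fun l _ => Subalgebra.sum_mem _ fun p _ => Subalgebra.mul_mem _
      (hE _ _) (Subalgebra.mul_mem _ (hv₁ _ _) (Subalgebra.algebraMap_mem _ _))
  -- kernel of `M ω`: products with all generators of `E₁` satisfy the equations
  have hGK : ∀ ω j (x : Fin (C.dimInf Q) → K),
      C.vecK W (fun l => ∑ i, x i * (G j ω i l : K)) = C.vecK Q x * (C.vec N₁ (v₁ j ω) : F) := by
    intro ω j x
    have h1 : (fun l => ∑ i, x i * (G j ω i l : K)) =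
        ∑ p : Fin _ × Fin _, (x p.1 * (v₁ j ω p.2 : K)) • fun l => (T p.1 p.2 l : K) := by
      funext l
      simp [G, Fintype.sum_prod_type, Finset.mul_sum, mul_assoc]
    rw [h1, map_sum, C.coe_vec]
    simp only [map_smul, ← C.coe_vec, hT, MulMemClass.coe_mul]
    rw [prod_sum_smul x (fun p => (v₁ j ω p : K)) (fun i => (C.bas Q i : F))
      (fun l => (C.bas N₁ l : F))]
    simp [vecK, Fintype.linearCombination_apply, C.coe_vec, Algebra.smul_def]
  have hGk : ∀ ω j (x : Fin (C.dimInf Q) → k),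
      C.vecBar W (fun l => ∑ i, x i * π (G j ω i l)) =
        C.vecBar Q x * C.R.red (C.vec N₁ (v₁ j ω)) := by
    intro ω j x
    have h1 : (fun l => ∑ i, x i * π (G j ω i l)) =
        ∑ p : Fin _ × Fin _, (x p.1 * π (v₁ j ω p.2)) • fun l => π (T p.1 p.2 l) := by
      funext l
      simp [G, Fintype.sum_prod_type, Finset.mul_sum, mul_assoc]
    rw [h1, map_sum]
    simp only [map_smul, ← C.red_vec, hT, map_mul]
    rw [prod_sum_smul x (fun p => π (v₁ j ω p)) (fun i => C.R.red (C.bas Q i))
      (fun l => C.R.red (C.bas N₁ l))]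
    simp [vecBar, Fintype.linearCombination_apply, C.red_vec, Algebra.smul_def]
  have hMK : ∀ ω, LinearMap.ker ((M ω).map A.subtype).mulVecLin =
      (L (E₂ ω - E₁ ω)).comap (C.vecK Q) := by
    intro ω
    have hgen : Submodule.span K (Set.range fun j => (C.vec N₁ (v₁ j ω) : F)) = L (E₁ ω) := by
      have := C.rrK.finiteDimensional (E₁ ω)
      have hN₁ : 2 * (g : ℤ) - 1 ≤ N₁ := by
        have h := degree_mono_of_rrCurve C.rrK (hle₁ ω)
        rw [C.degree_infDiv] at h
        have := hdeg ω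
        omega
      have hK1 := span_eq_of_residual (π := π) (fun j => v₁ j ω)
        ((L (E₁ ω)).comap (C.vecK N₁)) (r := Module.finrank K (L (E₁ ω)))
        (fun j => by rw [Submodule.mem_comap, ← C.coe_vec]; exact hmem₁ j ω)
        (by rw [C.finrank_comap_vecK (hle₁ ω)])
        (by rw [C.span_residual_eq_comap _ _ (hspan₁ ω), C.finrank_comap_vecBar hN₁ (hle₁ ω)]
            exact (hfull₁ ω).ge)
      have h2 := congrArg (Submodule.map (C.vecK N₁)) hK1
      rw [Submodule.map_span, ← Set.range_comp,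
        Submodule.map_comap_eq_of_le (C.riemannRochSpace_le_range_vecK (hle₁ ω))] at h2
      rw [← h2]
      simp only [Function.comp_def, C.coe_vec]
    ext x
    rw [LinearMap.mem_ker, Submodule.mem_comap, mem_sub_iff_forall_mul_mem C.rrK (hdeg ω),
      Matrix.mulVecLin_apply]
    have hrow : ∀ t j, (((M ω).map A.subtype) *ᵥ x) (e (t, j)) =
        (((E ω).map A.subtype) *ᵥ fun l => ∑ i, x i * (G j ω i l : K)) t := fun t j => by
      simp only [Matrix.mulVec, dotProduct, Matrix.map_apply, M, Matrix.of_apply,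
        Equiv.symm_apply_apply, map_sum, map_mul, Finset.sum_mul, Finset.mul_sum]
      rw [Finset.sum_comm]
      exact Finset.sum_congr rfl fun l _ => Finset.sum_congr rfl fun i _ => by
        simp [mul_comm, mul_left_comm]
    constructor
    · intro hx a ha
      rw [← hgen] at ha
      induction ha using Submodule.span_induction with
      | mem a ha =>
        obtain ⟨j, rfl⟩ := ha
        rw [← hGK, ← Submodule.mem_comap, ← hK2, ← hEK, LinearMap.mem_ker, Matrix.mulVecLin_apply]
        funext t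
        rw [← hrow, hx]
        rfl
      | zero => simp
      | add a b _ _ ha hb => rw [mul_add]; exact Submodule.add_mem _ ha hb
      | smul r a _ ha => rw [mul_smul_comm]; exact Submodule.smul_mem _ _ ha
    · intro hx
      funext r
      obtain ⟨⟨t, j⟩, rfl⟩ := e.surjective r
      rw [hrow]
      have h1 := hx _ (hmem₁ j ω)
      rw [← hGK, ← Submodule.mem_comap, ← hK2, ← hEK, LinearMap.mem_ker,
        Matrix.mulVecLin_apply] at h1
      rw [h1]
      rfl
  have hMk : ∀ ω, LinearMap.ker ((M ω).map π).mulVecLin =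
      (L (C.rDiv (E₂ ω - E₁ ω))).comap (C.vecBar Q) := by
    intro ω
    ext x
    rw [LinearMap.mem_ker, Submodule.mem_comap, map_sub,
      mem_sub_iff_forall_mul_mem C.rrk (hdegr ω), Matrix.mulVecLin_apply]
    have hrow : ∀ t j, (((M ω).map π) *ᵥ x) (e (t, j)) =
        (((E ω).map π) *ᵥ fun l => ∑ i, x i * π (G j ω i l)) t := fun t j => by
      simp only [Matrix.mulVec, dotProduct, Matrix.map_apply, M, Matrix.of_apply,
        Equiv.symm_apply_apply, map_sum, map_mul, Finset.sum_mul, Finset.mul_sum]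
      rw [Finset.sum_comm]
      exact Finset.sum_congr rfl fun l _ => Finset.sum_congr rfl fun i _ => by
        simp [mul_comm, mul_left_comm]
    constructor
    · intro hx a ha
      rw [← hspan₁ ω] at ha
      induction ha using Submodule.span_induction with
      | mem a ha =>
        obtain ⟨j, rfl⟩ := ha
        rw [← hGk, ← Submodule.mem_comap, ← hk2, ← hEk, LinearMap.mem_ker, Matrix.mulVecLin_apply]
        funext t
        rw [← hrow, hx]
        rfl
      | zero => simp
      | add a b _ _ ha hb => rw [mul_add]; exact Submodule.add_mem _ ha hb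
      | smul r a _ ha => rw [mul_smul_comm]; exact Submodule.smul_mem _ _ ha
    · intro hx
      funext r
      obtain ⟨⟨t, j⟩, rfl⟩ := e.surjective r
      rw [hrow]
      have h1 := hx (C.R.red (C.vec N₁ (v₁ j ω)))
        (by rw [← hspan₁ ω]; exact Submodule.subset_span ⟨j, rfl⟩)
      rw [← hGk, ← Submodule.mem_comap, ← hk2, ← hEk, LinearMap.mem_ker,
        Matrix.mulVecLin_apply] at h1
      rw [h1]
      rfl
  obtain ⟨s, v, hv, h0, hspan⟩ := exists_kernel_span hπ Rg M hM (C.dimInf Q - c)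
    (fun ω => by
      have := finrank_ker_mulVecLin ((M ω).map A.subtype)
      rw [hMK, C.finrank_comap_vecK (hle ω), hc] at this
      omega)
    (fun ω => by
      have := finrank_ker_mulVecLin ((M ω).map π)
      rw [hMk, C.finrank_comap_vecBar hQ' (hle ω), hfull ω, hc] at this
      omega)
  refine ⟨hle, hfull, s, v, hv, fun j ω => ?_, fun ω => ?_⟩
  · rw [C.coe_vec, ← Submodule.mem_comap, ← hMK, LinearMap.mem_ker, Matrix.mulVecLin_apply]
    funext r
    simpa [Matrix.mulVec, dotProduct] using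
      congrArg (fun a : A => (a : K)) (congrFun (h0 j ω) r)
  · have h := congrArg (Submodule.map (C.vecBar Q)) ((hspan ω).trans (hMk ω))
    rw [Submodule.map_span, ← Set.range_comp, Submodule.map_comap_eq_of_le (by
      rw [C.range_vecBar hQ']
      exact FLTA.Curves.riemannRochSpace_mono (C.rDiv_mono (hle ω)))] at h
    simpa only [Function.comp_def, C.red_vec] using h

end Ctx

end FLTA.Grass
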