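import Fermat.Agent.Grass.HopfOrder

/-!
Finite Galois-stable covers inside a smooth Galois set.
-/

set_option autoImplicit false
set_option linter.style.haveILetI false

noncomputable section

namespace FLTA.Grass

open FLTA.HeckeDatum

local notation "Qbar" => AlgebraicClosure ℚ

/-- Orbits in a smooth Galois set are finite. -/
theorem IsSmoothAct.finite_orbit {Y : Type} {act : GalQ →* Equiv.Perm Y} (h : IsSmoothAct act)
    (y : Y) : (Set.range fun σ => act σ y).Finite := by
  classical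
  obtain ⟨L, hfd, hL⟩ := h y
  haveI := hfd
  have hkey : ∀ σ τ : GalQ, (∀ a ∈ L, σ a = τ a) → act σ y = act τ y := by
    intro σ τ heq
    have hfix : act (τ⁻¹ * σ) y = y := hL _ fun a ha => by
      rw [AlgEquiv.mul_apply, heq a ha, ← AlgEquiv.mul_apply, inv_mul_cancel, AlgEquiv.one_apply]
    calc act σ y = act (τ * (τ⁻¹ * σ)) y := by rw [mul_inv_cancel_left]
      _ = act τ (act (τ⁻¹ * σ) y) := (act_apply_act τ (τ⁻¹ * σ) y).symm
      _ = act τ y := by rw [hfix]
  let res : GalQ → (L →ₐ[ℚ] Qbar) := fun σ => (σ : Qbar →ₐ[ℚ] Qbar).comp L.val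
  let lift : (L →ₐ[ℚ] Qbar) → Y := fun φ =>
    if hφ : ∃ σ, res σ = φ then act hφ.choose y else y
  refine (Set.finite_range lift).subset ?_
  rintro _ ⟨σ, rfl⟩
  have hφ : ∃ τ, res τ = res σ := ⟨σ, rfl⟩
  refine ⟨res σ, ?_⟩
  simp only [lift, dif_pos hφ]
  exact hkey _ _ fun a ha => DFunLike.congr_fun hφ.choose_spec ⟨a, ha⟩

/-- Finitely many chosen elements of a smooth Galois set lie in a finite Galois stable cover. -/
theorem exists_finite_stable_cover {Y : Type} (act : GalQ →* Equiv.Perm Y) (h : IsSmoothAct act)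
    {T : Type} [Finite T] (choice : T → Y) :
    ∃ (T' : Type) (_ : Finite T') (act' : GalQ →* Equiv.Perm T') (ι : T' → Y),
      Function.Injective ι ∧ IsSmoothAct act' ∧ (∀ σ t, ι (act' σ t) = act σ (ι t)) ∧
      (∀ x, ∃ t, ι t = choice x) ∧ ∀ t, ∃ σ x, ι t = act σ (choice x) := by
  let S : Set Y := ⋃ x, Set.range fun σ => act σ (choice x)
  haveI : Finite S := (Set.finite_iUnion fun x => h.finite_orbit (choice x)).to_subtype
  have hS : ∀ σ, ∀ y ∈ S, act σ y ∈ S := by
    intro σ y hy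
    obtain ⟨x, τ, rfl⟩ := Set.mem_iUnion.1 hy
    exact Set.mem_iUnion.2 ⟨x, σ * τ, (act_apply_act σ τ (choice x)).symm⟩
  let act' : GalQ →* Equiv.Perm S :=
    { toFun := fun σ =>
        { toFun := fun y => ⟨act σ y, hS σ y y.2⟩
          invFun := fun y => ⟨act σ⁻¹ y, hS σ⁻¹ y y.2⟩
          left_inv := fun y => Subtype.ext (by
            show act σ⁻¹ (act σ y) = y
            rw [act_apply_act, inv_mul_cancel, act_one_apply])
          right_inv := fun y => Subtype.ext (by
            show act σ (act σ⁻¹ y) = y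
            rw [act_apply_act, mul_inv_cancel, act_one_apply]) }
      map_one' := Equiv.ext fun y => Subtype.ext (act_one_apply (y : Y))
      map_mul' := fun σ τ => Equiv.ext fun y => Subtype.ext (act_apply_act σ τ (y : Y)).symm }
  refine ⟨S, inferInstance, act', Subtype.val, Subtype.val_injective, ?_, fun _ _ => rfl, ?_, ?_⟩
  · intro t
    obtain ⟨L, hfd, hL⟩ := h t
    exact ⟨L, hfd, fun σ hσ => Subtype.ext (hL σ hσ)⟩
  · exact fun x => ⟨⟨choice x, Set.mem_iUnion.2 ⟨x, 1, act_one_apply _⟩⟩, rfl⟩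
  · intro t
    obtain ⟨x, σ, hσ⟩ := Set.mem_iUnion.1 t.2
    exact ⟨σ, x, hσ.symm⟩

end FLTA.Grass

end
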