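import Fermat.Agent.Grass.Setup

/-!
# Curve lemmas for the linear algebra Jacobian
-/

set_option autoImplicit false

noncomputable section

open AlgebraicCurve

namespace FLTA.Grass

section Generic

variable {K F : Type*} [Field K] [Field F] [Algebra K F] {g : ℕ}

local notation "L" => riemannRochSpace

theorem degree_eq_sum_of_rrCurve (hF : FLTA.PlaceRed.RRCurve K F g) (D : Divisor K F) :
    Divisor.degree D = D.sum fun _ n => n := by
  simp [Divisor.degree, Finsupp.liftAddHom_apply, Finsupp.sum, hF.deg_eq_one]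

/-- Removing a place drops the dimension by at most one. -/
theorem finrank_le_sub_single_add_one (hF : FLTA.PlaceRed.RRCurve K F g) (D : Divisor K F)
    (v : Place K F) :
    Module.finrank K (L D) ≤ Module.finrank K (L (D - Finsupp.single v 1)) + 1 := by
  have hfinD := hF.finiteDimensional D
  have hfinD' := hF.finiteDimensional (D - Finsupp.single v 1)
  by_cases hle : L D ≤ L (D - Finsupp.single v 1)
  · exact le_trans (Submodule.finrank_mono hle) (Nat.le_succ _)
  obtain ⟨h, hh, hh'⟩ := SetLike.not_le_iff_exists.mp hle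
  obtain ⟨h0, hord⟩ := FLTA.Curves.ord_eq_of_notMem_sub_single hh hh'
  have hmem : ∀ f ∈ L D, f * h⁻¹ ∈ v.toValuationSubring := fun f hf => by
    by_cases hf0 : f = 0
    · simp [hf0]
    by_contra hn
    have h1 := ((mem_riemannRochSpace_iff.mp hf) v).resolve_left hf0
    rcases v.toValuationSubring.mem_or_inv_mem (f * h⁻¹) with hm | hm
    · exact hn hm
    have h2 := (v.adicValuation_le_one_iff.mp (v.adicValuation_le_one_of_mem hm)).resolve_left
      (inv_ne_zero (mul_ne_zero hf0 (inv_ne_zero h0)))
    rw [Place.ord_inv, v.ord_mul hf0 (inv_ne_zero h0), Place.ord_inv, hord] at h2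
    have hne : (⟨(f * h⁻¹)⁻¹, hm⟩ : v.toValuationSubring) ≠ 0 := fun e =>
      inv_ne_zero (mul_ne_zero hf0 (inv_ne_zero h0)) (congrArg Subtype.val e)
    have hu : IsUnit (⟨(f * h⁻¹)⁻¹, hm⟩ : v.toValuationSubring) := by
      rw [← v.adicValuation_coe_eq_one_iff,
        v.adicValuation_eq_exp_neg_ord (fun e => hne (Subtype.ext e)), Place.ord_inv,
        v.ord_mul hf0 (inv_ne_zero h0), Place.ord_inv, hord, ← WithZero.exp_zero,
        WithZero.exp_inj]
      omega
    obtain ⟨u, hu⟩ := hu
    apply hn
    have h4 : (f * h⁻¹)⁻¹ * ((↑u⁻¹ : v.toValuationSubring) : F) = 1 := by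
      have := congrArg Subtype.val u.mul_inv
      rw [hu] at this
      exact this
    have h5 := eq_inv_of_mul_eq_one_right h4
    rw [inv_inv] at h5
    exact h5 ▸ Subtype.coe_prop _
  let φ : L D →ₗ[K] v.ResidueField :=
    { toFun := fun f => IsLocalRing.residue v.toValuationSubring ⟨(f : F) * h⁻¹, hmem f f.2⟩
      map_add' := fun a b => by
        rw [← map_add]; exact congrArg _ (Subtype.ext (add_mul _ _ _))
      map_smul' := fun c a => by
        rw [RingHom.id_apply, Algebra.smul_def (A := v.ResidueField),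
          IsScalarTower.algebraMap_apply K v.toValuationSubring v.ResidueField,
          IsLocalRing.ResidueField.algebraMap_eq, ← map_mul]
        exact congrArg _ (Subtype.ext (by simp [Algebra.smul_def, mul_assoc])) }
  have hker : Module.finrank K (LinearMap.ker φ) ≤
      Module.finrank K (L (D - Finsupp.single v 1)) := by
    refine LinearMap.finrank_le_finrank_of_injective
      (f := LinearMap.codRestrict _ ((L D).subtype.comp (LinearMap.ker φ).subtype) ?_) ?_
    · rintro ⟨⟨f, hf⟩, hfk⟩
      by_contra hnot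
      obtain ⟨hf0, hfo⟩ := FLTA.Curves.ord_eq_of_notMem_sub_single hf hnot
      have hunit : IsUnit (⟨f * h⁻¹, hmem f hf⟩ : v.toValuationSubring) := by
        rw [← v.adicValuation_coe_eq_one_iff,
          v.adicValuation_eq_exp_neg_ord (mul_ne_zero hf0 (inv_ne_zero h0)),
          v.ord_mul hf0 (inv_ne_zero h0), Place.ord_inv, hord, hfo, ← WithZero.exp_zero,
          WithZero.exp_inj]
        ring
      exact (IsLocalRing.residue_ne_zero_iff_isUnit _).mpr hunit (LinearMap.mem_ker.mp hfk)
    · intro a b hab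
      exact Subtype.ext (Subtype.ext (congrArg (fun x : L (D - Finsupp.single v 1) => (x : F)) hab))
  have hrn := φ.finrank_range_add_finrank_ker
  have : FiniteDimensional K v.ResidueField :=
    FiniteDimensional.of_finrank_eq_succ (n := 0) (hF.deg_eq_one v)
  have hrange := (LinearMap.range φ).finrank_le
  rw [show Module.finrank K v.ResidueField = 1 from hF.deg_eq_one v] at hrange
  omega

theorem degree_mono_of_rrCurve (hF : FLTA.PlaceRed.RRCurve K F g) {D E : Divisor K F} (h : D ≤ E) :
    Divisor.degree D ≤ Divisor.degree E := by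
  have h1 : 0 ≤ Divisor.degree (E - D) := by
    rw [degree_eq_sum_of_rrCurve hF]
    exact Finset.sum_nonneg fun v _ => (sub_nonneg.mpr h : (0 : Divisor K F) ≤ E - D) v
  rw [map_sub] at h1
  omega

/-- Equal degree and comparable: equal. -/
theorem eq_of_le_of_degree_eq (hF : FLTA.PlaceRed.RRCurve K F g) {D E : Divisor K F} (h : D ≤ E)
    (hd : Divisor.degree D = Divisor.degree E) : D = E := by
  have h1 : (E - D).sum (fun _ n => n) = 0 := by
    rw [← degree_eq_sum_of_rrCurve hF, map_sub]; omega
  have h2 := (Finset.sum_eq_zero_iff_of_nonneg fun v _ =>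
    (sub_nonneg.mpr h : (0 : Divisor K F) ≤ E - D) v).mp h1
  refine Finsupp.ext fun v => ?_
  by_contra hv
  have h3 : v ∈ (E - D).support := by
    rw [Finsupp.mem_support_iff, Finsupp.sub_apply, sub_ne_zero]; exact Ne.symm hv
  exact Finsupp.mem_support_iff.mp h3 (h2 v h3)

/-- Riemann's inequality in all degrees. -/
theorem riemann_le (hF : FLTA.PlaceRed.RRCurve K F g) (D : Divisor K F) :
    Divisor.degree D + 1 - g ≤ (Module.finrank K (L D) : ℤ) := by
  rcases isEmpty_or_nonempty (Place K F) with hE | ⟨⟨v⟩⟩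
  · have hD : D = 0 := Subsingleton.elim _ _
    subst hD
    have := hF.finiteDimensional (0 : Divisor K F)
    have h1 : Module.finrank K (L (0 : Divisor K F)) ≠ 0 := by
      rw [Ne, Submodule.finrank_eq_zero]
      intro hb
      have h1 : (1 : F) ∈ L (0 : Divisor K F) := fun w => (IsEmpty.false w).elim
      rw [hb, Submodule.mem_bot] at h1
      exact one_ne_zero h1
    simp only [map_zero]
    omega
  · have hstep : ∀ n : ℕ, Module.finrank K (L (D + Finsupp.single v (n : ℤ))) ≤
        Module.finrank K (L D) + n := by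
      intro n
      induction n with
      | zero => rw [Nat.cast_zero, Finsupp.single_zero, add_zero]; simp
      | succ n ih =>
        have h := finrank_le_sub_single_add_one hF (D + Finsupp.single v ((n + 1 : ℕ) : ℤ)) v
        rw [add_sub_assoc, ← Finsupp.single_sub, Nat.cast_succ, add_sub_cancel_right] at h
        rw [Nat.cast_succ]
        omega
    obtain ⟨n, hn⟩ : ∃ n : ℕ, 2 * (g : ℤ) - 1 ≤ Divisor.degree D + n :=
      ⟨(2 * (g : ℤ) - 1 - Divisor.degree D).toNat, by omega⟩
    have hd : Divisor.degree (D + Finsupp.single v (n : ℤ)) = Divisor.degree D + n := by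
      rw [map_add, Divisor.degree_single, hF.deg_eq_one]; simp
    have h1 := hF.finrank_eq _ (by rw [hd]; exact hn)
    have h2 := hstep n
    omega

theorem finrank_congr_of_sub_mem_principal (hF : FLTA.PlaceRed.RRCurve K F g) {D E : Divisor K F}
    (h : D - E ∈ Divisor.principal (K := K) (F := F)) :
    Module.finrank K (L D) = Module.finrank K (L E) := by
  have := hF.principal
  obtain ⟨u, hu, hP⟩ := h
  let e : F ≃ₗ[K] F :=
    { LinearMap.mulLeft K u with
      invFun := fun x => u⁻¹ * x
      left_inv := fun x => by simp [hu]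
      right_inv := fun x => by simp [hu] }
  have hmap : (L D).map (e : F →ₗ[K] F) = L E := by
    ext x
    rw [Submodule.mem_map_equiv]
    show u⁻¹ * x ∈ L D ↔ _
    simp only [mem_riemannRochSpace_iff]
    refine forall_congr' fun v => ?_
    by_cases hx : x = 0
    · simp [hx]
    have h1 := hP v
    rw [Finsupp.sub_apply] at h1
    rw [or_iff_right (mul_ne_zero (inv_ne_zero hu) hx), or_iff_right hx,
      Place.ord_mul _ (inv_ne_zero hu) hx, Place.ord_inv]
    omega
  rw [← hmap]
  exact (e.submoduleMap _).finrank_eq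

/-- Colon by a base point free space. -/
theorem mem_sub_iff_forall_mul_mem (hF : FLTA.PlaceRed.RRCurve K F g) {D E : Divisor K F}
    (hD : 2 * (g : ℤ) ≤ Divisor.degree D) {f : F} :
    f ∈ L (E - D) ↔ ∀ a ∈ L D, f * a ∈ L E := by
  refine ⟨fun hf a ha => ?_, fun h => mem_riemannRochSpace_iff.2 fun v => ?_⟩
  · simpa using FLTA.Curves.mul_mem_riemannRochSpace hf ha
  · by_cases hf : f = 0
    · exact Or.inl hf
    obtain ⟨b, hb, hb0, hbo⟩ := FLTA.Curves.rrMult_exists_exact (g : ℤ) hF.finiteDimensional
      hF.finrank_eq hF.deg_eq_one hD v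
    have h1 := (mem_riemannRochSpace_iff.1 (h b hb) v).resolve_left (mul_ne_zero hf hb0)
    rw [Place.ord_mul _ hf hb0] at h1
    rw [Finsupp.sub_apply]
    exact Or.inr (by omega)

/-- In degree at least `2g` the space determines the divisor. -/
theorem eq_of_riemannRochSpace_eq (hF : FLTA.PlaceRed.RRCurve K F g) {D E : Divisor K F}
    (hD : 2 * (g : ℤ) ≤ Divisor.degree D) (hE : 2 * (g : ℤ) ≤ Divisor.degree E)
    (h : L D = L E) : D = E := by
  refine Finsupp.ext fun v => le_antisymm ?_ ?_
  · obtain ⟨b, hb, hb0, hbo⟩ := FLTA.Curves.rrMult_exists_exact (g : ℤ) hF.finiteDimensional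
      hF.finrank_eq hF.deg_eq_one hD v
    have := (mem_riemannRochSpace_iff.1 (h ▸ hb : b ∈ L E) v).resolve_left hb0
    omega
  · obtain ⟨b, hb, hb0, hbo⟩ := FLTA.Curves.rrMult_exists_exact (g : ℤ) hF.finiteDimensional
      hF.finrank_eq hF.deg_eq_one hE v
    have := (mem_riemannRochSpace_iff.1 (h.symm ▸ hb : b ∈ L D) v).resolve_left hb0
    omega

/-- A class with a one dimensional space contains one effective divisor. -/
theorem eq_of_nonneg_of_finrank_eq_one (hF : FLTA.PlaceRed.RRCurve K F g) {D E : Divisor K F}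
    (hD : 0 ≤ D) (hE : 0 ≤ E) (h : D - E ∈ Divisor.principal (K := K) (F := F))
    (h1 : Module.finrank K (L D) = 1) : D = E := by
  have h2 := finrank_congr_of_sub_mem_principal hF h
  have := hF.finiteDimensional E
  obtain ⟨u, hu, hP⟩ := h
  have h1E : (1 : F) ∈ L E := mem_riemannRochSpace_iff.2 fun v => Or.inr <| by
    simp only [Place.ord_one, Left.neg_nonpos_iff]; exact hE v
  have huE : u ∈ L E := mem_riemannRochSpace_iff.2 fun v => Or.inr <| by
    have h3 := hP v
    have h4 : 0 ≤ D v := hD v
    rw [Finsupp.sub_apply] at h3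
    omega
  obtain ⟨c, hc⟩ := (finrank_eq_one_iff_of_nonzero' (⟨1, h1E⟩ : L E)
    (fun e => one_ne_zero (congrArg Subtype.val e))).mp (h2.symm.trans h1) ⟨u, huE⟩
  have hcu : algebraMap K F c = u := by
    simpa [Algebra.smul_def] using congrArg Subtype.val hc
  refine Finsupp.ext fun v => ?_
  have h3 := hP v
  rw [← hcu, FLTA.Curves.ord_algebraMap_eq_zero, Finsupp.sub_apply] at h3
  omega

/-- Multiplication by `u` carries `L E` onto `L (E - div u)`. -/
theorem mul_mem_sub_div_iff {u : F} (hu : u ≠ 0) {P : Divisor K F} (hP : ∀ v, P v = v.ord u)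
    {E : Divisor K F} {f : F} : u * f ∈ L (E - P) ↔ f ∈ L E := by
  simp only [mem_riemannRochSpace_iff]
  refine forall_congr' fun v => ?_
  by_cases hf : f = 0
  · simp [hf]
  rw [or_iff_right (mul_ne_zero hu hf), or_iff_right hf, Place.ord_mul _ hu hf,
    Finsupp.sub_apply, hP v]
  omega

end Generic

variable {K : Type*} [Field K] {A : ValuationSubring K} {k : Type*} [Field k] {π : A →+* k}
  {F : Type*} [Field F] [Algebra K F] {F' : Type*} [Field F'] [Algebra k F'] {g : ℕ}

namespace Ctx

variable (C : Ctx A π F F' g)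

local notation "L" => riemannRochSpace

theorem degree_rDiv (D : Divisor K F) : Divisor.degree (C.rDiv D) = Divisor.degree D := by
  induction D using Finsupp.induction with
  | zero => simp
  | single_add v n D _ _ ih =>
    simp only [rDiv, Finsupp.mapDomain.addMonoidHom_apply] at ih
    simp only [map_add, ih, rDiv, Finsupp.mapDomain.addMonoidHom_apply, Finsupp.mapDomain_single,
      Divisor.degree_single, C.rrK.deg_eq_one, C.rrk.deg_eq_one]

theorem rDiv_mono {D E : Divisor K F} (h : D ≤ E) : C.rDiv D ≤ C.rDiv E := by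
  classical
  have key : (0 : Divisor k F') ≤ C.rDiv (E - D) := by
    intro Q
    simp only [rDiv, Finsupp.mapDomain.addMonoidHom_apply, Finsupp.mapDomain, Finsupp.sum,
      Finsupp.finsetSum_apply]
    refine Finset.sum_nonneg fun v _ => ?_
    rw [Finsupp.single_apply]
    split_ifs
    · exact (sub_nonneg.mpr h : (0 : Divisor K F) ≤ E - D) v
    · exact le_rfl
  rw [map_sub] at key
  exact sub_nonneg.mp key

theorem red_mem {D : Divisor K F} {u : C.R.O} (hu : (u : F) ∈ L D) :
    C.R.red u ∈ L (C.rDiv D) := by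
  by_cases hne : C.R.red u = 0
  · rw [hne]; exact Submodule.zero_mem _
  have hu0 : (u : F) ≠ 0 := fun e => hne (by rw [show u = 0 from Subtype.ext e, map_zero])
  have := C.rrK.principal
  obtain ⟨P, hP, -⟩ := HasPrincipalDivisors.exists_divisor (K := K) (u : F) hu0
  have hle : (0 : Divisor K F) ≤ P + D := fun v => by
    have := (mem_riemannRochSpace_iff.1 hu v).resolve_left hu0
    rw [Finsupp.add_apply, hP v, Finsupp.zero_apply]
    omega
  have h2 := C.rDiv_mono hle
  rw [map_zero, map_add] at h2
  refine mem_riemannRochSpace_iff.2 fun Q => Or.inr ?_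
  have h3 := h2 Q
  rw [Finsupp.add_apply, Finsupp.zero_apply,
    show C.rDiv P Q = Q.ord (C.R.red u) from C.isPlaceMap u hne P hP Q] at h3
  omega

theorem rDiv_mem_principal {D : Divisor K F} (h : D ∈ Divisor.principal (K := K) (F := F)) :
    C.rDiv D ∈ Divisor.principal (K := k) (F := F') := by
  obtain ⟨f, hf, hfD⟩ := h
  obtain ⟨c, u, hc, hu, hne⟩ := C.exists_smul_mem hf
  refine ⟨C.R.red u, hne, fun Q => C.isPlaceMap u hne D (fun v => ?_) Q⟩
  rw [hfD v, hu, Algebra.smul_def, Place.ord_mul _ (by simpa using hc) hf,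
    FLTA.Curves.ord_algebraMap_eq_zero, zero_add]

theorem finrank_le_finrank_rDiv (D : Divisor K F) :
    Module.finrank K (L D) ≤ Module.finrank k (L (C.rDiv D)) := by
  obtain ⟨n, b, hspan, hind⟩ := C.R.lattice (L D) (C.rrK.finiteDimensional D)
  have := C.rrk.finiteDimensional (C.rDiv D)
  have hmem : ∀ i, C.R.red (b i) ∈ L (C.rDiv D) := fun i =>
    C.red_mem (hspan ▸ Submodule.subset_span ⟨i, rfl⟩)
  calc Module.finrank K (L D)
      = Module.finrank K (Submodule.span K (Set.range fun i => (b i : F))) := by rw [hspan]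
    _ ≤ Fintype.card (Fin n) := finrank_range_le_card _
    _ = Module.finrank k (Submodule.span k (Set.range fun i => C.R.red (b i))) :=
      (finrank_span_eq_card hind).symm
    _ ≤ _ := Submodule.finrank_mono (Submodule.span_le.2 (by rintro _ ⟨i, rfl⟩; exact hmem i))

/-- When the dimensions agree, integral sections reduce onto the reduced space. -/
theorem exists_red_eq {D : Divisor K F}
    (h : Module.finrank k (L (C.rDiv D)) = Module.finrank K (L D))
    {f' : F'} (hf : f' ∈ L (C.rDiv D)) :
    ∃ u : C.R.O, (u : F) ∈ L D ∧ C.R.red u = f' := by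
  obtain ⟨n, b, hspan, hind⟩ := C.R.lattice (L D) (C.rrK.finiteDimensional D)
  have := C.rrk.finiteDimensional (C.rDiv D)
  have hbmem : ∀ i, (b i : F) ∈ L D := fun i => hspan ▸ Submodule.subset_span ⟨i, rfl⟩
  have hle : Submodule.span k (Set.range fun i => C.R.red (b i)) ≤ L (C.rDiv D) :=
    Submodule.span_le.2 (by rintro _ ⟨i, rfl⟩; exact C.red_mem (hbmem i))
  have hn : Module.finrank K (L D) ≤ n := by
    rw [← hspan]; exact (finrank_range_le_card _).trans (by simp)
  have heq := Submodule.eq_of_le_of_finrank_le hle (by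
    rw [h, finrank_span_eq_card hind, Fintype.card_fin]; exact hn)
  rw [← heq, Submodule.mem_span_range_iff_exists_fun] at hf
  obtain ⟨c, hc⟩ := hf
  choose a ha using fun i => C.R.π_surjective (c i)
  refine ⟨∑ i, C.scal (a i) * b i, ?_, ?_⟩
  · push_cast
    refine Submodule.sum_mem _ fun i _ => ?_
    rw [coe_scal, ← Algebra.smul_def]
    exact Submodule.smul_mem _ _ (hbmem i)
  · simp [map_sum, C.red_scal, ha, ← hc, Algebra.smul_def]

theorem finrank_rDiv_eq {D : Divisor K F} (hD : 2 * (g : ℤ) - 1 ≤ Divisor.degree D) :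
    Module.finrank k (L (C.rDiv D)) = Module.finrank K (L D) := by
  have h1 := C.rrK.finrank_eq D hD
  have h2 := C.rrk.finrank_eq (C.rDiv D) (by rw [C.degree_rDiv]; exact hD)
  rw [C.degree_rDiv] at h2
  omega

theorem r_surjective : Function.Surjective C.r := by
  classical
  intro Q
  by_contra hQ
  push Not at hQ
  obtain ⟨π', hπ'⟩ := IsDiscreteValuationRing.exists_irreducible Q.toValuationSubring
  obtain ⟨u, hu⟩ := C.R.red_surjective (π' : F')
  have hne : C.R.red u ≠ 0 := by rw [hu]; simpa using hπ'.ne_zero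
  have hu0 : (u : F) ≠ 0 := fun e => hne (by rw [show u = 0 from Subtype.ext e, map_zero])
  have := C.rrK.principal
  obtain ⟨P, hP, -⟩ := HasPrincipalDivisors.exists_divisor (K := K) (u : F) hu0
  have h := C.isPlaceMap u hne P hP Q
  rw [hu, Q.ord_coe_irreducible hπ', Finsupp.mapDomain_notin_range] at h
  · exact zero_ne_one h
  · rintro ⟨v, hv⟩; exact hQ v hv

/-- Chart: an effective divisor `S` of degree `g` cutting every given class of degree `2g` down
to a single member after reduction. -/
theorem exists_chart {ι : Type*} [Finite ι] (Y : ι → Divisor K F)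
    (hY : ∀ i, Divisor.degree (Y i) = 2 * (g : ℤ)) :
    ∃ S : Divisor K F, 0 ≤ S ∧ Divisor.degree S = (g : ℤ) ∧
      ∀ i, Module.finrank k (L (C.rDiv (Y i - S))) = 1 := by
  classical
  have := C.rrk.principal
  have := C.infinite_places
  suffices h : ∀ j : ℕ, j ≤ g → ∃ S : Divisor K F, 0 ≤ S ∧ Divisor.degree S = (j : ℤ) ∧
      ∀ i, Module.finrank k (L (C.rDiv (Y i - S))) + j = g + 1 by
    obtain ⟨S, hS0, hSd, hS⟩ := h g le_rfl
    exact ⟨S, hS0, hSd, fun i => by have := hS i; omega⟩
  intro j
  induction j with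
  | zero =>
    intro _
    refine ⟨0, le_rfl, by simp, fun i => ?_⟩
    have h2 := C.rrk.finrank_eq (C.rDiv (Y i - 0)) (by rw [C.degree_rDiv, sub_zero, hY]; omega)
    rw [C.degree_rDiv, sub_zero, hY] at h2
    rw [sub_zero]
    omega
  | succ j ih =>
    intro hj
    obtain ⟨S, hS0, hSd, hS⟩ := ih (by omega)
    have hne : ∀ i, ∃ f ∈ L (C.rDiv (Y i - S)), f ≠ 0 := fun i => by
      by_contra! hall
      have h1 := hS i
      rw [(Submodule.eq_bot_iff _).2 hall, finrank_bot] at h1
      omega
    choose f hf hf0 using hne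
    choose P hP _ using fun i => HasPrincipalDivisors.exists_divisor (K := k) (f i) (hf0 i)
    obtain ⟨Q, hQ⟩ := Set.Finite.exists_notMem (s := ⋃ i,
      (((P i).support ∪ (C.rDiv (Y i - S)).support : Finset (Place k F')) : Set (Place k F')))
      (Set.finite_iUnion fun i => Finset.finite_toSet _)
    obtain ⟨v, rfl⟩ := C.r_surjective Q
    refine ⟨S + Finsupp.single v 1, add_nonneg hS0 (Finsupp.single_nonneg.2 zero_le_one), ?_,
      fun i => ?_⟩
    · rw [map_add, Divisor.degree_single, C.rrK.deg_eq_one, hSd]; push_cast; ring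
    · have heq : C.rDiv (Y i - (S + Finsupp.single v 1)) =
          C.rDiv (Y i - S) - Finsupp.single (C.r v) 1 := by
        rw [← sub_sub, map_sub]
        simp [rDiv, Finsupp.mapDomain_single]
      simp only [Set.mem_iUnion, Finset.mem_coe, Finset.mem_union, Finsupp.mem_support_iff,
        not_exists, not_or, not_not] at hQ
      have hnot : f i ∉ L (C.rDiv (Y i - S) - Finsupp.single (C.r v) 1) :=
        FLTA.Curves.notMem_sub_single (hf0 i) (by rw [← hP i, (hQ i).1, (hQ i).2, neg_zero])
      have := C.rrk.finiteDimensional (C.rDiv (Y i - S))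
      have hlt : L (C.rDiv (Y i - S) - Finsupp.single (C.r v) 1) < L (C.rDiv (Y i - S)) :=
        lt_of_le_of_ne (FLTA.Curves.riemannRochSpace_mono
          (sub_le_self _ (Finsupp.single_nonneg.2 zero_le_one))) fun e => hnot (e ▸ hf i)
      have h1 := Submodule.finrank_lt_finrank_of_lt hlt
      have h2 := finrank_le_sub_single_add_one C.rrk (C.rDiv (Y i - S)) (C.r v)
      have h3 := hS i
      rw [heq]
      omega

end Ctx

end FLTA.Grass
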