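import Mathlib

/-!
# Linear algebra over a ring of `A`-valued functions on a finite set

Global unit combinations, kernels of constant rank, standard forms.
Conventions: `A` valuation subring of `K`, `π : A →+* k` surjective onto an infinite field,
`Ω` finite, `R : Subalgebra A (Ω → A)`; a system of vectors is `v : Fin s → Ω → Fin d → A`.
-/

set_option autoImplicit false

noncomputable section

namespace FLTA.Grass

open Matrix

/-- The entries of a matrix valued function lie in `R`. -/
def EntriesIn {K : Type*} [Field K] {A : ValuationSubring K} {Ω m n : Type*}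
    (R : Subalgebra A (Ω → A)) (M : Ω → Matrix m n A) : Prop :=
  ∀ i j, (fun w => M w i j) ∈ R

section Field

variable {k : Type*} [Field k]

/-- Finitely many matrices of rank at least `c` admit a common `c × d` matrix `P` such that all
products have rank `c`. -/
theorem exists_left_linearIndependent [Infinite k] {Ω : Type*} [Finite Ω] {d e c : ℕ}
    (N : Ω → Matrix (Fin d) (Fin e) k) (hN : ∀ w, c ≤ (N w).rank) :
    ∃ P : Matrix (Fin c) (Fin d) k, ∀ w, LinearIndependent k fun i => (P * N w) i := by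
  induction c with
  | zero => exact ⟨0, fun w => linearIndependent_empty_type⟩
  | succ c ih =>
    obtain ⟨P, hP⟩ := ih fun w => le_trans (Nat.le_succ c) (hN w)
    let f : Ω → (Fin d → k) →ₗ[k] (Fin e → k) := fun w => (N w).vecMulLinear
    let S : Ω → Submodule k (Fin e → k) := fun w =>
      Submodule.span k (Set.range fun i => (P * N w) i)
    have hS : ∀ w, (S w).comap (f w) ≠ ⊤ := fun w htop => by
      have h1 : LinearMap.range (f w) ≤ S w := by
        rintro x ⟨y, rfl⟩
        have : y ∈ (S w).comap (f w) := htop ▸ Submodule.mem_top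
        exact this
      have h2 : Module.finrank k (S w) = c := by
        rw [finrank_span_eq_card (hP w), Fintype.card_fin]
      have h3 : (N w).rank = Module.finrank k (LinearMap.range (f w)) := by
        rw [← Matrix.rank_transpose, Matrix.rank]
        have he : (N w)ᵀ.mulVecLin = f w :=
          LinearMap.ext fun x => Matrix.mulVec_transpose (N w) x
        rw [he]
      have h4 := Submodule.finrank_mono h1
      have h5 := hN w
      omega
    obtain ⟨l, hl⟩ := Submodule.exists_forall_notMem_of_forall_ne_top _ hS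
    refine ⟨Matrix.of (Fin.snoc (fun i => P i) l), fun w => ?_⟩
    have heq : (fun i => (Matrix.of (Fin.snoc (fun i => P i) l) * N w) i) =
        Fin.snoc (fun i => (P * N w) i) (f w l) := by
      funext i
      refine Fin.lastCases ?_ (fun i => ?_) i
      · ext j; simp [Matrix.mul_apply, f, Matrix.vecMul, dotProduct]
      · ext j; simp [Matrix.mul_apply]
    rw [heq]
    exact linearIndependent_finSnoc.mpr ⟨hP w, hl w⟩

/-- Finitely many matrices of rank at least `c`: common `P`, `Q` with all `P * N * Q` invertible. -/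
theorem exists_det_mul_mul_ne_zero [Infinite k] {Ω : Type*} [Finite Ω] {d e c : ℕ}
    (N : Ω → Matrix (Fin d) (Fin e) k) (hN : ∀ w, c ≤ (N w).rank) :
    ∃ (P : Matrix (Fin c) (Fin d) k) (Q : Matrix (Fin e) (Fin c) k),
      ∀ w, (P * N w * Q).det ≠ 0 := by
  obtain ⟨P, hP⟩ := exists_left_linearIndependent N hN
  have h2 : ∀ w, c ≤ ((P * N w)ᵀ).rank := fun w => by
    rw [Matrix.rank_transpose]
    have := LinearIndependent.rank_matrix (M := P * N w) (hP w)
    simp [this]
  obtain ⟨Q, hQ⟩ := exists_left_linearIndependent (fun w => (P * N w)ᵀ) h2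
  refine ⟨P, Qᵀ, fun w => ?_⟩
  have h3 : IsUnit (Q * (P * N w)ᵀ) := Matrix.linearIndependent_rows_iff_isUnit.mp (hQ w)
  rw [Matrix.isUnit_iff_isUnit_det, isUnit_iff_ne_zero, ← Matrix.det_transpose,
    Matrix.transpose_mul, Matrix.transpose_transpose] at h3
  exact h3

end Field

variable {K : Type*} [Field K] {A : ValuationSubring K} {k : Type*} [Field k] {π : A →+* k}
variable {Ω : Type*} [Finite Ω] {R : Subalgebra A (Ω → A)}

theorem isUnit_of_map_ne_zero (hπ : Function.Surjective π) {x : A} (hx : π x ≠ 0) : IsUnit x := by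
  have hmax := IsLocalRing.eq_maximalIdeal (RingHom.ker_isMaximal_of_surjective π hπ)
  by_contra hu
  exact hx (RingHom.mem_ker.mp (hmax ▸ (IsLocalRing.mem_maximalIdeal x).mpr hu))

/-- (a) An element of `R` which is a unit at every point is a unit of `R`. -/
theorem exists_inverse_mem {f : Ω → A} (hf : f ∈ R) (hunit : ∀ w, IsUnit (f w)) :
    ∃ g ∈ R, g * f = 1 := by
  classical
  have := Fintype.ofFinite Ω
  let u : R := ⟨f, hf⟩
  let J : Ideal R := Ideal.span {u}
  have hp : ∏ w, (u - algebraMap A R (f w)) = 0 := by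
    apply Subtype.ext
    funext w
    simp only [SubmonoidClass.coe_finsetProd, Finset.prod_apply,
      ZeroMemClass.coe_zero, Pi.zero_apply]
    exact Finset.prod_eq_zero (Finset.mem_univ w) (by simp [u])
  have h0 := congrArg (Ideal.Quotient.mk J) hp
  have hu : Ideal.Quotient.mk J u = 0 :=
    Ideal.Quotient.eq_zero_iff_mem.mpr (Ideal.mem_span_singleton_self u)
  simp only [map_prod, map_sub, hu, zero_sub, map_zero] at h0
  have hU : IsUnit (∏ w, -(Ideal.Quotient.mk J (algebraMap A R (f w)))) :=
    IsUnit.prod_univ_iff.mpr fun w => IsUnit.neg_iff _ |>.mpr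
      (((hunit w).map (algebraMap A R)).map (Ideal.Quotient.mk J))
  rw [h0, isUnit_zero_iff] at hU
  have h1 : (1 : R) ∈ J := by
    rw [← Ideal.Quotient.eq_zero_iff_mem, map_one]
    exact hU.symm
  obtain ⟨g, hg⟩ := Ideal.mem_span_singleton'.mp h1
  exact ⟨g, g.2, congrArg Subtype.val hg⟩

omit [Finite Ω] in
theorem exists_matrix_lift (hπ : Function.Surjective π) {m n : Type*} (P : Matrix m n k) :
    ∃ P' : Matrix m n A, P'.map π = P :=
  ⟨Matrix.of fun i j => (hπ (P i j)).choose, by ext i j; exact (hπ (P i j)).choose_spec⟩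

/-- (b) Finitely many elements of `R`, not all residually zero at any point, have an
`A`-combination which is residually nonzero at every point. -/
theorem exists_combination (hπ : Function.Surjective π) [Infinite k] {s : ℕ}
    (f : Fin s → Ω → A) (h : ∀ w, ∃ i, π (f i w) ≠ 0) :
    ∃ c : Fin s → A, ∀ w, π (∑ i, c i * f i w) ≠ 0 := by
  let N : Ω → Matrix (Fin s) (Fin 1) k := fun w => Matrix.of fun i _ => π (f i w)
  have hN : ∀ w, 1 ≤ (N w).rank := fun w => by
    obtain ⟨i, hi⟩ := h w
    refine Nat.one_le_iff_ne_zero.mpr fun h0 => hi ?_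
    rw [Matrix.rank, Submodule.finrank_eq_zero, LinearMap.range_eq_bot] at h0
    have := congrFun (LinearMap.congr_fun h0 (Pi.single 0 1)) i
    simpa [N] using this
  obtain ⟨P, hP⟩ := exists_left_linearIndependent N hN
  obtain ⟨P', hP'⟩ := exists_matrix_lift hπ P
  refine ⟨fun i => P' 0 i, fun w h0 => (hP w).ne_zero 0 ?_⟩
  ext j
  simp only [map_sum, map_mul] at h0
  simpa [Matrix.mul_apply, N, ← hP', Subsingleton.elim j 0] using h0

section Entries

omit [Finite Ω]
variable {m n p : Type*}

theorem EntriesIn.const (M : Matrix m n A) : EntriesIn R fun _ => M :=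
  fun i j => R.algebraMap_mem (M i j)

theorem EntriesIn.mul [Fintype n] {M : Ω → Matrix m n A} {N : Ω → Matrix n p A}
    (hM : EntriesIn R M) (hN : EntriesIn R N) : EntriesIn R fun w => M w * N w := fun i j => by
  have : (fun w => (M w * N w) i j) = ∑ l, (fun w => M w i l) * fun w => N w l j := by
    funext w; simp [Matrix.mul_apply]
  rw [this]
  exact sum_mem fun l _ => mul_mem (hM i l) (hN l j)

theorem EntriesIn.sub {M N : Ω → Matrix m n A} (hM : EntriesIn R M) (hN : EntriesIn R N) :
    EntriesIn R fun w => M w - N w := fun i j => sub_mem (hM i j) (hN i j)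

end Entries

/-- The adjugate inverse of a square matrix over `R` with everywhere unit determinant. -/
theorem EntriesIn.inverse {n : Type*} [Fintype n] [DecidableEq n] {M : Ω → Matrix n n A}
    (hM : EntriesIn R M) (hdet : ∀ w, IsUnit (M w).det) :
    EntriesIn R fun w => (M w)⁻¹ := by
  let M' : Matrix n n R := Matrix.of fun i j => ⟨_, hM i j⟩
  let ev : Ω → (R →+* A) := fun w => (Pi.evalRingHom (fun _ => A) w).comp R.val.toRingHom
  have hev : ∀ w, M'.map (ev w) = M w := fun w => by ext i j; rfl
  have hd : ∀ w, (M'.det : Ω → A) w = (M w).det := fun w => by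
    rw [← hev, ← RingHom.mapMatrix_apply, ← RingHom.map_det]; rfl
  have ha : ∀ w i j, (M'.adjugate i j : Ω → A) w = (M w).adjugate i j := fun w i j => by
    rw [← hev, ← RingHom.mapMatrix_apply, ← RingHom.map_adjugate]; rfl
  obtain ⟨g, hg, hgM⟩ := exists_inverse_mem M'.det.2 fun w => (hd w).symm ▸ hdet w
  intro i j
  have : (fun w => (M w)⁻¹ i j) = g * (M'.adjugate i j : Ω → A) := by
    funext w
    have h1 := congrFun hgM w
    simp only [Pi.mul_apply, Pi.one_apply, hd] at h1
    have hi : Ring.inverse (M w).det = g w :=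
      calc Ring.inverse (M w).det = g w * (M w).det * Ring.inverse (M w).det := by rw [h1, one_mul]
        _ = g w := Ring.mul_inverse_cancel_right _ _ (hdet w)
    rw [Matrix.inv_def, Pi.mul_apply, ha]
    exact congrArg (fun t => t * (M w).adjugate i j) hi
  rw [this]
  exact mul_mem hg (M'.adjugate i j).2

/-- A matrix of rank `≤ c` with an invertible `c`-minor factors through that minor. -/
theorem mul_inverse_mul_eq_of_rank_le {F : Type*} [Field F] {a d c : ℕ}
    (M : Matrix (Fin a) (Fin d) F) (P : Matrix (Fin c) (Fin a) F) (Q : Matrix (Fin d) (Fin c) F)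
    (hM : M.rank ≤ c) (hdet : IsUnit (P * M * Q).det) :
    M * Q * (P * M * Q)⁻¹ * (P * M) = M := by
  have hc : c ≤ (M * Q).rank := by
    calc c = (P * M * Q).rank := by
          rw [Matrix.rank_of_isUnit _ ((Matrix.isUnit_iff_isUnit_det _).mpr hdet), Fintype.card_fin]
      _ ≤ (M * Q).rank := by rw [Matrix.mul_assoc]; exact Matrix.rank_mul_le_right _ _
  have hle : LinearMap.range (M * Q).mulVecLin ≤ LinearMap.range M.mulVecLin := by
    rw [Matrix.mulVecLin_mul]; exact LinearMap.range_comp_le_range _ _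
  have heq := Submodule.eq_of_le_of_finrank_le hle (hM.trans hc)
  refine Matrix.ext_iff_mulVec.mpr fun x => ?_
  obtain ⟨z, hz⟩ := heq.ge ⟨x, rfl⟩
  simp only [Matrix.mulVecLin_apply] at hz
  rw [← Matrix.mulVec_mulVec, ← Matrix.mulVec_mulVec _ P M, ← hz, Matrix.mulVec_mulVec _ P,
    ← Matrix.mul_assoc P M Q, ← Matrix.mulVec_mulVec _ (M * Q), Matrix.mulVec_mulVec _ (P * M * Q)⁻¹,
    Matrix.nonsing_inv_mul _ hdet, Matrix.one_mulVec]

section Minor

omit [Finite Ω]
variable {a d c : ℕ}

/-- The generic-fibre version of a residually invertible minor. -/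
theorem mul_inverse_mul_eq (M : Matrix (Fin a) (Fin d) A) (P : Matrix (Fin c) (Fin a) A)
    (Q : Matrix (Fin d) (Fin c) A) (hK : (M.map ((↑) : A → K)).rank ≤ c)
    (hdet : IsUnit (P * M * Q).det) : M * Q * (P * M * Q)⁻¹ * (P * M) = M := by
  have h1 : (P * M * Q).map A.subtype * (P * M * Q)⁻¹.map A.subtype = 1 := by
    rw [← Matrix.map_mul, Matrix.mul_nonsing_inv _ hdet,
      Matrix.map_one _ (map_zero _) (map_one _)]
  have h2 := mul_inverse_mul_eq_of_rank_le (M.map A.subtype) (P.map A.subtype) (Q.map A.subtype) hK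
    (by rw [← Matrix.map_mul, ← Matrix.map_mul, ← RingHom.mapMatrix_apply, ← RingHom.map_det]
        exact hdet.map _)
  rw [← Matrix.map_mul (L := P), ← Matrix.map_mul (L := P * M), Matrix.inv_eq_right_inv h1,
    ← Matrix.map_mul, ← Matrix.map_mul, ← Matrix.map_mul] at h2
  exact Matrix.map_injective Subtype.val_injective h2

theorem isUnit_det_of_map_ne_zero (hπ : Function.Surjective π) {M : Matrix (Fin c) (Fin c) A}
    (h : (M.map π).det ≠ 0) : IsUnit M.det :=
  isUnit_of_map_ne_zero hπ (by rwa [RingHom.map_det])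

end Minor

theorem exists_unit_minor (hπ : Function.Surjective π) [Infinite k] {a d c : ℕ}
    (M : Ω → Matrix (Fin a) (Fin d) A) (hk : ∀ w, c ≤ ((M w).map π).rank) :
    ∃ (P : Matrix (Fin c) (Fin a) A) (Q : Matrix (Fin d) (Fin c) A),
      ∀ w, IsUnit (P * M w * Q).det := by
  obtain ⟨P, Q, h⟩ := exists_det_mul_mul_ne_zero (fun w => (M w).map π) hk
  obtain ⟨P', rfl⟩ := exists_matrix_lift hπ P
  obtain ⟨Q', rfl⟩ := exists_matrix_lift hπ Q
  exact ⟨P', Q', fun w => isUnit_det_of_map_ne_zero hπ (by
    rw [Matrix.map_mul, Matrix.map_mul]; exact h w)⟩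

/-- (c) Kernel lemma. -/
theorem exists_kernel_projection (hπ : Function.Surjective π) [Infinite k] {a d c : ℕ}
    (M : Ω → Matrix (Fin a) (Fin d) A) (hM : EntriesIn R M)
    (hK : ∀ w, ((M w).map ((↑) : A → K)).rank ≤ c) (hk : ∀ w, c ≤ ((M w).map π).rank) :
    ∃ E : Ω → Matrix (Fin d) (Fin d) A, EntriesIn R E ∧ (∀ w, M w * E w = 0) ∧
      (∀ w (x : Fin d → K), (M w).map ((↑) : A → K) *ᵥ x = 0 →
        (E w).map ((↑) : A → K) *ᵥ x = x) ∧
      (∀ w (x : Fin d → k), (M w).map π *ᵥ x = 0 → (E w).map π *ᵥ x = x) := by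
  obtain ⟨P, Q, hdet⟩ := exists_unit_minor hπ M hk
  refine ⟨fun w => 1 - Q * (P * M w * Q)⁻¹ * P * M w, ?_, fun w => ?_, fun w x hx => ?_,
    fun w x hx => ?_⟩
  · exact (EntriesIn.const 1).sub
      ((((EntriesIn.const Q).mul
        ((((EntriesIn.const P).mul hM).mul (EntriesIn.const Q)).inverse hdet)).mul
          (EntriesIn.const P)).mul hM)
  · rw [Matrix.mul_sub, Matrix.mul_one, sub_eq_zero]
    simpa [Matrix.mul_assoc] using (mul_inverse_mul_eq (M w) P Q (hK w) (hdet w)).symm
  · change (1 - Q * (P * M w * Q)⁻¹ * P * M w).map A.subtype *ᵥ x = x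
    rw [Matrix.map_sub _ (map_sub _), Matrix.map_one _ (map_zero _) (map_one _), Matrix.map_mul,
      Matrix.sub_mulVec, Matrix.one_mulVec, ← Matrix.mulVec_mulVec]
    simp only [show (M w).map A.subtype *ᵥ x = 0 from hx, Matrix.mulVec_zero, sub_zero]
  · change (1 - Q * (P * M w * Q)⁻¹ * P * M w).map π *ᵥ x = x
    rw [Matrix.map_sub _ (map_sub _), Matrix.map_one _ (map_zero _) (map_one _), Matrix.map_mul,
      Matrix.sub_mulVec, Matrix.one_mulVec, ← Matrix.mulVec_mulVec]
    simp only [hx, Matrix.mulVec_zero, sub_zero]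

/-- (c) Kernel lemma, generator form. -/
theorem exists_kernel_generators (hπ : Function.Surjective π) [Infinite k] {a d c : ℕ}
    (M : Ω → Matrix (Fin a) (Fin d) A) (hM : EntriesIn R M)
    (hK : ∀ w, ((M w).map ((↑) : A → K)).rank ≤ c) (hk : ∀ w, c ≤ ((M w).map π).rank) :
    ∃ v : Fin d → Ω → Fin d → A, (∀ j i, (fun w => v j w i) ∈ R) ∧
      (∀ j w, M w *ᵥ v j w = 0) ∧
      (∀ w (x : Fin d → K), (M w).map ((↑) : A → K) *ᵥ x = 0 →
        x ∈ Submodule.span K (Set.range fun j i => (v j w i : K))) ∧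
      ∀ w (x : Fin d → k), (M w).map π *ᵥ x = 0 →
        x ∈ Submodule.span k (Set.range fun j i => π (v j w i)) := by
  obtain ⟨E, hE, hME, hEK, hEk⟩ := exists_kernel_projection hπ M hM hK hk
  refine ⟨fun j w i => E w i j, fun j i => hE i j, fun j w => ?_, fun w x hx => ?_,
    fun w x hx => ?_⟩
  · funext i
    exact congrFun (congrFun (hME w) i) j
  · have h : x ∈ LinearMap.range ((E w).map ((↑) : A → K)).mulVecLin := ⟨x, hEK w x hx⟩
    rw [Matrix.range_mulVecLin] at h
    exact h
  · have h : x ∈ LinearMap.range ((E w).map π).mulVecLin := ⟨x, hEk w x hx⟩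
    rw [Matrix.range_mulVecLin] at h
    exact h

/-- (d) Standard form: a system of residual rank `≥ r` and generic rank `≤ r` has constant
coordinates `P` with an associated normalised system `e`, which lies in any `R` containing the
system. -/
theorem exists_standard_form (hπ : Function.Surjective π) [Infinite k] {s d r : ℕ}
    (v : Fin s → Ω → Fin d → A)
    (hK : ∀ w, ((Matrix.of fun i j => v j w i).map ((↑) : A → K)).rank ≤ r)
    (hk : ∀ w, r ≤ ((Matrix.of fun i j => v j w i).map π).rank) :
    ∃ (P : Matrix (Fin r) (Fin d) A) (e : Ω → Matrix (Fin d) (Fin r) A),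
      (∀ w, P * e w = 1) ∧ (∀ j w, v j w = e w *ᵥ (P *ᵥ v j w)) ∧
      (∀ w, ∃ Q : Matrix (Fin s) (Fin r) A, e w = (Matrix.of fun i j => v j w i) * Q) := by
  let V : Ω → Matrix (Fin d) (Fin s) A := fun w => Matrix.of fun i j => v j w i
  obtain ⟨P, Q, hdet⟩ := exists_unit_minor hπ V hk
  refine ⟨P, fun w => V w * Q * (P * V w * Q)⁻¹, fun w => ?_, fun j w => ?_,
    fun w => ⟨Q * (P * V w * Q)⁻¹, by rw [← Matrix.mul_assoc]⟩⟩
  · rw [← Matrix.mul_assoc, ← Matrix.mul_assoc, Matrix.mul_nonsing_inv _ (hdet w)]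
  · funext i
    exact (congrFun (congrFun (mul_inverse_mul_eq (V w) P Q (hK w) (hdet w)) i) j).symm

/-- (d) The normalised system lies in every `R` over which a residually full system is given. -/
theorem standard_form_mem (hπ : Function.Surjective π) [Infinite k] {s d r : ℕ}
    (P : Matrix (Fin r) (Fin d) A) (e : Ω → Matrix (Fin d) (Fin r) A) (he : ∀ w, P * e w = 1)
    (v : Fin s → Ω → Fin d → A) (hv : ∀ j i, (fun w => v j w i) ∈ R)
    (hspan : ∀ j w, v j w = e w *ᵥ (P *ᵥ v j w))
    (hk : ∀ w, r ≤ ((Matrix.of fun i j => v j w i).map π).rank) :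
    EntriesIn R e := by
  have _ := he
  let V : Ω → Matrix (Fin d) (Fin s) A := fun w => Matrix.of fun i j => v j w i
  have hVR : EntriesIn R V := fun i j => hv j i
  have hV : ∀ w, e w * (P * V w) = V w := fun w => by
    ext i j
    exact congrArg Subtype.val (congrFun (hspan j w) i).symm
  have h2 : ∀ w, r ≤ (((P * V w).map π)ᵀ).rank := fun w => by
    rw [Matrix.rank_transpose]
    refine (hk w).trans ?_
    calc ((V w).map π).rank = ((e w).map π * (P * V w).map π).rank := by
          rw [← Matrix.map_mul, hV w]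
      _ ≤ _ := Matrix.rank_mul_le_right _ _
  obtain ⟨Q, hQ⟩ := exists_left_linearIndependent (fun w => ((P * V w).map π)ᵀ) h2
  obtain ⟨Q', hQ'⟩ := exists_matrix_lift hπ Qᵀ
  have hdet : ∀ w, IsUnit (P * V w * Q').det := fun w => isUnit_det_of_map_ne_zero hπ (by
    have h3 : IsUnit (Q * ((P * V w).map π)ᵀ) := Matrix.linearIndependent_rows_iff_isUnit.mp (hQ w)
    rw [Matrix.isUnit_iff_isUnit_det, isUnit_iff_ne_zero, ← Matrix.det_transpose,
      Matrix.transpose_mul, Matrix.transpose_transpose] at h3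
    rwa [Matrix.map_mul, hQ'])
  have key : e = fun w => V w * Q' * (P * V w * Q')⁻¹ := funext fun w => by
    calc e w = e w * ((P * V w * Q') * (P * V w * Q')⁻¹) := by
          rw [Matrix.mul_nonsing_inv _ (hdet w), Matrix.mul_one]
      _ = (e w * (P * V w)) * Q' * (P * V w * Q')⁻¹ := by simp only [Matrix.mul_assoc]
      _ = _ := by rw [hV w]
  rw [key]
  exact (hVR.mul (EntriesIn.const Q')).mul
    ((((EntriesIn.const P).mul hVR).mul (EntriesIn.const Q')).inverse hdet)

end FLTA.Grass
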