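import Fermat.Agent.Grass.Span
import Fermat.Agent.Grass.LinAlg

/-!
# Equations of a family of subspaces given by generators
-/

set_option autoImplicit false

noncomputable section

open Matrix

namespace FLTA.Grass

variable {K : Type*} [Field K] {A : ValuationSubring K} {k : Type*} [Field k] {π : A →+* k}
  {Ω : Type*}

/-- Kernel generators, residual span form. -/
theorem exists_kernel_span [Finite Ω] [Infinite k] (hπ : Function.Surjective π)
    (Rg : Subalgebra A (Ω → A)) {a b : ℕ} (M : Ω → Matrix (Fin a) (Fin b) A)
    (hM : ∀ i j, (fun ω => M ω i j) ∈ Rg) (c : ℕ)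
    (hK : ∀ ω, ((M ω).map A.subtype).rank ≤ c) (hk : ∀ ω, c ≤ ((M ω).map π).rank) :
    ∃ (s : ℕ) (v : Fin s → Ω → Fin b → A), (∀ j i, (fun ω => v j ω i) ∈ Rg) ∧
      (∀ j ω, M ω *ᵥ v j ω = 0) ∧
      ∀ ω, Submodule.span k (Set.range fun j => π ∘ v j ω) =
        LinearMap.ker ((M ω).map π).mulVecLin := by
  obtain ⟨v, hv, h0, -, hres⟩ := exists_kernel_generators hπ M hM hK hk
  refine ⟨b, v, hv, h0, fun ω => le_antisymm (Submodule.span_le.2 ?_) fun x hx => ?_⟩
  · rintro _ ⟨j, rfl⟩
    rw [SetLike.mem_coe, LinearMap.mem_ker, Matrix.mulVecLin_apply]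
    funext t
    simpa [Matrix.mulVec, dotProduct] using congrArg π (congrFun (h0 j ω) t)
  · exact hres ω x hx

theorem finrank_ker_mulVecLin {k' : Type*} [Field k'] {a b : ℕ} (M : Matrix (Fin a) (Fin b) k') :
    M.rank + Module.finrank k' (LinearMap.ker M.mulVecLin) = b := by
  have h := LinearMap.finrank_range_add_finrank_ker M.mulVecLin
  rw [Module.finrank_fin_fun] at h
  exact h

/-- A family of subspaces generated over `Rg`, of constant rank, is cut out by equations over
`Rg`, both generically and residually. -/
theorem exists_equations [Finite Ω] [Infinite k] (hπ : Function.Surjective π) (Rg : Subalgebra A (Ω → A))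
    {s d r : ℕ} (v : Fin s → Ω → Fin d → A) (hv : ∀ j i, (fun ω => v j ω i) ∈ Rg)
    (hK : ∀ ω, Module.finrank K
      (Submodule.span K (Set.range fun j i => (v j ω i : K))) ≤ r)
    (hk : ∀ ω, r ≤ Module.finrank k (Submodule.span k (Set.range fun j => π ∘ v j ω))) :
    ∃ (m : ℕ) (E : Ω → Matrix (Fin m) (Fin d) A), (∀ t i, (fun ω => E ω t i) ∈ Rg) ∧
      (∀ ω, LinearMap.ker ((E ω).map A.subtype).mulVecLin =
        Submodule.span K (Set.range fun j i => (v j ω i : K))) ∧
      ∀ ω, LinearMap.ker ((E ω).map π).mulVecLin =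
        Submodule.span k (Set.range fun j => π ∘ v j ω) := by
  obtain ⟨m, e, he, he0, hespan⟩ := exists_kernel_span hπ Rg
    (fun ω => Matrix.of fun j i => v j ω i) hv r
    (fun ω => by
      rw [Matrix.rank_eq_finrank_span_row]
      exact hK ω)
    (fun ω => by
      rw [Matrix.rank_eq_finrank_span_row]
      exact hk ω)
  refine ⟨m, fun ω => Matrix.of fun t i => e t ω i, he, fun ω => ?_, fun ω => ?_⟩
  all_goals
    have hkr : Module.finrank k (Submodule.span k (Set.range fun j => π ∘ v j ω)) = r :=
      le_antisymm ((finrank_residual_span_le (π := π) fun j => v j ω).trans (hK ω)) (hk ω)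
    have hKr : Module.finrank K (Submodule.span K (Set.range fun j i => (v j ω i : K))) = r :=
      le_antisymm (hK ω) ((hk ω).trans (finrank_residual_span_le (π := π) fun j => v j ω))
    have hE : ((Matrix.of fun t i => e t ω i).map π).rank = d - r := by
      rw [Matrix.rank_eq_finrank_span_row]
      show Module.finrank k (Submodule.span k (Set.range fun t => π ∘ e t ω)) = d - r
      rw [hespan ω]
      have h := finrank_ker_mulVecLin ((Matrix.of fun j i => v j ω i).map π)
      rw [Matrix.rank_eq_finrank_span_row] at h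
      change Module.finrank k (Submodule.span k (Set.range fun j => π ∘ v j ω)) + _ = d at h
      omega
    have hE' : d - r ≤ ((Matrix.of fun t i => e t ω i).map A.subtype).rank := by
      rw [← hE]; exact rank_map_residual_le _
    have horth : ∀ t j, ∑ i, e t ω i * v j ω i = 0 := fun t j => by
      have h := congrFun (he0 t ω) j
      simp only [Matrix.mulVec, dotProduct, Matrix.of_apply, Pi.zero_apply] at h
      rw [← h]
      exact Finset.sum_congr rfl fun i _ => mul_comm _ _
  · symm
    refine Submodule.eq_of_le_of_finrank_le (Submodule.span_le.2 ?_) ?_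
    · rintro _ ⟨j, rfl⟩
      rw [SetLike.mem_coe, LinearMap.mem_ker, Matrix.mulVecLin_apply]
      funext t
      simpa [Matrix.mulVec, dotProduct] using congrArg (fun a : A => (a : K)) (horth t j)
    · have h := finrank_ker_mulVecLin ((Matrix.of fun t i => e t ω i).map A.subtype)
      dsimp only
      omega
  · symm
    refine Submodule.eq_of_le_of_finrank_le (Submodule.span_le.2 ?_) ?_
    · rintro _ ⟨j, rfl⟩
      rw [SetLike.mem_coe, LinearMap.mem_ker, Matrix.mulVecLin_apply]
      funext t
      simpa [Matrix.mulVec, dotProduct] using congrArg π (horth t j)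
    · have h := finrank_ker_mulVecLin ((Matrix.of fun t i => e t ω i).map π)
      dsimp only
      omega

end FLTA.Grass
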