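import Fermat.Agent.Grass.EquivFun

/-!
Integral equivariant frames of a Galois-equivariant family of subspaces.
-/

set_option autoImplicit false
set_option linter.style.haveILetI false

noncomputable section

namespace FLTA.Grass

open FLTA.HeckeDatum FLTA.HeckeDatum.Flat

local notation "Qbar" => AlgebraicClosure ℚ

/-- Every subspace has a coordinate-normalised basis with entries in a given valuation ring. -/
theorem exists_normalised_basis {K : Type*} [Field K] (A : ValuationSubring K) {d : ℕ}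
    (W : Submodule K (Fin d → K)) :
    ∃ (J : Finset (Fin d)) (b : Fin d → Fin d → K),
      (∀ j ∈ J, b j ∈ W ∧ (∀ i, b j i ∈ A) ∧ ∀ j' ∈ J, b j j' = if j' = j then 1 else 0) ∧
      ∀ x ∈ W, x = ∑ j ∈ J, x j • b j := by
  classical
  suffices h : ∀ (n : ℕ) (W : Submodule K (Fin d → K)), Module.finrank K W = n →
      ∃ (J : Finset (Fin d)) (b : Fin d → Fin d → K),
      (∀ j ∈ J, b j ∈ W ∧ (∀ i, b j i ∈ A) ∧ ∀ j' ∈ J, b j j' = if j' = j then 1 else 0) ∧
      ∀ x ∈ W, x = ∑ j ∈ J, x j • b j from h _ W rfl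
  intro n
  induction n using Nat.strong_induction_on with
  | _ n ih =>
  intro W hW
  by_cases hbot : W = ⊥
  · subst hbot
    exact ⟨∅, 0, by simp, fun x hx => by simp [(Submodule.mem_bot K).1 hx]⟩
  obtain ⟨w, hw, hw0⟩ := W.exists_mem_ne_zero_of_ne_bot hbot
  obtain ⟨i₀, hi₀⟩ : ∃ i, w i ≠ 0 := not_forall.1 fun h => hw0 (funext h)
  obtain ⟨p, -, hp⟩ := Finset.exists_max_image Finset.univ (fun i => A.valuation (w i))
    ⟨i₀, Finset.mem_univ _⟩
  have hwp : w p ≠ 0 := by
    intro h
    have := hp i₀ (Finset.mem_univ _)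
    rw [h, map_zero, le_zero_iff, Valuation.zero_iff] at this
    exact hi₀ this
  set v := (w p)⁻¹ • w with hv
  have hvW : v ∈ W := W.smul_mem _ hw
  have hvp : v p = 1 := by simp [hv, hwp]
  have hvA : ∀ i, v i ∈ A := fun i => by
    rw [← A.valuation_le_one_iff, hv, Pi.smul_apply, smul_eq_mul, map_mul, map_inv₀]
    calc (A.valuation (w p))⁻¹ * A.valuation (w i) ≤ (A.valuation (w p))⁻¹ * A.valuation (w p) :=
          mul_le_mul_of_nonneg_left (hp i (Finset.mem_univ _)) zero_le
      _ = 1 := inv_mul_cancel₀ ((Valuation.ne_zero_iff _).2 hwp)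
  let W' : Submodule K (Fin d → K) := W ⊓ LinearMap.ker (LinearMap.proj p)
  have hlt : Module.finrank K W' < n := by
    rw [← hW]
    refine Submodule.finrank_lt_finrank_of_lt (lt_of_le_of_ne inf_le_left fun h => ?_)
    have : v ∈ W' := h.symm ▸ hvW
    have h0 : v p = 0 := this.2
    exact one_ne_zero (hvp.symm.trans h0)
  obtain ⟨J, b, hb, hspan⟩ := ih _ hlt W' rfl
  have hbp : ∀ j ∈ J, b j p = 0 := fun j hj => (hb j hj).1.2
  have hpJ : p ∉ J := fun h => by simpa using ((hb p h).2.2 p h).symm.trans (hbp p h)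
  set u := v - ∑ j ∈ J, v j • b j with hu
  have huW : u ∈ W := sub_mem hvW (Submodule.sum_mem _ fun j hj => W.smul_mem _ (hb j hj).1.1)
  have hup : u p = 1 := by
    simp [hu, hvp, Finset.sum_apply, Finset.sum_eq_zero fun j hj => show v j * b j p = 0 by
      rw [hbp j hj, mul_zero]]
  have huJ : ∀ j' ∈ J, u j' = 0 := by
    intro j' hj'
    simp only [hu, Pi.sub_apply, Finset.sum_apply, Pi.smul_apply, smul_eq_mul]
    rw [Finset.sum_eq_single j']
    · rw [(hb j' hj').2.2 j' hj', if_pos rfl, mul_one, sub_self]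
    · intro j hj hne
      rw [(hb j hj).2.2 j' hj', if_neg (Ne.symm hne), mul_zero]
    · exact fun h => absurd hj' h
  refine ⟨insert p J, Function.update b p u, ?_, ?_⟩
  · intro j hj
    rcases Finset.mem_insert.1 hj with rfl | hj
    · rw [Function.update_self]
      refine ⟨huW, fun i => ?_, fun j' hj' => ?_⟩
      · simp only [hu, Pi.sub_apply, Finset.sum_apply, Pi.smul_apply, smul_eq_mul]
        exact sub_mem (hvA i) (sum_mem fun k hk => mul_mem (hvA k) ((hb k hk).2.1 i))
      · rcases Finset.mem_insert.1 hj' with h | hJ'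
        · rw [h, if_pos rfl, hup]
        · rw [if_neg, huJ j' hJ']
          rintro rfl
          exact hpJ hJ'
    · have hjp : j ≠ p := fun h => hpJ (h ▸ hj)
      rw [Function.update_of_ne hjp]
      refine ⟨(hb j hj).1.1, (hb j hj).2.1, fun j' hj' => ?_⟩
      rcases Finset.mem_insert.1 hj' with h | hj'
      · rw [h, if_neg (Ne.symm hjp), hbp j hj]
      · exact (hb j hj).2.2 j' hj'
  · intro x hx
    rw [Finset.sum_insert hpJ, Function.update_self]
    have hx' : x - x p • u ∈ W' :=
      ⟨sub_mem hx (W.smul_mem _ huW), by simp [hup]⟩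
    have hrest : ∑ j ∈ J, x j • Function.update b p u j = ∑ j ∈ J, (x - x p • u) j • b j := by
      refine Finset.sum_congr rfl fun j hj => ?_
      rw [Function.update_of_ne (fun h : j = p => hpJ (h ▸ hj))]
      simp [huJ j hj]
    rw [hrest, ← hspan _ hx']
    abel

theorem exists_unit_integralising_aux {ℓ : ℕ} (A : ValuationSubring Qbar)
    (L : IntermediateField ℚ Qbar) {x : Qbar} (hxL : x ∈ L) (hxA : x ∈ A) :
    ∀ (n : ℕ) (q : Polynomial (integralClosure (Rp ℓ) Qbar)), q.natDegree = n →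
      Polynomial.aeval x q = 0 → (∀ i, (q.coeff i : Qbar) ∈ L) →
      (∃ i, (q.coeff i : Qbar) ∉ A.nonunits) →
      ∃ s ∈ L, IsIntegral (Rp ℓ) s ∧ s⁻¹ ∈ A ∧ s ≠ 0 ∧ IsIntegral (Rp ℓ) (s * x) := by
  let S : Subalgebra (Rp ℓ) Qbar := integralClosure (Rp ℓ) Qbar
  intro n
  induction n using Nat.strong_induction_on with
  | _ n ih =>
  intro q hdeg hroot hL hunit
  obtain ⟨k, hk⟩ := hunit
  have hq0 : q ≠ 0 := by
    rintro rfl
    simp [ValuationSubring.mem_nonunits_iff] at hk
  set c : S := q.leadingCoeff with hc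
  have hcx : IsIntegral (Rp ℓ) ((c : Qbar) * x) := by
    have h : IsIntegral S (c • x) :=
      RingHom.isIntegralElem_leadingCoeff_mul (f := algebraMap S Qbar) q x hroot
    exact isIntegral_trans _ h
  by_cases hcu : (c : Qbar) ∈ A.nonunits
  swap
  · have hc0 : (c : Qbar) ≠ 0 := fun h => hcu (by rw [h, ValuationSubring.mem_nonunits_iff, map_zero]; exact zero_lt_one)
    refine ⟨c, hL _, c.2, ?_, hc0, hcx⟩
    rw [← A.valuation_le_one_iff, map_inv₀]
    refine inv_le_one_of_one_le₀ ?_
    simpa [ValuationSubring.mem_nonunits_iff] using hcu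
  have hn : n ≠ 0 := by
    rintro rfl
    rw [Polynomial.eq_C_of_natDegree_eq_zero hdeg, Polynomial.aeval_C] at hroot
    apply hq0
    have h0 : q.coeff 0 = 0 := Subtype.ext (hroot.trans (ZeroMemClass.coe_zero _).symm)
    rw [Polynomial.eq_C_of_natDegree_eq_zero hdeg, h0]
    exact map_zero _
  set d : S := ⟨(c : Qbar) * x, hcx⟩ with hd
  set q' : Polynomial S := q.eraseLead + Polynomial.monomial (n - 1) d with hq'
  have hdeg' : q'.natDegree < n := by
    refine lt_of_le_of_lt (Polynomial.natDegree_add_le _ _) (max_lt ?_ ?_)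
    · have := q.eraseLead_natDegree_le; omega
    · exact lt_of_le_of_lt (Polynomial.natDegree_monomial_le _) (by omega)
  refine ih _ hdeg' q' rfl ?_ (fun i => ?_) ?_
  · rw [hq', map_add, Polynomial.aeval_monomial, ← Polynomial.self_sub_monomial_natDegree_leadingCoeff,
      map_sub, Polynomial.aeval_monomial, hroot, hdeg, ← hc,
      show (algebraMap S Qbar) d = algebraMap S Qbar c * x from rfl, mul_assoc, ← pow_succ',
      Nat.sub_add_cancel (Nat.one_le_iff_ne_zero.2 hn)]
    ring
  · rw [hq', Polynomial.coeff_add, Polynomial.eraseLead_coeff, Polynomial.coeff_monomial, Subalgebra.coe_add]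
    refine add_mem ?_ ?_
    · split_ifs
      · exact zero_mem L
      · exact hL i
    · split_ifs
      · exact mul_mem (hL _) hxL
      · exact zero_mem L
  · refine ⟨k, ?_⟩
    have hkn : k ≠ n := by
      rintro rfl
      apply hk
      rwa [hc, Polynomial.leadingCoeff, hdeg] at hcu
    rw [hq', Polynomial.coeff_add, Polynomial.eraseLead_coeff, Polynomial.coeff_monomial, Subalgebra.coe_add,
      if_neg (hdeg ▸ hkn)]
    intro hmem
    apply hk
    have hdn : ((if n - 1 = k then d else 0 : S) : Qbar) ∈ A.nonunits := by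
      rw [ValuationSubring.mem_nonunits_iff]
      split_ifs
      · show A.valuation ((c : Qbar) * x) < 1
        rw [map_mul]
        exact lt_of_le_of_lt (mul_le_of_le_one_right' ((A.valuation_le_one_iff _).2 hxA)) hcu
      · simp
    rw [ValuationSubring.mem_nonunits_iff] at hmem hdn ⊢
    have := lt_of_le_of_lt (Valuation.map_sub _ _ _) (max_lt hmem hdn)
    rwa [add_sub_cancel_right] at this

/-- An element of a number field lying in `A` has a multiple by a unit of `A` from the same field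
which is integral over `ℤ₍ℓ₎`. -/
theorem exists_unit_integralising {ℓ : ℕ} (hℓ : ℓ.Prime) (A : ValuationSubring Qbar)
    (hA : A.LiesOverPrime ℓ) (L : IntermediateField ℚ Qbar) {x : Qbar} (hxL : x ∈ L) (hxA : x ∈ A) :
    ∃ s ∈ L, IsIntegral (Rp ℓ) s ∧ s⁻¹ ∈ A ∧ s ≠ 0 ∧ IsIntegral (Rp ℓ) (s * x) := by
  haveI := isFractionRing ℓ
  let S : Subalgebra (Rp ℓ) Qbar := integralClosure (Rp ℓ) Qbar
  have key := exists_unit_integralising_aux (ℓ := ℓ) A L hxL hxA
  haveI : Algebra.IsAlgebraic ℚ Qbar := AlgebraicClosure.isAlgebraic ℚ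
  have halg : IsAlgebraic ℤ x :=
    (IsFractionRing.isAlgebraic_iff ℤ ℚ Qbar).2 (Algebra.IsAlgebraic.isAlgebraic x)
  obtain ⟨q, hq0, hqx⟩ := halg
  have hqp : Polynomial.aeval x q.primPart = 0 :=
    Polynomial.aeval_primPart_eq_zero hq0 hqx
  obtain ⟨i, hi⟩ : ∃ i, ¬ (ℓ : ℤ) ∣ q.primPart.coeff i := by
    by_contra h
    push Not at h
    have hu : IsUnit (ℓ : ℤ) := q.isPrimitive_primPart _ ((Polynomial.C_dvd_iff_dvd_coeff _ _).2 h)
    exact hℓ.ne_one (by simpa [Int.isUnit_iff_natAbs_eq] using hu)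
  refine key _ (q.primPart.map (Int.castRingHom S)) rfl ?_ (fun j => ?_) ⟨i, ?_⟩
  · rw [Polynomial.aeval_def, Polynomial.eval₂_map,
      RingHom.ext_int ((algebraMap S Qbar).comp (Int.castRingHom S)) (algebraMap ℤ Qbar)]
    exact hqp
  · rw [Polynomial.coeff_map]
    simpa using intCast_mem L (q.primPart.coeff j)
  · rw [Polynomial.coeff_map]
    set z := q.primPart.coeff i
    have hz : z.natAbs.Coprime ℓ :=
      (hℓ.coprime_iff_not_dvd.2 fun h => hi (Int.natCast_dvd.2 h)).symm
    have hzinv : (z : Qbar)⁻¹ ∈ A := by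
      rcases Int.natAbs_eq z with h | h <;> rw [h]
      · rw [Int.cast_natCast]; exact inv_natCast_mem hℓ hA hz
      · rw [Int.cast_neg, Int.cast_natCast, inv_neg]; exact neg_mem (inv_natCast_mem hℓ hA hz)
    have hz0 : (z : Qbar) ≠ 0 := by
      intro h
      rw [Int.cast_eq_zero] at h
      exact hi (h ▸ dvd_zero _)
    intro hmem
    rw [ValuationSubring.mem_nonunits_iff] at hmem
    have : A.valuation ((z : Qbar) * (z : Qbar)⁻¹) < 1 := by
      rw [map_mul]
      refine lt_of_le_of_lt (mul_le_of_le_one_right' ((A.valuation_le_one_iff _).2 hzinv)) ?_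
      simpa using hmem
    rw [mul_inv_cancel₀ hz0, map_one] at this
    exact lt_irrefl _ this

/-- A Galois-equivariant family of subspaces of `Qbar^d` over a smooth finite Galois set has
finitely many integral equivariant sections which, at each point, span the lattice of vectors with
entries in `A`. -/
theorem exists_integral_sections {ℓ : ℕ} [Fact ℓ.Prime] {T' : Type} [Finite T']
    (act' : GalQ →* Equiv.Perm T') (hsm : IsSmoothAct act') {d : ℕ}
    (M : T' → Submodule Qbar (Fin d → Qbar))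
    (hM : ∀ (σ : GalQ) t, ∀ v ∈ M t, (fun i => σ (v i)) ∈ M (act' σ t))
    (A : ValuationSubring Qbar) (hA : A.LiesOverPrime ℓ) :
    ∃ (s : ℕ) (v : Fin s → T' → Fin d → Qbar),
      (∀ j i, (fun t => v j t i) ∈ intFun ℓ act') ∧ (∀ j t, v j t ∈ M t) ∧
      ∀ t, ∀ x ∈ M t, (∀ i, x i ∈ A) →
        ∃ c : Fin s → A, ∀ i, x i = ∑ j, (c j : Qbar) * v j t i := by
  classical
  haveI := Fintype.ofFinite T'
  have hℓ : ℓ.Prime := Fact.out
  choose J b hb hspan using fun t => exists_normalised_basis A (M t)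
  -- the normalised basis is fixed by the stabiliser
  have hfix : ∀ t, ∀ j ∈ J t, ∀ σ : GalQ, act' σ t = t → ∀ i, σ (b t j i) = b t j i := by
    intro t j hj σ hσ i
    have hmem : (fun i => σ (b t j i)) ∈ M t := by
      have := hM σ t _ (hb t j hj).1
      rwa [hσ] at this
    have h := congrFun (hspan t _ hmem) i
    simp only [Finset.sum_apply, Pi.smul_apply, smul_eq_mul] at h
    rw [Finset.sum_eq_single j, (hb t j hj).2.2 j hj, if_pos rfl, map_one, one_mul] at h
    · exact h
    · intro k hk hkj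
      rw [(hb t j hj).2.2 k hk, if_neg hkj, map_zero, zero_mul]
    · exact fun h' => absurd hj h'
  choose L hfd hL using hsm
  let Fx : T' → IntermediateField ℚ Qbar := fun t =>
    IntermediateField.fixedField
      (Subgroup.comap act' (MulAction.stabilizer (Equiv.Perm T') t))
  have hFx : ∀ t a, a ∈ Fx t ↔ ∀ σ : GalQ, act' σ t = t → σ a = a := fun t a =>
    IntermediateField.mem_fixedField_iff _ _
  have hscale : ∀ t, ∀ j ∈ J t, ∀ i, ∃ s ∈ Fx t, IsIntegral (Rp ℓ) s ∧ s⁻¹ ∈ A ∧ s ≠ 0 ∧
      IsIntegral (Rp ℓ) (s * b t j i) := fun t j hj i =>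
    exists_unit_integralising hℓ A hA (Fx t) ((hFx t _).2 fun σ hσ => hfix t j hj σ hσ i)
      ((hb t j hj).2.1 i)
  choose! sc hscF hscI hscA hsc0 hscb using hscale
  let S : T' → Fin d → Qbar := fun t j => ∏ i, sc t j i
  have hSb : ∀ t, ∀ j ∈ J t, ∀ i, IsIntegral (Rp ℓ) (S t j * b t j i) := by
    intro t j hj i
    have : S t j * b t j i = (∏ k ∈ Finset.univ.erase i, sc t j k) * (sc t j i * b t j i) := by
      rw [← mul_assoc, Finset.prod_erase_mul _ _ (Finset.mem_univ i)]
    rw [this]
    exact (IsIntegral.prod _ fun k _ => hscI t j hj k).mul (hscb t j hj i)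
  have hext : ∀ (t : T') (j : Fin d), ∃ f : T' → Fin d → Qbar,
      (∀ i, (fun u => f u i) ∈ intFun ℓ act') ∧ (∀ u, f u ∈ M u) ∧
      (j ∈ J t → f t = S t j • b t j) := by
    intro t j
    by_cases hj : j ∈ J t
    swap
    · exact ⟨0, fun i => Subalgebra.zero_mem _, fun u => Submodule.zero_mem _, fun h => absurd h hj⟩
    have hgfix : ∀ i, ∀ σ : GalQ, act' σ t = t → σ (S t j * b t j i) = S t j * b t j i := by
      intro i σ hσ
      rw [map_mul, hfix t j hj σ hσ i, map_prod,
        Finset.prod_congr rfl fun k _ => (hFx t _).1 (hscF t j hj k) σ hσ]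
    choose f hfe hfo hf0 using fun i => exists_equivariant_extension (act := act') t _ (hgfix i)
    refine ⟨fun u i => f i u, fun i => ⟨hfe i, fun u => ?_⟩, fun u => ?_, fun _ => funext fun i => ?_⟩
    · show IsIntegral (Rp ℓ) (f i u)
      by_cases h : ∃ σ : GalQ, act' σ t = u
      · obtain ⟨σ, rfl⟩ := h
        rw [hfo]
        exact (hSb t j hj i).map (galHom ℓ σ)
      · rw [hf0 i u (not_exists.1 h)]; exact isIntegral_zero
    · by_cases h : ∃ σ : GalQ, act' σ t = u
      · obtain ⟨σ, rfl⟩ := h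
        have := hM σ t _ ((M t).smul_mem (S t j) (hb t j hj).1)
        convert this using 1
        funext i
        simp [hfo]
      · convert (M u).zero_mem using 1
        funext i
        exact hf0 i u (not_exists.1 h)
    · have := hfo i 1
      rw [act_one_apply] at this
      simpa using this
  choose f hfI hfM hft using hext
  let e := Fintype.equivFin (T' × Fin d)
  refine ⟨_, fun k u => f (e.symm k).1 (e.symm k).2 u, fun k i => hfI _ _ i, fun k u => hfM _ _ u, ?_⟩
  intro t x hx hxA
  have hSinv : ∀ j ∈ J t, (S t j)⁻¹ ∈ A := fun j hj => by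
    rw [← Finset.prod_inv_distrib]
    exact prod_mem fun k _ => hscA t j hj k
  let c : T' × Fin d → A := fun q =>
    if h : q.1 = t ∧ q.2 ∈ J t then ⟨x q.2 * (S t q.2)⁻¹, mul_mem (hxA _) (hSinv _ h.2)⟩ else 0
  refine ⟨fun k => c (e.symm k), fun i => ?_⟩
  rw [e.symm.sum_comp fun q => (c q : Qbar) * f q.1 q.2 t i, Fintype.sum_prod_type,
    Finset.sum_eq_single t, ← Finset.sum_subset (Finset.subset_univ (J t))]
  · conv_lhs => rw [hspan t x hx]
    simp only [Finset.sum_apply, Pi.smul_apply, smul_eq_mul]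
    refine Finset.sum_congr rfl fun j hj => ?_
    simp only [c, dif_pos (And.intro rfl hj), hft t j hj, Pi.smul_apply, smul_eq_mul]
    rw [mul_assoc, inv_mul_cancel_left₀ (Finset.prod_ne_zero_iff.2 fun k _ => hsc0 t j hj k)]
  · intro j _ hj
    simp [c, hj]
  · intro u _ hu
    exact Finset.sum_eq_zero fun j _ => by simp [c, hu]
  · simp

end FLTA.Grass

end
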