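import Fermat.Agent.Grass.CurveLemmas
import Fermat.Agent.Grass.Equations

/-!
# Families of Riemann-Roch spaces defined over a ring of functions

`C.GenAt Rg N E`: the spaces `L (E ω)` inside `L (N • inf)` are generated, after reduction, by
integral sections whose coordinate functions lie in `Rg`.
-/

set_option autoImplicit false

noncomputable section

open AlgebraicCurve

namespace FLTA.Grass

variable {K : Type*} [Field K] {A : ValuationSubring K} {k : Type*} [Field k] {π : A →+* k}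
  {F : Type*} [Field F] [Algebra K F] {F' : Type*} [Field F'] [Algebra k F'] {g : ℕ}
  {Ω : Type*}

namespace Ctx

variable (C : Ctx A π F F' g)

local notation "L" => riemannRochSpace

/-- The dimensions of `L D` and of its reduction agree. -/
def Full (D : Divisor K F) : Prop :=
  Module.finrank k (L (C.rDiv D)) = Module.finrank K (L D)

/-- The family `E` is generated over `Rg` at level `N`. -/
def GenAt (Rg : Subalgebra A (Ω → A)) (N : ℕ) (E : Ω → Divisor K F) : Prop :=
  (∀ ω, E ω ≤ C.infDiv N) ∧ (∀ ω, C.Full (E ω)) ∧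
    ∃ (s : ℕ) (v : Fin s → Ω → Fin (C.dimInf N) → A),
      (∀ j i, (fun ω => v j ω i) ∈ Rg) ∧ (∀ j ω, (C.vec N (v j ω) : F) ∈ L (E ω)) ∧
        ∀ ω, Submodule.span k (Set.range fun j => C.R.red (C.vec N (v j ω))) = L (C.rDiv (E ω))

theorem full_of_degree {D : Divisor K F} (hD : 2 * (g : ℤ) - 1 ≤ Divisor.degree D) : C.Full D :=
  C.finrank_rDiv_eq hD

theorem degree_infDiv (n : ℤ) : Divisor.degree (C.infDiv n) = n := by
  simp [infDiv, C.rrK.deg_eq_one]

theorem infDiv_mono {a b : ℤ} (h : a ≤ b) : C.infDiv a ≤ C.infDiv b := Finsupp.single_le_single.2 h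

theorem infDiv_add (a b : ℤ) : C.infDiv (a + b) = C.infDiv a + C.infDiv b := Finsupp.single_add ..

theorem riemannRochSpace_le_range_vecK {N : ℕ} {D : Divisor K F} (h : D ≤ C.infDiv N) :
    L D ≤ LinearMap.range (C.vecK N) := by
  rw [vecK, Fintype.range_linearCombination, C.bas_span]
  exact FLTA.Curves.riemannRochSpace_mono h

theorem range_vecBar {N : ℕ} (hN : 2 * (g : ℤ) - 1 ≤ N) :
    LinearMap.range (C.vecBar N) = L (C.rDiv (C.infDiv N)) := by
  have h : 2 * (g : ℤ) - 1 ≤ Divisor.degree (C.infDiv N) := by rwa [C.degree_infDiv]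
  have := C.rrk.finiteDimensional (C.rDiv (C.infDiv N))
  refine Submodule.eq_of_le_of_finrank_le ?_ ?_
  · rw [vecBar, Fintype.range_linearCombination, Submodule.span_le]
    rintro _ ⟨i, rfl⟩
    exact C.red_mem (D := C.infDiv N) (by rw [infDiv, ← C.bas_span]; exact Submodule.subset_span ⟨i, rfl⟩)
  · rw [C.finrank_rDiv_eq h, LinearMap.finrank_range_of_inj (C.vecBar_injective N)]
    rw [infDiv, ← C.bas_span, finrank_span_eq_card (C.linearIndependent_bas N),
      Module.finrank_fin_fun, Fintype.card_fin]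

/-- Coordinates of the product of two basis elements. -/
theorem exists_mulTable {Q N W : ℕ} (h : Q + N ≤ W) :
    ∃ T : Fin (C.dimInf Q) → Fin (C.dimInf N) → Fin (C.dimInf W) → A,
      ∀ i l, C.vec W (T i l) = C.bas Q i * C.bas N l := by
  choose T hT using fun (p : Fin (C.dimInf Q) × Fin (C.dimInf N)) =>
    C.exists_vec_eq W (C.bas Q p.1 * C.bas N p.2) <| by
      apply FLTA.Curves.riemannRochSpace_mono (C.infDiv_mono (a := (Q : ℤ) + N) (by exact_mod_cast h))
      rw [C.infDiv_add]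
      push_cast
      exact FLTA.Curves.mul_mem_riemannRochSpace
        (by rw [infDiv, ← C.bas_span]; exact Submodule.subset_span ⟨p.1, rfl⟩)
        (by rw [infDiv, ← C.bas_span]; exact Submodule.subset_span ⟨p.2, rfl⟩)
  exact ⟨fun i l => T (i, l), fun i l => hT (i, l)⟩

/-- Coordinates of the basis of a smaller level. -/
theorem exists_raise {N W : ℕ} (h : N ≤ W) :
    ∃ P : Fin (C.dimInf N) → Fin (C.dimInf W) → A, ∀ i, C.vec W (P i) = C.bas N i := by
  choose P hP using fun i : Fin (C.dimInf N) => C.exists_vec_eq W (C.bas N i) <|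
    FLTA.Curves.riemannRochSpace_mono (C.infDiv_mono (a := (N : ℤ)) (by exact_mod_cast h))
      (by rw [infDiv, ← C.bas_span]; exact Submodule.subset_span ⟨i, rfl⟩)
  exact ⟨P, hP⟩

theorem vec_sum {ι : Type*} (s : Finset ι) (W : ℕ) (c : ι → A)
    (x : ι → Fin (C.dimInf W) → A) :
    C.vec W (fun l => ∑ i ∈ s, c i * x i l) = ∑ i ∈ s, C.scal (c i) * C.vec W (x i) := by
  simp only [vec, map_sum, map_mul, Finset.sum_mul, Finset.mul_sum, mul_assoc]
  exact Finset.sum_comm

theorem genAt_mono {Rg : Subalgebra A (Ω → A)} {N W : ℕ} {E : Ω → Divisor K F} (hNW : N ≤ W)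
    (h : C.GenAt Rg N E) : C.GenAt Rg W E := by
  obtain ⟨hle, hfull, s, v, hv, hmem, hspan⟩ := h
  obtain ⟨P, hP⟩ := C.exists_raise hNW
  have key : ∀ j ω, C.vec W (fun l => ∑ i, v j ω i * P i l) = C.vec N (v j ω) := fun j ω => by
    rw [C.vec_sum]; simp only [hP]; rfl
  refine ⟨fun ω => (hle ω).trans (C.infDiv_mono (by exact_mod_cast hNW)), hfull, s,
    fun j ω l => ∑ i, v j ω i * P i l, fun j l => ?_, fun j ω => by rw [key]; exact hmem j ω,
    fun ω => by simp only [key]; exact hspan ω⟩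
  have : (fun ω => ∑ i, v j ω i * P i l) = ∑ i, (fun ω => v j ω i) * algebraMap A (Ω → A) (P i l) := by
    funext ω; simp
  rw [this]
  exact Subalgebra.sum_mem _ fun i _ => Subalgebra.mul_mem _ (hv j i) (Subalgebra.algebraMap_mem _ _)

theorem genAt_const (Rg : Subalgebra A (Ω → A)) {N : ℕ} {D : Divisor K F} (hD : D ≤ C.infDiv N)
    (hfull : C.Full D) : C.GenAt Rg N fun _ => D := by
  have := C.rrk.finiteDimensional (C.rDiv D)
  let b := Module.finBasis k (L (C.rDiv D))
  choose u humem hured using fun j => C.exists_red_eq hfull (b j).2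
  choose x hx using fun j => C.exists_vec_eq N (u j)
    (FLTA.Curves.riemannRochSpace_mono hD (humem j))
  refine ⟨fun _ => hD, fun _ => hfull, _, fun j _ => x j, fun j i => ?_,
    fun j _ => (hx j).symm ▸ humem j, fun _ => ?_⟩
  · exact Subalgebra.algebraMap_mem Rg (x j i)
  · simp only [hx, hured]
    show Submodule.span k (Set.range ((L (C.rDiv D)).subtype ∘ b)) = _
    rw [Set.range_comp, Submodule.span_image, b.span_eq,
      Submodule.map_top, Submodule.range_subtype]

/-- A combination of generators with nonzero reduction at every point. -/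
theorem exists_primitive [Finite Ω] {Rg : Subalgebra A (Ω → A)} {N : ℕ} {E : Ω → Divisor K F}
    (h : C.GenAt Rg N E) (hpos : ∀ ω, 0 < Module.finrank K (L (E ω))) :
    ∃ u : Ω → Fin (C.dimInf N) → A, (∀ i, (fun ω => u ω i) ∈ Rg) ∧
      ∀ ω, (C.vec N (u ω) : F) ∈ L (E ω) ∧ C.R.red (C.vec N (u ω)) ≠ 0 := by
  obtain ⟨-, hfull, s, v, hv, hmem, hspan⟩ := h
  have := C.infinite_k
  let φ : Ω → ((Fin s → k) →ₗ[k] F') := fun ω =>
    Fintype.linearCombination k fun j => C.R.red (C.vec N (v j ω))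
  have hφ : ∀ ω, LinearMap.ker (φ ω) ≠ ⊤ := fun ω h0 => by
    have hr : LinearMap.range (φ ω) = L (C.rDiv (E ω)) := by
      simp only [φ, Fintype.range_linearCombination, hspan ω]
    rw [LinearMap.ker_eq_top.1 h0, LinearMap.range_zero] at hr
    have h1 := hfull ω
    rw [Full, ← hr, finrank_bot] at h1
    exact (hpos ω).ne' h1.symm
  obtain ⟨cbar, hc⟩ := Submodule.exists_forall_notMem_of_forall_ne_top _ hφ
  choose c hcπ using fun j => C.R.π_surjective (cbar j)
  have key : ∀ ω, C.vec N (fun i => ∑ j, c j * v j ω i) = ∑ j, C.scal (c j) * C.vec N (v j ω) :=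
    fun ω => C.vec_sum _ _ _ _
  refine ⟨fun ω i => ∑ j, c j * v j ω i, fun i => ?_, fun ω => ⟨?_, ?_⟩⟩
  · have : (fun ω => ∑ j, c j * v j ω i) = ∑ j, algebraMap A (Ω → A) (c j) * fun ω => v j ω i := by
      funext ω; simp
    rw [this]
    exact Subalgebra.sum_mem _ fun j _ => Subalgebra.mul_mem _ (Subalgebra.algebraMap_mem _ _) (hv j i)
  · rw [key, AddSubmonoidClass.coe_finset_sum]
    refine Submodule.sum_mem _ fun j _ => ?_
    rw [MulMemClass.coe_mul, coe_scal, ← Algebra.smul_def]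
    exact Submodule.smul_mem _ _ (hmem j ω)
  · rw [key]
    have h1 := hc ω
    rw [LinearMap.mem_ker, Fintype.linearCombination_apply] at h1
    simpa [map_sum, map_mul, C.red_scal, hcπ, Algebra.smul_def] using h1

/-- Twist by a primitive function. -/
theorem genAt_twist {Rg : Subalgebra A (Ω → A)} {Q N W : ℕ} {E : Ω → Divisor K F}
    (hW : Q + N ≤ W) (h : C.GenAt Rg N E) (u : Ω → Fin (C.dimInf Q) → A)
    (hu : ∀ i, (fun ω => u ω i) ∈ Rg) (hu0 : ∀ ω, C.R.red (C.vec Q (u ω)) ≠ 0)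
    (P : Ω → Divisor K F) (hP : ∀ ω w, P ω w = w.ord (C.vec Q (u ω) : F)) :
    C.GenAt Rg W fun ω => E ω - P ω := by
  obtain ⟨hle, hfull, s, v, hv, hmem, hspan⟩ := h
  obtain ⟨T, hT⟩ := C.exists_mulTable hW
  have hne : ∀ ω, (C.vec Q (u ω) : F) ≠ 0 := fun ω h0 => hu0 ω <| by
    rw [show C.vec Q (u ω) = 0 from Subtype.ext h0, map_zero]
  have hPr : ∀ ω w, C.rDiv (P ω) w = w.ord (C.R.red (C.vec Q (u ω))) := fun ω w =>
    C.isPlaceMap _ (hu0 ω) _ (hP ω) w
  have hprin : ∀ ω, E ω - (E ω - P ω) ∈ Divisor.principal (K := K) (F := F) := fun ω => by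
    rw [sub_sub_cancel]; exact ⟨_, hne ω, hP ω⟩
  have key : ∀ j ω, C.vec W (fun m => ∑ p : Fin _ × Fin _, u ω p.1 * v j ω p.2 * T p.1 p.2 m) =
      C.vec Q (u ω) * C.vec N (v j ω) := fun j ω => by
    rw [C.vec_sum, Fintype.sum_prod_type, vec, vec, Finset.sum_mul_sum]
    simp only [hT, map_mul, mul_mul_mul_comm]
  refine ⟨fun ω => ?_, fun ω => ?_, s,
    fun j ω m => ∑ p : Fin _ × Fin _, u ω p.1 * v j ω p.2 * T p.1 p.2 m,
    fun j m => ?_, fun j ω => ?_, fun ω => ?_⟩
  · refine Finsupp.le_def.2 fun w => ?_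
    have h1 := (mem_riemannRochSpace_iff.1 (C.coe_vec_mem Q (u ω)) w).resolve_left (hne ω)
    have h2 := Finsupp.le_def.1 (hle ω) w
    have h3 := Finsupp.le_def.1 (C.infDiv_mono (a := (Q : ℤ) + N) (b := W) (by exact_mod_cast hW)) w
    rw [Finsupp.sub_apply, hP ω w]
    rw [C.infDiv_add, Finsupp.add_apply] at h3
    omega
  · unfold Full
    rw [← finrank_congr_of_sub_mem_principal C.rrk (D := C.rDiv (E ω)) (by
        rw [← map_sub]; exact C.rDiv_mem_principal (hprin ω)),
      ← finrank_congr_of_sub_mem_principal C.rrK (hprin ω)]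
    exact hfull ω
  · have : (fun ω => ∑ p : Fin _ × Fin _, u ω p.1 * v j ω p.2 * T p.1 p.2 m) =
        ∑ p : Fin _ × Fin _, (fun ω => u ω p.1) * (fun ω => v j ω p.2) *
          algebraMap A (Ω → A) (T p.1 p.2 m) := by
      funext ω; simp
    rw [this]
    exact Subalgebra.sum_mem _ fun p _ => Subalgebra.mul_mem _
      (Subalgebra.mul_mem _ (hu _) (hv _ _)) (Subalgebra.algebraMap_mem _ _)
  · rw [key, MulMemClass.coe_mul]
    exact (mul_mem_sub_div_iff (hne ω) (hP ω)).2 (hmem j ω)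
  · simp only [key, map_mul]
    show Submodule.span k (Set.range (LinearMap.mulLeft k (C.R.red (C.vec Q (u ω))) ∘
      fun j => C.R.red (C.vec N (v j ω)))) = _
    rw [Set.range_comp, Submodule.span_image, hspan ω]
    ext f
    rw [Submodule.mem_map, map_sub]
    constructor
    · rintro ⟨a, ha, rfl⟩
      exact (mul_mem_sub_div_iff (hu0 ω) (hPr ω)).2 ha
    · intro hf
      refine ⟨(C.R.red (C.vec Q (u ω)))⁻¹ * f, (mul_mem_sub_div_iff (hu0 ω) (hPr ω)).1 ?_, ?_⟩
      · rwa [mul_inv_cancel_left₀ (hu0 ω)]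
      · simp [mul_inv_cancel_left₀ (hu0 ω)]

end Ctx

end FLTA.Grass
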