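import Fermat.Agent.Grass.ModularDescent
import Fermat.Agent.PlaceRed.GaussModular
import Fermat.Agent.PlaceRed.GaussIsGauss
import Fermat.Agent.Curves.BasicOrdExtra

/-!
# The cusp `∞` and Galois fixed integral bases
-/

set_option autoImplicit false
set_option synthInstance.maxHeartbeats 400000

noncomputable section

open AlgebraicCurve ModularCurve WithZero HahnSeries
open scoped Pointwise

namespace FLTA.Grass

local notation "Qbar" => AlgebraicClosure ℚ

section Infty

variable (N : ℕ) [NeZero N]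

/-- The order of the `q`-expansion as a valuation. -/
def qVal : Valuation (modularFunctionFieldBar N) ℤᵐ⁰ :=
  (Valued.v : Valuation (LaurentSeries Qbar) ℤᵐ⁰).comap (modularFunctionFieldBar N).val.toRingHom

theorem qVal_le_exp_iff (D : ℤ) (f : modularFunctionFieldBar N) :
    qVal N f ≤ exp (-D) ↔ ∀ n : ℤ, n < D → (f : LaurentSeries Qbar).coeff n = 0 :=
  LaurentSeries.valuation_le_iff_coeff_lt_eq_zero Qbar

theorem qVal_algebraMap_le (a : Qbar) : qVal N (algebraMap Qbar _ a) ≤ 1 := by
  rw [← exp_zero, show exp (0 : ℤ) = exp (-0 : ℤ) by rw [neg_zero], qVal_le_exp_iff]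
  intro n hn
  show (algebraMap Qbar (LaurentSeries Qbar) a).coeff n = 0
  rw [algebraMap_laurentSeries_eq_single, HahnSeries.coeff_single_of_ne (ne_of_lt hn)]

/-- The element `j`. -/
def jBar : modularFunctionFieldBar N :=
  ⟨coeffEmb Qbar (qExpand ℚ 1 jq), coeffEmb_mem_laurentBaseChange _ (jqd_mem_full N (one_dvd N))⟩

theorem qVal_jBar : qVal N (jBar N) = exp (1 : ℤ) := by
  have hc : ∀ n, ((jBar N : modularFunctionFieldBar N) : LaurentSeries Qbar).coeff n =
      algebraMap ℚ Qbar (jq.coeff n) := fun n => by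
    show (coeffEmb Qbar (qExpand ℚ 1 jq)).coeff n = _
    rw [qExpand_one_apply, coeffEmb_coeff]
  have hle : qVal N (jBar N) ≤ exp (-(-1) : ℤ) := by
    rw [qVal_le_exp_iff]
    intro n hn
    rw [hc, coeff_jq_of_lt hn, map_zero]
  have hnle : ¬ qVal N (jBar N) ≤ exp (-0 : ℤ) := by
    rw [qVal_le_exp_iff]
    intro h
    have := h (-1) (by norm_num)
    rw [hc, coeff_jq_neg_one, map_one] at this
    exact one_ne_zero this
  have hne : qVal N (jBar N) ≠ 0 := fun h => hnle (h ▸ zero_le)
  obtain ⟨m, hm⟩ : ∃ m : ℤ, qVal N (jBar N) = exp m :=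
    ⟨log (qVal N (jBar N)), (exp_log hne).symm⟩
  rw [hm, exp_le_exp] at hle hnle
  rw [hm, exp_inj]
  omega

/-- The cusp `∞`. -/
def infPlace : Place Qbar (modularFunctionFieldBar N) :=
  FLTA.Curves.ofValuation (qVal N) (qVal_algebraMap_le N)
    ⟨(jBar N)⁻¹, by rw [map_inv₀, qVal_jBar, ← exp_neg]⟩

theorem smul_infPlace (σ : Qbar ≃ₐ[ℚ] Qbar) :
    arithmeticGalois (modularFunctionFieldFull N) σ • infPlace N = infPlace N := by
  have key : ∀ (τ : Qbar ≃ₐ[ℚ] Qbar) (f : modularFunctionFieldBar N),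
      qVal N f ≤ 1 → qVal N (arithmeticGalois (modularFunctionFieldFull N) τ • f) ≤ 1 := by
    intro τ f hf
    rw [← exp_zero, show exp (0 : ℤ) = exp (-0 : ℤ) by rw [neg_zero], qVal_le_exp_iff] at hf ⊢
    intro n hn
    rw [coe_arithmeticGalois_smul, coeffMap_coeff, hf n hn, map_zero]
  apply Place.ext
  refine SetLike.ext fun f => ?_
  show f ∈ arithmeticGalois (modularFunctionFieldFull N) σ • (qVal N).valuationSubring ↔
    f ∈ (qVal N).valuationSubring
  rw [ValuationSubring.mem_pointwise_smul_iff_inv_smul_mem, Valuation.mem_valuationSubring_iff,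
    Valuation.mem_valuationSubring_iff, ← map_inv]
  refine ⟨fun h => ?_, key σ⁻¹ f⟩
  have := key σ _ h
  rwa [map_inv, smul_inv_smul] at this

end Infty

section Basis

variable {A : ValuationSubring Qbar} {k : Type} [Field k] {π : A →+* k} {N : ℕ} [NeZero N]
  (hπ : Function.Surjective π) (hN : (N : k) ≠ 0)

/-- The residue field of the place of `ℚ` below `A`. -/
def ratPlace (A : ValuationSubring Qbar) : ValuationSubring ℚ := A.comap (algebraMap ℚ Qbar)

/-- Inclusion of the place below. -/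
def ratPlaceHom (A : ValuationSubring Qbar) : ratPlace A →+* A :=
  ((algebraMap ℚ Qbar).comp (ratPlace A).subtype).codRestrict A fun x => x.2

/-- The inclusion, linear for the coefficientwise module structure. -/
def coeLin (N : ℕ) : modularFunctionFieldBar N →ₗ[Qbar] LaurentSeries Qbar where
  toFun f := (f : LaurentSeries Qbar)
  map_add' _ _ := rfl
  map_smul' c f := by
    rw [RingHom.id_apply, ← FLTA.PlaceRed.algebraMap_mul_eq_smul, Algebra.smul_def]
    rfl

include hπ in
theorem exists_fixed_basis (W : Submodule Qbar (modularFunctionFieldBar N))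
    [FiniteDimensional Qbar W]
    (hW : ∀ (σ : Qbar ≃ₐ[ℚ] Qbar), ∀ f ∈ W,
      arithmeticGalois (modularFunctionFieldFull N) σ • f ∈ W) :
    ∃ (n : ℕ) (b : Fin n → (FLTA.PlaceRed.gaussRed N hπ hN).O),
      Submodule.span Qbar (Set.range fun i => (b i : modularFunctionFieldBar N)) = W ∧
        (LinearIndependent k fun i => (FLTA.PlaceRed.gaussRed N hπ hN).red (b i)) ∧
        ∀ (σ : Qbar ≃ₐ[ℚ] Qbar) i, arithmeticGalois (modularFunctionFieldFull N) σ •
          (b i : modularFunctionFieldBar N) = b i := by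
  classical
  set F₀ := modularFunctionFieldFull N with hF₀
  let W' : Submodule Qbar (LaurentSeries Qbar) :=
    W.map (coeLin N)
  have hW' : ∀ σ : Qbar ≃ₐ[ℚ] Qbar, ∀ x ∈ W', coeffMap (σ : Qbar →+* Qbar) x ∈ W' := by
    rintro σ _ ⟨f, hf, rfl⟩
    exact ⟨_, hW σ f hf, coe_arithmeticGalois_smul _ σ f⟩
  obtain ⟨n, v, -, hvW, hspanv⟩ := le_span_rational_of_stable W' hW'
  have hvF : ∀ i, v i ∈ F₀ := fun i => by
    obtain ⟨f, -, hf⟩ := hvW i
    exact mem_of_coeffEmb_mem Qbar (hf ▸ f.2)
  choose a b hb0 hbF hab using fun i => exists_int_fraction N (hvF i)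
  let B : LaurentSeries ℤ := ∏ i, b i
  have hB0 : coeffMap (Int.castRingHom ℚ) B ≠ 0 := by
    intro h
    have hB : B ≠ 0 := Finset.prod_ne_zero_iff.mpr fun i _ => hb0 i
    refine hB (HahnSeries.ext (funext fun e => ?_))
    exact Int.cast_injective (α := ℚ)
      ((congrArg (fun z : LaurentSeries ℚ => z.coeff e) h).trans (by simp))
  obtain ⟨c, y, hc, hy0, hy⟩ := FLTA.PlaceRed.exists_smul_eq_coeffMap (ratPlace A)
    (IsLocalRing.residue (ratPlace A)) IsLocalRing.residue_surjective
    (FLTA.PlaceRed.isZFinite_coeffMap_intCast B) hB0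
  set B' := coeffMap (ratPlace A).subtype y with hB'
  have hB'F : B' ∈ F₀ := by
    rw [hy, show coeffMap (Int.castRingHom ℚ) B = ∏ i, coeffMap (Int.castRingHom ℚ) (b i)
      from map_prod _ _ _]
    exact F₀.mul_mem (F₀.algebraMap_mem c) (F₀.prod_mem fun i _ => hbF i)
  let W₀ : Submodule ℚ (LaurentSeries ℚ) := Submodule.span ℚ (Set.range fun i => v i * B')
  have : FiniteDimensional ℚ W₀ := FiniteDimensional.span_of_finite ℚ (Set.finite_range _)
  have hW₀ : ∀ x ∈ W₀, FLTA.PlaceRed.IsZFinite x ∧ x ∈ F₀ := by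
    intro x hx
    induction hx using Submodule.span_induction with
    | mem x hx =>
      obtain ⟨i, rfl⟩ := hx
      refine ⟨?_, F₀.mul_mem (hvF i) hB'F⟩
      have : v i * B' = algebraMap ℚ (LaurentSeries ℚ) c *
          coeffMap (Int.castRingHom ℚ) (a i * ∏ j ∈ Finset.univ.erase i, b j) := by
        rw [hy, show B = b i * ∏ j ∈ Finset.univ.erase i, b j from
          (Finset.mul_prod_erase _ _ (Finset.mem_univ i)).symm, map_mul, map_mul, ← hab i]
        ring
      show FLTA.PlaceRed.IsZFinite (v i * B')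
      rw [this]
      exact (FLTA.PlaceRed.isZFinite_algebraMap c).mul (FLTA.PlaceRed.isZFinite_coeffMap_intCast _)
    | zero => exact ⟨by simpa using FLTA.PlaceRed.isZFinite_algebraMap (0 : ℚ), F₀.zero_mem⟩
    | add x z _ _ hx hz => exact ⟨hx.1.add hz.1, F₀.add_mem hx.2 hz.2⟩
    | smul r x _ hx =>
      rw [← FLTA.PlaceRed.algebraMap_mul_eq_smul]
      exact ⟨(FLTA.PlaceRed.isZFinite_algebraMap r).mul hx.1,
        F₀.mul_mem (F₀.algebraMap_mem r) hx.2⟩
  obtain ⟨m, z, hzspan, hzli⟩ := FLTA.PlaceRed.exists_integral_basis (ratPlace A)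
    (IsLocalRing.residue (ratPlace A)) IsLocalRing.residue_surjective W₀ fun x hx => (hW₀ x hx).1
  have hzF : ∀ i, coeffMap (ratPlace A).subtype (z i) ∈ F₀ := fun i =>
    (hW₀ _ (hzspan ▸ Submodule.subset_span ⟨i, rfl⟩)).2
  -- move to `Qbar`
  have hmove : ∀ x : LaurentSeries (ratPlace A),
      coeffMap A.subtype (coeffMap (ratPlaceHom A) x) =
        coeffEmb Qbar (coeffMap (ratPlace A).subtype x) := fun x => by
    rw [coeffEmb, coeffMap_coeffMap, coeffMap_coeffMap]
    rfl
  have hmem : ∀ x : LaurentSeries (ratPlace A), coeffMap (ratPlace A).subtype x ∈ F₀ →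
      coeffMap A.subtype (coeffMap (ratPlaceHom A) x) ∈ modularFunctionFieldBar N := fun x hx => by
    rw [hmove]; exact coeffEmb_mem_laurentBaseChange _ hx
  have : IsLocalHom (ratPlaceHom A) := ⟨fun x hx => by
    obtain ⟨u, hu⟩ := hx
    have hinv : (x : ℚ)⁻¹ ∈ ratPlace A := by
      show algebraMap ℚ Qbar (x : ℚ)⁻¹ ∈ A
      have h1 : algebraMap ℚ Qbar (x : ℚ) * ((↑u⁻¹ : A) : Qbar) = 1 := by
        have := congrArg Subtype.val u.mul_inv
        rw [hu] at this
        exact this
      rw [map_inv₀, ← eq_inv_of_mul_eq_one_right h1]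
      exact SetLike.coe_mem _
    have hx0 : (x : ℚ) ≠ 0 := fun h => by
      have := congrArg Subtype.val hu
      exact u.ne_zero (Subtype.ext (this.trans (by show algebraMap ℚ Qbar (x : ℚ) = 0; simp [h])))
    exact isUnit_of_dvd_one ⟨⟨_, hinv⟩, Subtype.ext (mul_inv_cancel₀ hx0).symm⟩⟩
  have hker : ∀ t : ratPlace A, IsLocalRing.residue (ratPlace A) t = 0 →
      π (ratPlaceHom A t) = 0 := by
    intro t ht
    rw [IsLocalRing.residue_eq_zero_iff, IsLocalRing.mem_maximalIdeal] at ht
    have h1 : ¬ IsUnit (ratPlaceHom A t) := fun h => ht (isUnit_of_map_unit (ratPlaceHom A) t h)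
    have hmax := IsLocalRing.eq_maximalIdeal (RingHom.ker_isMaximal_of_surjective π hπ)
    exact RingHom.mem_ker.mp (hmax ▸ (IsLocalRing.mem_maximalIdeal _).mpr h1)
  let ι : IsLocalRing.ResidueField (ratPlace A) →+* k :=
    Ideal.Quotient.lift _ (π.comp (ratPlaceHom A)) fun t ht =>
      hker t (Ideal.Quotient.eq_zero_iff_mem.mpr ht)
  have hred : ∀ x : LaurentSeries (ratPlace A),
      coeffMap π (coeffMap (ratPlaceHom A) x) =
        coeffMap ι (coeffMap (IsLocalRing.residue (ratPlace A)) x) := fun x => by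
    rw [coeffMap_coeffMap, coeffMap_coeffMap]
    rfl
  have hden : coeffMap π (coeffMap (ratPlaceHom A) y) ≠ 0 := by
    rw [hred]
    intro h
    refine hy0 (HahnSeries.ext (funext fun e => ι.injective ?_))
    simpa using congrArg (fun s : LaurentSeries k => s.coeff e) h
  set R := FLTA.PlaceRed.gaussRed N hπ hN
  have hB0' : coeffEmb Qbar B' ≠ 0 := by
    rw [hy]
    simp only [map_mul, ne_eq, mul_eq_zero, not_or, map_eq_zero]
    exact ⟨hc, hB0⟩
  let u : Fin m → modularFunctionFieldBar N := fun i =>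
    ⟨coeffEmb Qbar (coeffMap (ratPlace A).subtype (z i)) / coeffEmb Qbar B',
      div_mem (coeffEmb_mem_laurentBaseChange _ (hzF i)) (coeffEmb_mem_laurentBaseChange _ hB'F)⟩
  have hrep : ∀ i, FLTA.PlaceRed.GaussRep A π (modularFunctionFieldBar N) (u i)
      (coeffMap (ratPlaceHom A) (z i)) (coeffMap (ratPlaceHom A) y) := fun i =>
    ⟨hmem _ (hzF i), hmem _ hB'F, hden, by
      rw [hmove, hmove]; exact div_mul_cancel₀ _ hB0'⟩
  let U : Fin m → R.O := fun i => ⟨u i, ⟨_, _, hrep i⟩⟩
  refine ⟨m, U, le_antisymm ?_ ?_, ?_, ?_⟩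
  · -- `⊆`
    rw [Submodule.span_le]
    rintro _ ⟨i, rfl⟩
    have hz : coeffMap (ratPlace A).subtype (z i) ∈ W₀ := hzspan ▸ Submodule.subset_span ⟨i, rfl⟩
    suffices h : ∀ x ∈ W₀, coeffEmb Qbar x / coeffEmb Qbar B' ∈ W' by
      obtain ⟨f, hf, hfe⟩ := h _ hz
      have e : f = u i := Subtype.ext hfe
      rw [e] at hf
      exact hf
    intro x hx
    induction hx using Submodule.span_induction with
    | mem x hx =>
      obtain ⟨j, rfl⟩ := hx
      rw [map_mul, mul_div_cancel_right₀ _ hB0']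
      exact hvW j
    | zero => rw [map_zero, zero_div]; exact zero_mem _
    | add x w _ _ hx hw => rw [map_add, add_div]; exact add_mem hx hw
    | smul r x _ hx =>
      have : coeffEmb Qbar (r • x) / coeffEmb Qbar B' =
          (algebraMap ℚ Qbar r) • (coeffEmb Qbar x / coeffEmb Qbar B') := by
        rw [← FLTA.PlaceRed.algebraMap_mul_eq_smul r, ← FLTA.PlaceRed.algebraMap_mul_eq_smul
          (algebraMap ℚ Qbar r), map_mul, mul_div_assoc, coeffEmb, algebraMap_laurentSeries_eq_single,
          coeffMap_single, algebraMap_laurentSeries_eq_single]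
      rw [this]
      exact W'.smul_mem _ hx
  · -- `⊇`
    intro f hf
    have hT : ∀ x ∈ Submodule.span Qbar (Set.range fun i => coeffEmb Qbar (v i)),
        x ∈ (Submodule.span Qbar (Set.range fun i => (U i : modularFunctionFieldBar N))).map
          (coeLin N) := by
      intro x hx
      refine (Submodule.span_le.mpr ?_) hx
      rintro _ ⟨j, rfl⟩
      have hj : v j * B' ∈ Submodule.span ℚ
          (Set.range fun i => coeffMap (ratPlace A).subtype (z i)) :=
        hzspan.symm ▸ Submodule.subset_span ⟨j, rfl⟩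
      rw [Submodule.mem_span_range_iff_exists_fun] at hj
      obtain ⟨r, hr⟩ := hj
      refine ⟨∑ i, algebraMap ℚ Qbar (r i) • (U i : modularFunctionFieldBar N),
        Submodule.sum_mem _ fun i _ => Submodule.smul_mem _ _ (Submodule.subset_span ⟨i, rfl⟩), ?_⟩
      rw [map_sum]
      apply mul_right_cancel₀ hB0'
      rw [Finset.sum_mul, ← map_mul, ← hr, map_sum]
      refine Finset.sum_congr rfl fun i _ => ?_
      rw [map_smul, ← FLTA.PlaceRed.algebraMap_mul_eq_smul (r i),
        ← FLTA.PlaceRed.algebraMap_mul_eq_smul (algebraMap ℚ Qbar (r i)), map_mul, mul_assoc]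
      congr 1
      · rw [coeffEmb, algebraMap_laurentSeries_eq_single ℚ (r i), coeffMap_single,
          algebraMap_laurentSeries_eq_single]
      · exact div_mul_cancel₀ _ hB0'
    obtain ⟨f', hf', hfe⟩ := hT _ (hspanv ⟨f, hf, rfl⟩)
    have e : f' = f := Subtype.ext hfe
    rw [e] at hf'
    exact hf'
  · -- independence
    have hind := linearIndependent_coeffMap ι _ hzli
    rw [Fintype.linearIndependent_iff] at hind ⊢
    intro g hg i
    refine hind g ?_ i
    have h := congrArg (fun s : modularFunctionFieldFullC k N =>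
      (s : LaurentSeries k) * coeffMap π (coeffMap (ratPlaceHom A) y)) hg
    simp only [AddSubmonoidClass.coe_finsetSum, Finset.sum_mul] at h
    rw [ZeroMemClass.coe_zero, zero_mul] at h
    refine (Finset.sum_congr rfl fun j _ => ?_).trans h
    rw [Algebra.smul_def (g j), MulMemClass.coe_mul, mul_assoc,
      FLTA.PlaceRed.coe_gaussRed_red_eq N hπ hN _ (hrep j), div_mul_cancel₀ _ hden, hred,
      ← FLTA.PlaceRed.algebraMap_mul_eq_smul]
    rfl
  · intro σ i
    apply Subtype.ext
    rw [coe_arithmeticGalois_smul]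
    show coeffMap _ (coeffEmb Qbar _ / coeffEmb Qbar B') = coeffEmb Qbar _ / coeffEmb Qbar B'
    rw [map_div₀, coeffMap_coeffEmb, coeffMap_coeffEmb]

end Basis

end FLTA.Grass
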