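import Mathlib
import Fermat.Prelude.Def_ModularCurve_X0ModL
import Fermat.Prelude.Def_ModularCurve_ArithmeticGalois

/-!
# Rational structure on Riemann–Roch spaces of `X₀(N)`

Galois stable spaces of Laurent series are spanned by rational series, rational series in the
base change lie in the rational function field, and these are fractions of integral series.
-/

set_option autoImplicit false

noncomputable section

namespace FLTA.Grass

open ModularCurve HahnSeries

section Descent

variable (L : Type*) [Field L] [Algebra ℚ L] {F₀ : IntermediateField ℚ (LaurentSeries ℚ)}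

/-- Coefficientwise linear functional on series with coefficients in `L`. -/
def coeffFun (φ : L →ₗ[ℚ] ℚ) (x : LaurentSeries L) : LaurentSeries ℚ where
  coeff e := φ (x.coeff e)
  isPWO_support' := x.isPWO_support.mono fun e he h => he (by simp [h])

theorem coeffFun_add (φ : L →ₗ[ℚ] ℚ) (x y : LaurentSeries L) :
    coeffFun L φ (x + y) = coeffFun L φ x + coeffFun L φ y := by
  ext e; simp [coeffFun]

theorem coeffFun_emb_mul (φ : L →ₗ[ℚ] ℚ) (w : LaurentSeries ℚ) (x : LaurentSeries L) :
    coeffFun L φ (coeffEmb L w * x) = w * coeffFun L φ x := by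
  ext e
  show φ ((coeffEmb L w * x).coeff e) = _
  rw [HahnSeries.coeff_mul_left' w.isPWO_support
      (fun a ha h => ha (by rw [coeffEmb_coeff, h, map_zero])),
    HahnSeries.coeff_mul_right' (y := coeffFun L φ x) x.isPWO_support
      (fun a ha h => ha (by simp [coeffFun, h])), map_sum]
  refine Finset.sum_congr rfl fun ij _ => ?_
  rw [coeffEmb_coeff, ← Algebra.smul_def, map_smul, smul_eq_mul]
  rfl

theorem mem_of_coeffEmb_mem {w : LaurentSeries ℚ} (h : coeffEmb L w ∈ laurentBaseChange L F₀) :
    w ∈ F₀ := by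
  set G : Set (LaurentSeries L) :=
    {x | ∃ (c : L) (a : LaurentSeries ℚ), a ∈ F₀ ∧
      x = algebraMap L (LaurentSeries L) c * coeffEmb L a}
  have hmulG : ∀ x ∈ AddSubmonoid.closure G, ∀ y ∈ AddSubmonoid.closure G,
      x * y ∈ AddSubmonoid.closure G := by
    intro x hx
    induction hx using AddSubmonoid.closure_induction with
    | mem u hu =>
      intro y hy
      induction hy using AddSubmonoid.closure_induction with
      | mem v hv =>
        obtain ⟨c, a, ha, rfl⟩ := hu
        obtain ⟨d, b, hb, rfl⟩ := hv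
        exact AddSubmonoid.subset_closure ⟨c * d, a * b, F₀.mul_mem ha hb, by
          rw [map_mul, map_mul]; ring⟩
      | zero => rw [mul_zero]; exact zero_mem _
      | add v w _ _ hv hw => rw [mul_add]; exact add_mem hv hw
    | zero => intro y _; rw [zero_mul]; exact zero_mem _
    | add u v _ _ hu hv => intro y hy; rw [add_mul]; exact add_mem (hu y hy) (hv y hy)
  have hspan : ∀ x ∈ Algebra.adjoin L (⇑(coeffEmb L) '' (F₀ : Set (LaurentSeries ℚ))),
      x ∈ AddSubmonoid.closure G := by
    intro x hx
    induction hx using Algebra.adjoin_induction with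
    | mem x hx =>
      obtain ⟨a, ha, rfl⟩ := hx
      exact AddSubmonoid.subset_closure ⟨1, a, ha, by rw [map_one, one_mul]⟩
    | algebraMap r =>
      exact AddSubmonoid.subset_closure ⟨r, 1, F₀.one_mem, by rw [map_one, mul_one]⟩
    | add x y _ _ hx hy => exact add_mem hx hy
    | mul x y _ _ hx hy => exact hmulG x hx y hy
  have hφ : ∀ (φ : L →ₗ[ℚ] ℚ) (x : LaurentSeries L),
      x ∈ AddSubmonoid.closure G → coeffFun L φ x ∈ F₀ := by
    intro φ x hx
    induction hx using AddSubmonoid.closure_induction with
    | mem x hx =>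
      obtain ⟨c, a, ha, rfl⟩ := hx
      have : coeffFun L φ (algebraMap L (LaurentSeries L) c * coeffEmb L a) =
          algebraMap ℚ (LaurentSeries ℚ) (φ c) * a := by
        ext e
        show φ ((algebraMap L (LaurentSeries L) c * coeffEmb L a).coeff e) = _
        rw [algebraMap_laurentSeries_eq_single, algebraMap_laurentSeries_eq_single,
          HahnSeries.coeff_single_zero_mul, HahnSeries.coeff_single_zero_mul, coeffEmb_coeff,
          mul_comm c, ← Algebra.smul_def, map_smul, smul_eq_mul, mul_comm]
      rw [this]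
      exact F₀.mul_mem (F₀.algebraMap_mem _) ha
    | zero =>
      have : coeffFun L φ (0 : LaurentSeries L) = 0 := by ext e; simp [coeffFun]
      rw [this]; exact F₀.zero_mem
    | add x y _ _ hx hy => rw [coeffFun_add]; exact F₀.add_mem hx hy
  rw [laurentBaseChange, IntermediateField.mem_adjoin_iff_div] at h
  obtain ⟨r, hr, s, hs, hrs⟩ := h
  rcases eq_or_ne s 0 with rfl | hs0
  · rw [div_zero] at hrs
    rw [(map_eq_zero (coeffEmb L)).mp hrs]
    exact F₀.zero_mem
  obtain ⟨e, he⟩ : ∃ e, s.coeff e ≠ 0 := by
    by_contra! h0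
    exact hs0 (HahnSeries.ext (funext h0))
  obtain ⟨φ, hφe⟩ : ∃ φ : L →ₗ[ℚ] ℚ, φ (s.coeff e) ≠ 0 := by
    by_contra! h0
    exact he ((Module.forall_dual_apply_eq_zero_iff ℚ _).mp h0)
  have hsF := hφ φ s (hspan s hs)
  have hrF := hφ φ r (hspan r hr)
  have hne : coeffFun L φ s ≠ 0 := fun h0 =>
    hφe (congrArg (fun z : LaurentSeries ℚ => z.coeff e) h0)
  have hmul : coeffEmb L w * s = r := by rw [hrs, div_mul_cancel₀ _ hs0]
  have hw : w = coeffFun L φ r / coeffFun L φ s := by
    rw [eq_div_iff hne, ← coeffFun_emb_mul, hmul]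
  rw [hw]
  exact F₀.div_mem hrF hsF

end Descent

section Rational

/-- A finite dimensional Galois stable space of series is spanned by its rational series. -/
theorem le_span_rational_of_stable
    (W : Submodule (AlgebraicClosure ℚ) (LaurentSeries (AlgebraicClosure ℚ)))
    [FiniteDimensional (AlgebraicClosure ℚ) W]
    (hW : ∀ σ : AlgebraicClosure ℚ ≃ₐ[ℚ] AlgebraicClosure ℚ, ∀ x ∈ W,
      coeffMap (σ : AlgebraicClosure ℚ →+* AlgebraicClosure ℚ) x ∈ W) :
    ∃ (n : ℕ) (v : Fin n → LaurentSeries ℚ), Module.finrank (AlgebraicClosure ℚ) W = n ∧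
      (∀ i, coeffEmb (AlgebraicClosure ℚ) (v i) ∈ W) ∧
      W ≤ Submodule.span (AlgebraicClosure ℚ)
        (Set.range fun i => coeffEmb (AlgebraicClosure ℚ) (v i)) := by
  set L := AlgebraicClosure ℚ with hL
  have : Algebra.IsAlgebraic ℚ L := AlgebraicClosure.isAlgebraic ℚ
  have : IsGalois ℚ L :=
    { to_isSeparable := Algebra.IsAlgebraic.isSeparable_of_perfectField
      to_normal := @IsAlgClosure.normal ℚ L _ _ _ (AlgebraicClosure.instIsAlgClosure ℚ) }
  let c : ℤ → Module.Dual L W := fun e =>
    { toFun := fun x => (x : LaurentSeries L).coeff e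
      map_add' := fun x y => by simp
      map_smul' := fun a x => by simp }
  obtain ⟨f, hfc, hspan, hli⟩ := Submodule.exists_fun_fin_finrank_span_eq L (Set.range c)
  choose e he using fun i => hfc i
  let n := Module.finrank L (Submodule.span L (Set.range c))
  let ev : W →ₗ[L] (Fin n → L) := LinearMap.pi fun i => c (e i)
  have hinj : Function.Injective ev := by
    rw [injective_iff_map_eq_zero]
    intro x hx
    refine Subtype.ext (HahnSeries.ext (funext fun m => ?_))
    show c m x = 0
    have hφ : c m ∈ Submodule.span L (Set.range f) := by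
      rw [hspan]; exact Submodule.subset_span ⟨m, rfl⟩
    generalize c m = φ at hφ ⊢
    induction hφ using Submodule.span_induction with
    | mem ψ hψ => obtain ⟨i, rfl⟩ := hψ; rw [← he i]; exact congrFun hx i
    | zero => rfl
    | add a b _ _ ha hb => simp [ha, hb]
    | smul r a _ ha => simp [ha]
  have hn : n = Module.finrank L W := by
    refine le_antisymm ?_ ?_
    · exact (Submodule.finrank_le _).trans_eq Subspace.dual_finrank_eq
    · exact (LinearMap.finrank_le_finrank_of_injective hinj).trans_eq (Module.finrank_fin_fun L)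
  have hbij : Function.Bijective ev := ⟨hinj, (LinearMap.injective_iff_surjective_of_finrank_eq_finrank
    (by rw [Module.finrank_fin_fun]; exact hn.symm)).mp hinj⟩
  choose x hx using fun i => hbij.2 (Pi.single i 1)
  have hrat : ∀ i, ∃ v : LaurentSeries ℚ, coeffEmb L v = (x i : LaurentSeries L) := fun i => by
    have hfix : ∀ σ : L ≃ₐ[ℚ] L, ∀ m, σ ((x i : LaurentSeries L).coeff m) =
        (x i : LaurentSeries L).coeff m := by
      intro σ m
      have heq : (⟨coeffMap (σ : L →+* L) (x i : LaurentSeries L), hW σ _ (x i).2⟩ : W) = x i := by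
        refine hinj (funext fun l => ?_)
        have hl : (x i : LaurentSeries L).coeff (e l) = (Pi.single i 1 : Fin n → L) l :=
          congrFun (hx i) l
        show σ ((x i : LaurentSeries L).coeff (e l)) = (x i : LaurentSeries L).coeff (e l)
        rw [hl]
        rcases eq_or_ne l i with rfl | hne <;> simp [*]
      exact congrArg (fun z : W => (z : LaurentSeries L).coeff m) heq
    choose q hq using fun m => (InfiniteGalois.mem_range_algebraMap_iff_fixed (k := ℚ)
      ((x i : LaurentSeries L).coeff m)).mpr fun σ => hfix σ m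
    refine ⟨⟨q, (x i : LaurentSeries L).isPWO_support.mono fun m hm h =>
      hm ((map_eq_zero (algebraMap ℚ L)).mp ((hq m).trans h))⟩, ?_⟩
    ext m
    exact hq m
  choose v hv using hrat
  refine ⟨n, v, hn.symm, fun i => hv i ▸ (x i).2, fun y hy => ?_⟩
  have hy' : (⟨y, hy⟩ : W) = ∑ i, ev ⟨y, hy⟩ i • x i := hinj (by
    rw [map_sum]
    simp only [map_smul, hx]
    exact (pi_eq_sum_univ' (ev ⟨y, hy⟩)))
  rw [show y = ((∑ i, ev ⟨y, hy⟩ i • x i : W) : LaurentSeries L) from congrArg Subtype.val hy',
    AddSubmonoidClass.coe_finsetSum]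
  refine Submodule.sum_mem _ fun i _ => ?_
  rw [Submodule.coe_smul, ← hv i]
  exact Submodule.smul_mem _ _ (Submodule.subset_span ⟨i, rfl⟩)

end Rational

section Integral

variable (N : ℕ)

/-- Elements of the rational function field are fractions of integral series. -/
theorem exists_int_fraction {f : LaurentSeries ℚ} (hf : f ∈ modularFunctionFieldFull N) :
    ∃ a b : LaurentSeries ℤ, b ≠ 0 ∧
      coeffMap (Int.castRingHom ℚ) b ∈ modularFunctionFieldFull N ∧
      f * coeffMap (Int.castRingHom ℚ) b = coeffMap (Int.castRingHom ℚ) a := by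
  have hinj : Function.Injective (coeffMap (Int.castRingHom ℚ)) := fun x y h =>
    HahnSeries.ext (funext fun e => Int.cast_injective
      (congrArg (fun z : LaurentSeries ℚ => z.coeff e) h))
  have hne : ∀ b : LaurentSeries ℤ, b ≠ 0 → coeffMap (Int.castRingHom ℚ) b ≠ 0 :=
    fun b hb h => hb (hinj (h.trans (map_zero _).symm))
  have hf' : f ∈ Subfield.closure
      (Set.range (algebraMap ℚ (LaurentSeries ℚ)) ∪ divisorExpansions N) := hf
  clear hf
  induction hf' using Subfield.closure_induction with
  | mem y hy =>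
    rcases hy with ⟨r, rfl⟩ | ⟨d, hd, hdN, rfl⟩
    · refine ⟨HahnSeries.single 0 r.num, HahnSeries.single 0 (r.den : ℤ), ?_, ?_, ?_⟩
      · simp
      · rw [coeffMap_single]
        exact (algebraMap_laurentSeries_eq_single ℚ _) ▸ (modularFunctionFieldFull N).algebraMap_mem _
      · rw [coeffMap_single, coeffMap_single, algebraMap_laurentSeries_eq_single,
          HahnSeries.single_mul_single, add_zero]
        simp [Rat.mul_den_eq_num]
    · have := hd
      refine ⟨qExpand ℤ d (jqModC ℤ), 1, one_ne_zero, ?_, ?_⟩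
      · rw [map_one]; exact (modularFunctionFieldFull N).one_mem
      · rw [map_one, mul_one, coeffMap_qExpand, coeffMap_jqModC, jqModC_rat]
  | one =>
    exact ⟨1, 1, one_ne_zero, by rw [map_one]; exact (modularFunctionFieldFull N).one_mem, by simp⟩
  | add x y _ _ hx hy =>
    obtain ⟨a, b, hb, hbF, hab⟩ := hx
    obtain ⟨a', b', hb', hbF', hab'⟩ := hy
    refine ⟨a * b' + a' * b, b * b', mul_ne_zero hb hb', ?_, ?_⟩
    · rw [map_mul]; exact (modularFunctionFieldFull N).mul_mem hbF hbF'
    · simp only [map_add, map_mul, ← hab, ← hab']; ring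
  | neg x _ hx =>
    obtain ⟨a, b, hb, hbF, hab⟩ := hx
    exact ⟨-a, b, hb, hbF, by rw [map_neg, ← hab, neg_mul]⟩
  | inv x hxF hx =>
    obtain ⟨a, b, hb, hbF, hab⟩ := hx
    rcases eq_or_ne a 0 with rfl | ha
    · have hx0 : x = 0 := by simpa [hne b hb] using hab
      exact ⟨0, 1, one_ne_zero, by rw [map_one]; exact (modularFunctionFieldFull N).one_mem,
        by simp [hx0]⟩
    · refine ⟨b, a, ha, ?_, ?_⟩
      · rw [← hab]; exact (modularFunctionFieldFull N).mul_mem hxF hbF
      · have hx0 : x ≠ 0 := fun h => hne a ha (by rw [← hab, h, zero_mul])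
        rw [← hab, inv_mul_cancel_left₀ hx0]
  | mul x y _ _ hx hy =>
    obtain ⟨a, b, hb, hbF, hab⟩ := hx
    obtain ⟨a', b', hb', hbF', hab'⟩ := hy
    refine ⟨a * a', b * b', mul_ne_zero hb hb', ?_, ?_⟩
    · rw [map_mul]; exact (modularFunctionFieldFull N).mul_mem hbF hbF'
    · simp only [map_mul, ← hab, ← hab']; ring

/-- Independence of series is preserved by an extension of the coefficient field. -/
theorem linearIndependent_coeffMap {k₀ k : Type*} [Field k₀] [Field k] (ι : k₀ →+* k) {n : ℕ}
    (y : Fin n → LaurentSeries k₀) (hy : LinearIndependent k₀ y) :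
    LinearIndependent k fun i => coeffMap ι (y i) := by
  let _ : Algebra k₀ k := ι.toAlgebra
  rw [Fintype.linearIndependent_iff] at hy ⊢
  intro c hc i
  refine (Module.forall_dual_apply_eq_zero_iff k₀ (c i)).mp fun φ => hy (fun j => φ (c j)) ?_ i
  ext e
  have h1 := congrArg (fun z : LaurentSeries k => φ (z.coeff e)) hc
  simp only [HahnSeries.coeff_sum, HahnSeries.coeff_smul, coeffMap_coeff, HahnSeries.coeff_zero,
    map_zero, map_sum, smul_eq_mul] at h1
  rw [HahnSeries.coeff_sum, HahnSeries.coeff_zero, ← h1]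
  refine Finset.sum_congr rfl fun j _ => ?_
  rw [HahnSeries.coeff_smul, smul_eq_mul, mul_comm (c j), show ι ((y j).coeff e) * c j =
    (y j).coeff e • c j from rfl, map_smul, smul_eq_mul, mul_comm]

end Integral

end FLTA.Grass
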