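import Mathlib

/-!
# Reduction of spans of vectors with coordinates in a valuation ring
-/

set_option autoImplicit false

noncomputable section

open Matrix

namespace FLTA.Grass

variable {K : Type*} [Field K] {A : ValuationSubring K} {k : Type*} [Field k] {π : A →+* k}

/-- A surjection from a valuation ring onto a field kills every nonunit. -/
theorem pi_eq_zero_of_not_isUnit (hπ : Function.Surjective π) {a : A} (ha : ¬ IsUnit a) :
    π a = 0 := by
  obtain ⟨M, hM, hmemM⟩ := exists_max_ideal_of_mem_nonunits ha
  have hker : RingHom.ker π = M :=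
    (IsLocalRing.eq_maximalIdeal (RingHom.ker_isMaximal_of_surjective π hπ)).trans
      (IsLocalRing.eq_maximalIdeal hM).symm
  exact RingHom.mem_ker.1 (hker ▸ hmemM)

/-- Vectors with residually independent reductions are independent. -/
theorem linearIndependent_coe_of_residual {n d : ℕ}
    (w : Fin n → Fin d → A) (hw : LinearIndependent k fun i => π ∘ w i) :
    LinearIndependent K fun i j => (w i j : K) := by
  classical
  rw [Fintype.linearIndependent_iff]
  intro c hc i
  by_contra hi
  obtain ⟨i₀, -, hmax⟩ := Finset.exists_max_image (Finset.univ : Finset (Fin n))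
    (fun j => A.valuation (c j)) ⟨i, Finset.mem_univ i⟩
  have hne : c i₀ ≠ 0 := fun h => hi <| by
    have := hmax i (Finset.mem_univ i)
    rw [h, map_zero, le_zero_iff, map_eq_zero] at this
    exact this
  have hmem : ∀ j, c j / c i₀ ∈ A := fun j => (A.valuation_le_one_iff _).1 <| by
    rw [map_div₀]
    exact div_le_one_of_le₀ (hmax j (Finset.mem_univ j)) zero_le
  let e : Fin n → A := fun j => ⟨c j / c i₀, hmem j⟩
  have key : ∀ l, ∑ j, e j * w j l = 0 := fun l => by
    apply Subtype.ext
    have h := congrFun hc l
    simp only [Finset.sum_apply, Pi.smul_apply, smul_eq_mul, Pi.zero_apply] at h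
    push_cast
    simp only [e, div_mul_eq_mul_div, ← Finset.sum_div, h, zero_div]
  have h1 := Fintype.linearIndependent_iff.1 hw (fun j => π (e j)) (by
    funext l
    simpa using congrArg π (key l)) i₀
  have h2 : e i₀ = 1 := Subtype.ext (div_self hne)
  rw [h2, map_one] at h1
  exact one_ne_zero h1

/-- Residual rank is at most generic rank. -/
theorem finrank_residual_span_le {ι : Type*} {d : ℕ}
    (v : ι → Fin d → A) :
    Module.finrank k (Submodule.span k (Set.range fun j => π ∘ v j)) ≤
      Module.finrank K (Submodule.span K (Set.range fun j l => (v j l : K))) := by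
  obtain ⟨κ, a, -, hsp, hli⟩ := exists_linearIndependent' k fun j => π ∘ v j
  have : Finite κ := hli.finite
  have : Fintype κ := Fintype.ofFinite κ
  rw [← hsp]
  rw [finrank_span_eq_card hli]
  let e := Fintype.equivFin κ
  have hK := linearIndependent_coe_of_residual (π := π) (fun i => v (a (e.symm i)))
    (hli.comp _ e.symm.injective)
  calc Fintype.card κ
      = Module.finrank K (Submodule.span K (Set.range fun i l => (v (a (e.symm i)) l : K))) := by
        rw [finrank_span_eq_card hK, Fintype.card_fin]
    _ ≤ _ := Submodule.finrank_mono (Submodule.span_mono (by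
        rintro _ ⟨i, rfl⟩
        exact ⟨a (e.symm i), rfl⟩))

/-- Generators with full residual span span. -/
theorem span_eq_of_residual {ι : Type*} {d r : ℕ}
    (v : ι → Fin d → A) (W : Submodule K (Fin d → K)) (hv : ∀ j, (fun l => (v j l : K)) ∈ W)
    (hW : Module.finrank K W ≤ r)
    (hr : r ≤ Module.finrank k (Submodule.span k (Set.range fun j => π ∘ v j))) :
    Submodule.span K (Set.range fun j l => (v j l : K)) = W :=
  Submodule.eq_of_le_of_finrank_le (Submodule.span_le.2 (by rintro _ ⟨j, rfl⟩; exact hv j))
    (hW.trans (hr.trans (finrank_residual_span_le v)))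

/-- The rank of the reduced matrix is at most the rank. -/
theorem rank_map_residual_le {a b : ℕ} (M : Matrix (Fin a) (Fin b) A) :
    (M.map π).rank ≤ (M.map A.subtype).rank := by
  rw [Matrix.rank_eq_finrank_span_cols, Matrix.rank_eq_finrank_span_cols]
  exact finrank_residual_span_le fun j i => M i j

end FLTA.Grass
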