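import Fermat.Agent.Grass.Chart
import Fermat.Agent.Grass.HopfOrder
import Fermat.Agent.Grass.EquivSpan
import Fermat.Agent.Grass.Cover

/-!
# Flat models of torsion points from the linear algebra Jacobian
-/

set_option autoImplicit false
set_option linter.style.haveILetI false

noncomputable section

open AlgebraicCurve AlgebraicCurve.SemilinearAut

namespace FLTA.Grass

open FLTA.HeckeDatum

local notation "Qbar" => AlgebraicClosure ℚ

section Galois

variable {K F : Type*} [Field K] [Field F] [Algebra K F]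

theorem smul_mem_riemannRochSpace (g : SemilinearAut K F) {D : Divisor K F} {f : F}
    (hf : f ∈ riemannRochSpace D) : g • f ∈ riemannRochSpace (g • D) := by
  rw [mem_riemannRochSpace_iff] at hf ⊢
  intro w
  have h := ord_smul g (g⁻¹ • w) f
  rw [smul_inv_smul] at h
  rcases hf (g⁻¹ • w) with h0 | h0
  · exact Or.inl (by rw [h0, smul_zero])
  · exact Or.inr (by rw [h, divisor_smul_apply]; exact h0)

theorem smul_le_smul_divisor (g : SemilinearAut K F) {D E : Divisor K F} (h : D ≤ E) :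
    g • D ≤ g • E := Finsupp.le_def.2 fun w => by
  rw [divisor_smul_apply, divisor_smul_apply]
  exact Finsupp.le_def.1 h _

theorem mk_eq_mk_iff_sub_mem {a b : Divisor.degZero (K := K) (F := F)} :
    Pic0.mk a = Pic0.mk b ↔
      (a : Divisor K F) - b ∈ Divisor.principal (K := K) (F := F) :=
  (QuotientAddGroup.eq_iff_sub_mem (N :=
    (Divisor.principal (K := K) (F := F)).addSubgroupOf (Divisor.degZero (K := K) (F := F)))).trans
    (by rw [AddSubgroup.mem_addSubgroupOf, AddSubgroupClass.coe_sub])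

theorem mk_sum {ι : Type*} (s : Finset ι) (a : ι → Divisor.degZero (K := K) (F := F)) :
    Pic0.mk (∑ i ∈ s, a i) = ∑ i ∈ s, Pic0.mk (a i) :=
  map_sum (QuotientAddGroup.mk' ((Divisor.principal (K := K) (F := F)).addSubgroupOf
    (Divisor.degZero (K := K) (F := F)))) a s

end Galois

namespace Ctx

variable {ℓ : ℕ} [Fact ℓ.Prime] {A : ValuationSubring Qbar} {k : Type*} [Field k] {π : A →+* k}
  {F : Type} [Field F] [Algebra Qbar F] {F' : Type*} [Field F'] [Algebra k F'] {g : ℕ}

variable (C : Ctx A π F F' g)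

local notation "L" => riemannRochSpace
local notation "Prin" => Divisor.principal (K := Qbar) (F := F)

/-- An effective complement: in each class of degree zero, a divisor of degree `2g` below
`4g • inf`. -/
theorem exists_small_rep (D : Divisor Qbar F) (hD : Divisor.degree D = 0) :
    ∃ E : Divisor Qbar F, E ≤ C.infDiv ((4 * g : ℕ) : ℤ) ∧
      Divisor.degree E = ((2 * g : ℕ) : ℤ) ∧ E - (D + C.infDiv ((2 * g : ℕ) : ℤ)) ∈ Prin := by
  set D' := C.infDiv ((2 * g : ℕ) : ℤ) - D with hD'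
  have hd : Divisor.degree D' = ((2 * g : ℕ) : ℤ) := by
    rw [hD', map_sub, C.degree_infDiv, hD, sub_zero]
  have h1 := riemann_le C.rrK D'
  haveI := C.rrK.finiteDimensional D'
  have hpos : 0 < Module.finrank Qbar (L D') := by omega
  obtain ⟨⟨f, hf⟩, hne⟩ : ∃ x : L D', x ≠ 0 := Module.finrank_pos_iff_exists_ne_zero.1 hpos
  have hf0 : f ≠ 0 := fun h => hne (Subtype.ext h)
  obtain ⟨P, hP, hP0⟩ := C.rrK.principal.exists_divisor f hf0
  refine ⟨C.infDiv ((4 * g : ℕ) : ℤ) - (P + D'), sub_le_self _ (Finsupp.le_def.2 fun w => ?_),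
    ?_, ?_⟩
  · have := (mem_riemannRochSpace_iff.1 hf w).resolve_left hf0
    rw [Finsupp.add_apply, hP w, Finsupp.zero_apply]
    omega
  · rw [map_sub, map_add, C.degree_infDiv, hP0, hd]; omega
  · have hPp : P ∈ Prin := ⟨f, hf0, hP⟩
    convert neg_mem hPp using 1
    rw [hD', show ((4 * g : ℕ) : ℤ) = ((2 * g : ℕ) : ℤ) + ((2 * g : ℕ) : ℤ) by push_cast; ring,
      C.infDiv_add]
    abel

/-- A Galois-stable family of divisors of degree at least `2g - 1` below `N • inf` is generated
over the algebra of integral equivariant functions. -/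
theorem genAt_equivariant (hA : A.LiesOverPrime ℓ) (γ : GalQ →* SemilinearAut Qbar F)
    (hbase : ∀ (σ : GalQ) (a : Qbar), baseAut (γ σ) a = σ a)
    (hbas : ∀ (σ : GalQ) (M : ℕ) (i : Fin (C.dimInf M)), γ σ • (C.bas M i : F) = C.bas M i)
    {T' : Type} [Finite T'] (act' : GalQ →* Equiv.Perm T') (hsm : IsSmoothAct act') {N : ℕ}
    (E : T' → Divisor Qbar F) (hE : ∀ σ t, E (act' σ t) = γ σ • E t)
    (hle : ∀ t, E t ≤ C.infDiv N) (hfull : ∀ t, C.Full (E t)) (m : ℕ) (i : Fin m) :
    C.GenAt (powAdjoin ℓ act' A m) N fun w => E (w i) := by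
  let M : T' → Submodule Qbar (Fin (C.dimInf N) → Qbar) := fun t => (L (E t)).comap (C.vecK N)
  have hM : ∀ (σ : GalQ) t, ∀ x ∈ M t, (fun i => σ (x i)) ∈ M (act' σ t) := by
    intro σ t x hx
    have h : C.vecK N (fun i => σ (x i)) = γ σ • C.vecK N x := by
      simp only [vecK, Fintype.linearCombination_apply, Finset.smul_sum]
      refine Finset.sum_congr rfl fun i _ => ?_
      rw [Algebra.smul_def, Algebra.smul_def, smul_mul', SemilinearAut.smul_algebraMap, hbase, hbas]
    show C.vecK N _ ∈ L (E (act' σ t))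
    rw [h, hE]
    exact smul_mem_riemannRochSpace _ hx
  obtain ⟨s, v, hv, hvM, hspan⟩ := exists_integral_sections act' hsm M hM A hA
  have hvA : ∀ j t i, v j t i ∈ A := fun j t i =>
    mem_of_isIntegral_rp Fact.out hA ((hv j i).2 t)
  let va : Fin s → T' → Fin (C.dimInf N) → A := fun j t i => ⟨v j t i, hvA j t i⟩
  have hmem : ∀ j t, (C.vec N (va j t) : F) ∈ L (E t) := fun j t => by
    rw [C.coe_vec]; exact hvM j t
  refine ⟨fun w => hle _, fun w => hfull _, s, fun j w => va j (w i), fun j l => ?_,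
    fun j w => hmem j _, fun w => le_antisymm (Submodule.span_le.2 ?_) fun fb hfb => ?_⟩
  · exact Algebra.subset_adjoin ⟨i, fun t => v j t l, hv j l, fun w => rfl⟩
  · rintro _ ⟨j, rfl⟩
    exact C.red_mem (hmem j _)
  · obtain ⟨u, hu, rfl⟩ := C.exists_red_eq (hfull (w i)) hfb
    obtain ⟨x, rfl⟩ := C.exists_vec_eq N u (FLTA.Curves.riemannRochSpace_mono (hle _) hu)
    obtain ⟨c, hc⟩ := hspan (w i) (fun l => (x l : Qbar))
      (show C.vecK N _ ∈ L (E (w i)) from (C.coe_vec N x) ▸ hu) fun l => (x l).2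
    have hx : x = fun l => ∑ j, c j * va j (w i) l := funext fun l => Subtype.ext <| by
      rw [AddSubmonoidClass.coe_finsetSum]
      exact hc l
    rw [hx, C.vec_sum, map_sum]
    refine Submodule.sum_mem _ fun j _ => ?_
    rw [map_mul, C.red_scal, ← Algebra.smul_def]
    exact Submodule.smul_mem _ _ (Submodule.subset_span ⟨j, rfl⟩)

/-- A finite Galois-stable subgroup of divisor classes has a flat model at `ℓ`. -/
theorem hasFlatModel_torsion (hA : A.LiesOverPrime ℓ) (γ : GalQ →* SemilinearAut Qbar F)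
    (hbase : ∀ (σ : GalQ) (a : Qbar), baseAut (γ σ) a = σ a)
    (hinf : ∀ σ : GalQ, γ σ • C.inf = C.inf)
    (hbas : ∀ (σ : GalQ) (M : ℕ) (i : Fin (C.dimInf M)), γ σ • (C.bas M i : F) = C.bas M i)
    (hdiv : ∀ D : Divisor Qbar F, ∃ K₀ : IntermediateField ℚ Qbar, FiniteDimensional ℚ K₀ ∧
      ∀ σ : GalQ, (∀ a ∈ K₀, σ a = a) → γ σ • D = D)
    {T : Type} [AddCommGroup T] [Finite T] (act : GalQ →* AddMonoid.End T)
    (j : T →+ Pic0 Qbar F) (hj : Function.Injective j)
    (hjact : ∀ σ x, j (act σ x) = γ σ • j x) :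
    HasFlatModel ℓ T act := by
  classical
  haveI := Fintype.ofFinite T
  choose c hc using fun x => Pic0.mk_surjective (j x)
  have hcdeg : ∀ x, Divisor.degree (c x : Divisor Qbar F) = 0 := fun x => (c x).2
  choose E₀ hE₀le hE₀deg hE₀cl using fun x => C.exists_small_rep (c x : Divisor Qbar F) (hcdeg x)
  let actD : GalQ →* Equiv.Perm (Divisor Qbar F) :=
    (MulAction.toPermHom (SemilinearAut Qbar F) (Divisor Qbar F)).comp γ
  have hactD : ∀ σ D, actD σ D = γ σ • D := fun _ _ => rfl
  obtain ⟨T', hfin, act', ι, hι, hsm, hιact, hchoice, horb⟩ :=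
    exists_finite_stable_cover actD (fun D => hdiv D) E₀
  haveI := hfin
  have hinfD : ∀ σ (n : ℤ), γ σ • C.infDiv n = C.infDiv n := fun σ n => by
    rw [infDiv, smul_single, hinf]
  have hιdeg : ∀ t, Divisor.degree (ι t) = ((2 * g : ℕ) : ℤ) := fun t => by
    obtain ⟨σ, x, hx⟩ := horb t
    rw [hx, hactD, degree_smul, hE₀deg]
  have hιle : ∀ t, ι t ≤ C.infDiv ((4 * g : ℕ) : ℤ) := fun t => by
    obtain ⟨σ, x, hx⟩ := horb t
    rw [hx, hactD, ← hinfD σ]
    exact smul_le_smul_divisor _ (hE₀le x)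
  let d : T' → Divisor.degZero (K := Qbar) (F := F) := fun t =>
    ⟨ι t - C.infDiv ((2 * g : ℕ) : ℤ), by
      rw [Divisor.mem_degZero, map_sub, hιdeg, C.degree_infDiv, sub_self]⟩
  have hd0 : ∀ t x, ι t = E₀ x → Pic0.mk (d t) = j x := fun t x h => by
    rw [← hc x, mk_eq_mk_iff_sub_mem]
    convert hE₀cl x using 1
    simp only [d, h]
    abel
  have hdact : ∀ σ t, Pic0.mk (d (act' σ t)) = γ σ • Pic0.mk (d t) := fun σ t => by
    rw [pic0_smul_mk]
    refine congrArg Pic0.mk (Subtype.ext ?_)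
    rw [coe_degZeroSMulHom]
    show ι (act' σ t) - C.infDiv _ = γ σ • (ι t - C.infDiv _)
    rw [smul_sub, hinfD, hιact, hactD]
  have hcls : ∀ t, ∃ x, j x = Pic0.mk (d t) := fun t => by
    obtain ⟨σ, x, hx⟩ := horb t
    obtain ⟨t₀, ht₀⟩ := hchoice x
    have ht : t = act' σ t₀ := hι (by rw [hx, hιact, ht₀])
    exact ⟨act σ x, by rw [ht, hdact, hd0 t₀ x ht₀, hjact]⟩
  choose cls hcls using hcls
  obtain ⟨Φ, -, hsep, -, -, huniv⟩ :=
    C.exists_chart_functions (fun x => (c x : Divisor Qbar F)) hcdeg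
  refine hasFlatModel_of_bounded act act' hsm cls (fun x => ?_) (fun σ t => ?_) A hA Φ
    (fun x y hxy => ?_) fun m φ hφ => ?_
  · obtain ⟨t, ht⟩ := hchoice x
    exact ⟨t, hj (by rw [hcls, hd0 t x ht])⟩
  · exact hj (by rw [hcls, hjact, hcls, hdact])
  · by_contra h
    push Not at h
    exact hxy (hj (by rw [← hc x, ← hc y, mk_eq_mk_iff_sub_mem]; exact hsep x y h))
  · refine huniv (powAdjoin ℓ act' A m) (fun w => ∑ i, cls (w i)) ?_ φ hφ
    have hsum : C.Carries (powAdjoin ℓ act' A m) fun w : Fin m → T' =>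
        ∑ i, (d (w i) : Divisor Qbar F) := by
      let cd : Fin m → (Fin m → T') → Divisor Qbar F := fun i w => (d (w i) : Divisor Qbar F)
      refine C.carries_sum (Rg := powAdjoin ℓ act' A m) (Finset.univ : Finset (Fin m)) cd
        fun i _ => ?_
      have hfull : ∀ t, C.Full (ι t) := fun t => by
        refine C.full_of_degree ?_
        rw [hιdeg]
        omega
      have hequ : ∀ σ t, ι (act' σ t) = γ σ • ι t := fun σ t => (hιact σ t).trans (hactD σ (ι t))
      have hgen : C.GenAt (powAdjoin ℓ act' A m) (4 * g) (fun w : Fin m → T' => ι (w i)) :=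
        @genAt_equivariant _ _ _ _ _ _ _ _ _ _ _ _ _ C hA γ hbase hbas T' hfin act' hsm (4 * g) ι
          hequ hιle hfull m i
      have hcl : ∀ w : Fin m → T',
          ι (w i) - ((d (w i) : Divisor Qbar F) + C.infDiv ((2 * g : ℕ) : ℤ)) ∈ Prin := fun w => by
        have h0 : ι (w i) - ((d (w i) : Divisor Qbar F) + C.infDiv ((2 * g : ℕ) : ℤ)) = 0 := by
          show ι (w i) - ((ι (w i) - _) + _) = 0
          rw [sub_add_cancel, sub_self]
        rw [h0]
        exact zero_mem _
      exact C.carries_of_genAt (Rg := powAdjoin ℓ act' A m) (N := 4 * g) (e := 2 * g)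
        (E := fun w : Fin m → T' => ι (w i))
        (c := fun w : Fin m → T' => (d (w i) : Divisor Qbar F)) hgen (fun w => hιdeg (w i)) le_rfl hcl
    refine C.carries_congr hsum fun w => ?_
    have h : Pic0.mk (∑ i, d (w i)) = Pic0.mk (c (∑ i, cls (w i))) := by
      rw [mk_sum, hc, map_sum]
      exact Finset.sum_congr rfl fun i _ => (hcls (w i)).symm
    rw [mk_eq_mk_iff_sub_mem, AddSubmonoidClass.coe_finsetSum] at h
    exact h

end Ctx

end FLTA.Grass

end
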